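/-
GATE-J / J4-TATE, leaf CARAYOL (helper19).

* (C0) `trace_pow_eq_of_charpoly_eq`: endomorphisms of free rank-2 modules with the same
  characteristic polynomial have the same traces of powers (Cayley–Hamilton).
* (C1) `eq_zero_of_trace_mul_eq_zero` / `eq_one_of_trace_mul_eq`: trace-kernel lemma.
* (C2) `trace_eq_of_charpoly_frob_eq`: two adic Galois representations over a Noetherian local ring
  with the same Frobenius characteristic polynomials outside a finite set have the same trace function.
* (C3) `isUnramifiedAt_of_charpoly_frob_eq`: unramifiedness transfers if moreover the first one is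
  residually absolutely irreducible.
-/
import Mathlib
import Fermat.Prelude.Def_GaloisRep_Adic
import Fermat.Agent.S53_helper36.Burnside
import Fermat.Agent.S53_helper36.SchurLocal
import Fermat.Agent.S53_helper36.Lifts
import Fermat.Agent.GJ.FrobLiftMain
import Fermat.Prelude.Def_CuspForm_HeckeGaloisRepDatum

set_option autoImplicit false

open Polynomial Module

namespace Fermat.Agent.GJ.Tate.Carayol

section Lucas

variable {A : Type*} [CommRing A] [Nontrivial A]
  {V : Type*} [AddCommGroup V] [Module A V] [Module.Free A V] [Module.Finite A V]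
  {V' : Type*} [AddCommGroup V'] [Module A V'] [Module.Free A V'] [Module.Finite A V']

omit [Nontrivial A] in
/-- The trace is minus the next-to-leading coefficient of the characteristic polynomial. -/
theorem trace_eq_neg_nextCoeff_charpoly (f : Module.End A V) :
    LinearMap.trace A V f = - f.charpoly.nextCoeff := by
  rw [LinearMap.trace_eq_matrix_trace A (Module.Free.chooseBasis A V) f,
    Matrix.trace_eq_neg_charpoly_nextCoeff]
  rfl

/-- Endomorphisms of free modules of rank two with the same characteristic polynomial have the same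
trace on every polynomial expression. -/
theorem trace_aeval_eq_of_charpoly_eq (hV : finrank A V = 2) (hV' : finrank A V' = 2)
    (f : Module.End A V) (f' : Module.End A V') (h : f.charpoly = f'.charpoly) (r : A[X]) :
    LinearMap.trace A V (aeval f r) = LinearMap.trace A V' (aeval f' r) := by
  have hmonic : f.charpoly.Monic := f.charpoly_monic
  have hdeg : f.charpoly.natDegree = 2 := by rw [LinearMap.charpoly_natDegree, hV]
  have htr : LinearMap.trace A V f = LinearMap.trace A V' f' := by
    rw [trace_eq_neg_nextCoeff_charpoly, trace_eq_neg_nextCoeff_charpoly, ← h]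
  obtain ⟨a, b, hsform⟩ : ∃ a b : A, r %ₘ f.charpoly = C a * X + C b := by
    have h1 : (r %ₘ f.charpoly).degree < f.charpoly.degree := degree_modByMonic_lt r hmonic
    rw [degree_eq_natDegree hmonic.ne_zero, hdeg] at h1
    exact ⟨_, _, eq_X_add_C_of_degree_le_one (Order.le_of_lt_succ h1)⟩
  have hr : r = (C a * X + C b) + f.charpoly * (r /ₘ f.charpoly) := by
    rw [← hsform]; exact (modByMonic_add_div r f.charpoly).symm
  have e1 : aeval f r = a • f + b • 1 := by
    rw [hr, map_add, map_mul, LinearMap.aeval_self_charpoly, zero_mul, add_zero, map_add, map_mul,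
      aeval_C, aeval_C, aeval_X, Algebra.algebraMap_eq_smul_one, Algebra.algebraMap_eq_smul_one,
      smul_mul_assoc, one_mul]
  have e2 : aeval f' r = a • f' + b • 1 := by
    rw [hr, map_add, map_mul, h, LinearMap.aeval_self_charpoly, zero_mul, add_zero, map_add,
      map_mul, aeval_C, aeval_C, aeval_X, Algebra.algebraMap_eq_smul_one,
      Algebra.algebraMap_eq_smul_one, smul_mul_assoc, one_mul]
  rw [e1, e2, map_add, map_add, map_smul, map_smul, map_smul, map_smul, htr,
    LinearMap.trace_one, LinearMap.trace_one, hV, hV']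

/-- (C0) Same characteristic polynomial (rank two) ⟹ same traces of all powers. -/
theorem trace_pow_eq_of_charpoly_eq (hV : finrank A V = 2) (hV' : finrank A V' = 2)
    (f : Module.End A V) (f' : Module.End A V') (h : f.charpoly = f'.charpoly) (j : ℕ) :
    LinearMap.trace A V (f ^ j) = LinearMap.trace A V' (f' ^ j) := by
  have := trace_aeval_eq_of_charpoly_eq hV hV' f f' h (X ^ j)
  simpa using this

end Lucas

section TraceKernel

variable {A : Type*} [CommRing A]
  {V : Type*} [AddCommGroup V] [Module A V] [Module.Free A V] [Module.Finite A V]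

/-- Nondegeneracy of the trace form on `End_A V`, `V` finite free. -/
theorem eq_zero_of_forall_trace_mul_eq_zero (X : Module.End A V)
    (h : ∀ Y : Module.End A V, LinearMap.trace A V (X * Y) = 0) : X = 0 := by
  classical
  let b := Module.Free.chooseBasis A V
  have hM : LinearMap.toMatrix b b X = 0 := by
    rw [Matrix.ext_iff_trace_mul_right]
    intro M
    have := h (Matrix.toLin b b M)
    rw [LinearMap.trace_eq_matrix_trace A b, Module.End.mul_eq_comp, LinearMap.toMatrix_comp b b b,
      LinearMap.toMatrix_toLin] at this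
    rw [this, zero_mul, Matrix.trace_zero]
  exact (LinearMap.toMatrix b b).injective (by rw [hM, map_zero])

variable {G : Type*} [Monoid G]

/-- (C1) **Trace-kernel lemma**, additive form: if the operators `r g` span `End_A V` and
`trace (X * r g) = 0` for all `g`, then `X = 0`. -/
theorem eq_zero_of_trace_mul_eq_zero (r : G →* Module.End A V)
    (hspan : Submodule.span A (Set.range r) = ⊤) (X : Module.End A V)
    (h : ∀ g, LinearMap.trace A V (X * r g) = 0) : X = 0 := by
  apply eq_zero_of_forall_trace_mul_eq_zero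
  intro Y
  have hY : Y ∈ Submodule.span A (Set.range r) := by rw [hspan]; trivial
  induction hY using Submodule.span_induction with
  | mem y hy =>
    obtain ⟨g, rfl⟩ := hy
    exact h g
  | zero => rw [mul_zero, map_zero]
  | add y z _ _ hy hz => rw [mul_add, map_add, hy, hz, add_zero]
  | smul a y _ hy => rw [mul_smul_comm, map_smul, hy, smul_zero]

/-- (C1) **Trace-kernel lemma**: if the operators `r g` span `End_A V` and
`trace (r s * r g) = trace (r g)` for all `g`, then `r s = 1`. -/
theorem eq_one_of_trace_mul_eq (r : G →* Module.End A V)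
    (hspan : Submodule.span A (Set.range r) = ⊤) (s : G)
    (h : ∀ g, LinearMap.trace A V (r s * r g) = LinearMap.trace A V (r g)) : r s = 1 := by
  rw [← sub_eq_zero]
  apply eq_zero_of_trace_mul_eq_zero r hspan
  intro g
  rw [sub_mul, one_mul, map_sub, h g, sub_self]

end TraceKernel

section Reduction

open scoped Classical in
/-- Reduction modulo an ideal `I` of the matrix (in the chosen basis) of an endomorphism of a finite
free module, as a ring homomorphism. -/
noncomputable def redMat {T : Type*} [CommRing T] (I : Ideal T) (V : Type*) [AddCommGroup V]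
    [Module T V] [Module.Free T V] [Module.Finite T V] :
    Module.End T V →+* Matrix (Free.ChooseBasisIndex T V) (Free.ChooseBasisIndex T V) (T ⧸ I) :=
  (Ideal.Quotient.mk I).mapMatrix.comp
    (LinearMap.toMatrixAlgEquiv (Free.chooseBasis T V) : Module.End T V →+* _)

variable {T : Type*} [CommRing T] (I : Ideal T) {V : Type*} [AddCommGroup V]
    [Module T V] [Module.Free T V] [Module.Finite T V]

theorem redMat_apply (f : Module.End T V) (i j : Free.ChooseBasisIndex T V) :
    redMat I V f i j =
      Ideal.Quotient.mk I ((Free.chooseBasis T V).repr (f (Free.chooseBasis T V j)) i) := by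
  classical
  show ((LinearMap.toMatrixAlgEquiv (Free.chooseBasis T V) f).map (Ideal.Quotient.mk I)) i j = _
  rw [Matrix.map_apply, LinearMap.toMatrixAlgEquiv_apply]

theorem trace_redMat (f : Module.End T V) :
    Matrix.trace (redMat I V f) = Ideal.Quotient.mk I (LinearMap.trace T V f) := by
  classical
  rw [LinearMap.trace_eq_matrix_trace T (Free.chooseBasis T V) f, AddMonoidHom.map_trace]
  rfl

omit [Module.Free T V] [Module.Finite T V] in
/-- Coordinates of an element of `I • ⊤` lie in `I`. -/
theorem repr_mem_of_mem_smul_top {ι : Type*} (b : Basis ι T V) {v : V}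
    (hv : v ∈ I • (⊤ : Submodule T V)) (i : ι) : b.repr v i ∈ I := by
  refine Submodule.smul_induction_on hv ?_ ?_
  · intro a ha w _
    rw [map_smul, Finsupp.smul_apply, smul_eq_mul]
    exact I.mul_mem_right _ ha
  · intro x y hx hy
    rw [map_add, Finsupp.add_apply]
    exact I.add_mem hx hy

theorem redMat_eq_one_of_sub_mem (f : Module.End T V)
    (h : ∀ v, f v - v ∈ I • (⊤ : Submodule T V)) : redMat I V f = 1 := by
  classical
  ext i j
  rw [redMat_apply, Matrix.one_apply]
  have h1 := repr_mem_of_mem_smul_top I (Free.chooseBasis T V) (h (Free.chooseBasis T V j)) i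
  rw [map_sub, Finsupp.sub_apply, Basis.repr_self, Finsupp.single_apply] at h1
  by_cases hij : i = j
  · subst hij
    rw [if_pos rfl] at h1 ⊢
    rw [← map_one (Ideal.Quotient.mk I), Ideal.Quotient.eq]
    exact h1
  · rw [if_neg hij]
    rw [if_neg (Ne.symm hij), sub_zero] at h1
    exact Ideal.Quotient.eq_zero_iff_mem.mpr h1

end Reduction

section Galois

open Fermat.Agent.Common_helper32 Fermat.Agent.GJ.FrobLift IsLocalRing
open Fermat.Agent.S53_helper36

variable {T : Type} [CommRing T] [IsLocalRing T]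

open scoped Classical in
/-- The pair `(ρ, ρ')` reduced modulo `𝔪 ^ n`, in matrix form: a finite-level representation. -/
noncomputable def redPair (ρ ρ' : GaloisRepAdic T) (n : ℕ) :
    GQ →* Matrix (Free.ChooseBasisIndex T ρ.V) (Free.ChooseBasisIndex T ρ.V)
        (T ⧸ maximalIdeal T ^ n) ×
      Matrix (Free.ChooseBasisIndex T ρ'.V) (Free.ChooseBasisIndex T ρ'.V)
        (T ⧸ maximalIdeal T ^ n) :=
  (((redMat (maximalIdeal T ^ n) ρ.V : Module.End T ρ.V →* _)).comp ρ.ρ).prod
    (((redMat (maximalIdeal T ^ n) ρ'.V : Module.End T ρ'.V →* _)).comp ρ'.ρ)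

theorem redPair_apply (ρ ρ' : GaloisRepAdic T) (n : ℕ) (σ : GQ) :
    redPair ρ ρ' n σ =
      (redMat (maximalIdeal T ^ n) ρ.V (ρ.ρ σ), redMat (maximalIdeal T ^ n) ρ'.V (ρ'.ρ σ)) :=
  rfl

theorem redPair_factors (ρ ρ' : GaloisRepAdic T) (n : ℕ) :
    GaloisFactorsThroughFiniteLevel (redPair ρ ρ' n) := by
  obtain ⟨L, hL, h1⟩ := ρ.isAdicContinuous n
  obtain ⟨L', hL', h1'⟩ := ρ'.isAdicContinuous n
  refine ⟨L ⊔ L', inferInstance, fun σ hσ => ?_⟩
  rw [redPair_apply, Prod.mk_eq_one]
  constructor
  · exact redMat_eq_one_of_sub_mem _ _ (h1 σ fun x hx => hσ x (le_sup_left (a := L) hx))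
  · exact redMat_eq_one_of_sub_mem _ _ (h1' σ fun x hx => hσ x (le_sup_right (b := L') hx))

/-- (C2) Two adic Galois representations over a Noetherian local ring with the same characteristic
polynomials at all Frobenius lifts at the primes outside a finite set `B` have the same trace
function. -/
theorem trace_eq_of_charpoly_frob_eq [IsNoetherianRing T] (ρ ρ' : GaloisRepAdic T)
    (B : Finset ℕ)
    (hfrob : ∀ ℓ : ℕ, ℓ.Prime → ℓ ∉ B → ∀ A : ValuationSubring Qb, A.LiesOverPrime ℓ →
      ∀ σ : GQ, A.IsFrobeniusAt σ ℓ →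
        LinearMap.charpoly (ρ.ρ σ) = LinearMap.charpoly (ρ'.ρ σ))
    (g : GQ) : ρ.trace g = ρ'.trace g := by
  rw [← sub_eq_zero]
  have hmem : ρ.trace g - ρ'.trace g ∈ (⨅ n : ℕ, maximalIdeal T ^ n) := by
    rw [Ideal.mem_iInf]
    intro n
    obtain ⟨ℓ, A, τ, j, hℓ, hℓB, hA, hτ, hpow⟩ :=
      exists_isFrobeniusAt_pow' (redPair ρ ρ' n) (redPair_factors ρ ρ' n) B g
    rw [redPair_apply, redPair_apply, Prod.pow_mk, Prod.mk.injEq] at hpow
    have e1 : redMat (maximalIdeal T ^ n) ρ.V (ρ.ρ τ) ^ j =
        redMat (maximalIdeal T ^ n) ρ.V ((ρ.ρ τ) ^ j) := (map_pow _ _ _).symm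
    have e2 : redMat (maximalIdeal T ^ n) ρ'.V (ρ'.ρ τ) ^ j =
        redMat (maximalIdeal T ^ n) ρ'.V ((ρ'.ρ τ) ^ j) := (map_pow _ _ _).symm
    have t1 := congrArg Matrix.trace (hpow.1.trans e1)
    have t2 := congrArg Matrix.trace (hpow.2.trans e2)
    rw [trace_redMat, trace_redMat] at t1 t2
    have hc := trace_pow_eq_of_charpoly_eq ρ.finrank_eq ρ'.finrank_eq _ _
      (hfrob ℓ hℓ hℓB A hA τ hτ) j
    rw [hc, ← t2] at t1
    exact Ideal.Quotient.eq.mp t1
  rw [Ideal.iInf_pow_eq_bot_of_isLocalRing _ (maximalIdeal.isMaximal T).ne_top] at hmem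
  exact hmem

/-- (C3) **Unramifiedness transfers** along equality of Frobenius characteristic polynomials, for a
residually absolutely irreducible representation. -/
theorem isUnramifiedAt_of_charpoly_frob_eq [IsNoetherianRing T] (ρ ρ' : GaloisRepAdic T)
    (B : Finset ℕ)
    (hfrob : ∀ ℓ : ℕ, ℓ.Prime → ℓ ∉ B → ∀ A : ValuationSubring Qb, A.LiesOverPrime ℓ →
      ∀ σ : GQ, A.IsFrobeniusAt σ ℓ →
        LinearMap.charpoly (ρ.ρ σ) = LinearMap.charpoly (ρ'.ρ σ))
    (habs : ρ.residual.IsAbsolutelyIrreducible) (q : ℕ) (hq : ρ'.IsUnramifiedAt q) :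
    ρ.IsUnramifiedAt q := by
  intro P hP σ hσ
  have hspan : Submodule.span T (Set.range ρ.ρ) = ⊤ :=
    end_span_eq_top_of_residual (fun σ => ρ.ρ σ) (ResidualGaloisRep_span_eq_top ρ.residual habs)
  apply eq_one_of_trace_mul_eq ρ.ρ hspan σ
  intro g
  have h1 := trace_eq_of_charpoly_frob_eq ρ ρ' B hfrob (σ * g)
  have h2 := trace_eq_of_charpoly_frob_eq ρ ρ' B hfrob g
  unfold GaloisRepAdic.trace at h1 h2
  rw [← map_mul, h1, h2, map_mul, hq P hP σ hσ, one_mul]

end Galois

section S31

open Fermat.Agent.Common_helper32 CuspForm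

variable {N : ℕ} [NeZero N] {S : Finset ℕ}
  {𝒪 : Type} [CommRing 𝒪] [IsDomain 𝒪] [IsDiscreteValuationRing 𝒪]
  [IsAdicComplete (IsLocalRing.maximalIdeal 𝒪) 𝒪]
  {θ : CuspForm.heckeAlgebra N 2 (↑S : Set ℕ) →+* IsLocalRing.ResidueField 𝒪}
  {T : Type} [CommRing T] [IsLocalRing T] [IsNoetherianRing T]
  [IsAdicComplete (IsLocalRing.maximalIdeal T) T] [Algebra 𝒪 T] [IsLocalHom (algebraMap 𝒪 T)]
  [Module.Finite 𝒪 T] [Module.Free 𝒪 T]

/-- **S31 in companion form**: the representation of a Hecke–Galois datum is unramified at `q` as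
soon as SOME adic representation over `T` with the same Frobenius characteristic polynomials
`X² − π(T_ℓ) X + ℓ` (`ℓ ∉ S`) is unramified at `q`. -/
theorem isUnramifiedAt_of_companion
    (hNS : ∀ q : ℕ, q.Prime → q ∣ N → q ∈ S)
    (H : CuspForm.HeckeGaloisRepDatum N (↑S : Set ℕ) 𝒪 θ T) (ρ' : GaloisRepAdic T)
    (hρ' : ∀ (ℓ : ℕ) (hℓ : ℓ.Prime) (hℓN : ¬ ℓ ∣ N) (hℓS : ℓ ∉ (↑S : Set ℕ)),
      ∀ A : ValuationSubring Qb, A.LiesOverPrime ℓ → ∀ σ : GQ, A.IsFrobeniusAt σ ℓ →
        LinearMap.charpoly (ρ'.ρ σ) =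
          X ^ 2 - C (H.π (heckeAlgebra.T hℓ hℓN hℓS)) * X + C ((ℓ : T)))
    (q : ℕ) (hq : ρ'.IsUnramifiedAt q) : H.ρ.IsUnramifiedAt q := by
  refine isUnramifiedAt_of_charpoly_frob_eq H.ρ ρ' S ?_ H.residual_absIrr q hq
  intro ℓ hℓ hℓS A hA σ hσ
  have hℓN : ¬ ℓ ∣ N := fun h => hℓS (hNS ℓ hℓ h)
  have hℓS' : ℓ ∉ (↑S : Set ℕ) := by simpa using hℓS
  rw [H.charpoly_frob ℓ hℓ hℓN hℓS' A hA σ hσ, hρ' ℓ hℓ hℓN hℓS' A hA σ hσ]

end S31

end Fermat.Agent.GJ.Tate.Carayol
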