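/-
GATE-J / J4-TATE, brick S31-CORE (helper53).

Pure algebra: a residually absolutely irreducible `ρ : GaloisRepAdic A` over a local ring `A` is
trivial at every `i ∈ G_ℚ` with `tr ρ(g·i) = tr ρ(g)` for all `g`.  (Burnside + Nakayama, from
helper36's `S53_helper36` library, give `span_A ρ(G_ℚ) = End_A V`; the trace pairing on
`End_A V` is perfect.)  This is the only "Carayol-type" input which statement S31 needs.
-/
import Fermat.Prelude.Def_GaloisRep_Adic
import Fermat.Agent.S53_helper36.Lifts

set_option autoImplicit false

namespace Fermat.Agent.GJ.Tate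

open Module IsLocalRing TensorProduct

section TracePairing

variable {R : Type*} [CommRing R] {V : Type*} [AddCommGroup V] [Module R V]
  [Module.Free R V] [Module.Finite R V]

/-- The trace pairing on the endomorphism ring of a finite free module is nondegenerate. -/
theorem end_eq_zero_of_trace_mul_eq_zero (f : Module.End R V)
    (h : ∀ g : Module.End R V, LinearMap.trace R V (f * g) = 0) : f = 0 := by
  classical
  let b := Module.Free.chooseBasis R V
  have h0 : LinearMap.toMatrix b b f = 0 := by
    rw [Matrix.ext_iff_trace_mul_right]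
    intro x
    have h1 := h (Matrix.toLin b b x)
    rw [LinearMap.trace_eq_matrix_trace R b, LinearMap.toMatrix_mul, LinearMap.toMatrix_toLin]
      at h1
    rw [h1, zero_mul, Matrix.trace_zero]
  exact (LinearMap.toMatrix b b).injective (by rw [h0, map_zero])

/-- If `tr (f ∘ r i) = 0` for a spanning family `r`, then `f = 0`. -/
theorem end_eq_zero_of_trace_mul_eq_zero_of_span {ι : Type*} (r : ι → Module.End R V)
    (hspan : Submodule.span R (Set.range r) = ⊤) (f : Module.End R V)
    (h : ∀ i, LinearMap.trace R V (f * r i) = 0) : f = 0 := by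
  apply end_eq_zero_of_trace_mul_eq_zero
  intro g
  have hg : g ∈ Submodule.span R (Set.range r) := by rw [hspan]; trivial
  induction hg using Submodule.span_induction with
  | mem x hx =>
    obtain ⟨i, rfl⟩ := hx
    exact h i
  | zero => rw [mul_zero, map_zero]
  | add x y _ _ hx hy => rw [mul_add, map_add, hx, hy, add_zero]
  | smul a x _ hx => rw [mul_smul_comm, map_smul, hx, smul_zero]

end TracePairing

section Galois

variable {A : Type} [CommRing A] [IsLocalRing A]

/-- Burnside + Nakayama: the operators of a residually absolutely irreducible representation span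
the endomorphism ring. -/
theorem span_range_eq_top_of_residual_absIrr (ρ : GaloisRepAdic A)
    (hirr : ρ.residual.IsAbsolutelyIrreducible) :
    Submodule.span A (Set.range ρ.ρ) = ⊤ := by
  apply Fermat.Agent.S53_helper36.end_span_eq_top_of_residual
  exact Fermat.Agent.S53_helper36.ResidualGaloisRep_span_eq_top ρ.residual hirr

/-- **S31-CORE**, pointwise form. -/
theorem rho_eq_one_of_trace_mul_eq (ρ : GaloisRepAdic A)
    (hirr : ρ.residual.IsAbsolutelyIrreducible)
    (i : AlgebraicClosure ℚ ≃ₐ[ℚ] AlgebraicClosure ℚ)
    (htr : ∀ g : AlgebraicClosure ℚ ≃ₐ[ℚ] AlgebraicClosure ℚ, ρ.trace (g * i) = ρ.trace g) :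
    ρ.ρ i = 1 := by
  rw [← sub_eq_zero]
  apply end_eq_zero_of_trace_mul_eq_zero_of_span (fun g => ρ.ρ g)
    (span_range_eq_top_of_residual_absIrr ρ hirr)
  intro g
  have h := htr g
  unfold GaloisRepAdic.trace at h
  rw [map_mul, LinearMap.trace_mul_comm] at h
  rw [sub_mul, one_mul, map_sub, h, sub_self]

/-- **S31-CORE**: a residually absolutely irreducible representation whose trace is invariant
under right translation by the inertia groups over `q` is unramified at `q`. -/
theorem isUnramifiedAt_of_trace_inertia (ρ : GaloisRepAdic A)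
    (hirr : ρ.residual.IsAbsolutelyIrreducible) (q : ℕ)
    (htr : ∀ P : ValuationSubring (AlgebraicClosure ℚ), P.LiesOverPrime q →
      ∀ i ∈ P.inertiaSubgroupIn ℚ, ∀ g : AlgebraicClosure ℚ ≃ₐ[ℚ] AlgebraicClosure ℚ,
        ρ.trace (g * i) = ρ.trace g) :
    ρ.IsUnramifiedAt q :=
  fun P hP i hi => rho_eq_one_of_trace_mul_eq ρ hirr i (htr P hP i hi)

end Galois

end Fermat.Agent.GJ.Tate
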