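/-
GATE-J / J4-TATE, brick S31-DENS (helper53).

Statement S31 (`ρ_H` of a Hecke–Galois datum is unramified at `q ∉ S`) from LEVELWISE Kummer/Tate
data (`TraceLevels` / `TateLevels`): for every `n` a ring `E n` killed by `p ^ n` (think
`End (Kum_{p^n})`) with a Hecke action `hecke n : 𝕋 →+* E n` and a Galois action
`gal n : G_ℚ →* E n` of finite level, unramified outside `S`, satisfying the Eichler–Shimura
relation at Frobenius lifts, and "uniformly faithful" (`faith`).  No compatibility between the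
levels is required, no `ℤ_p`, no inverse limit, no representation `ρ_𝔪`.

Proof: FL1 (helper22/helper77) on the product `(gal n', cyc mod p^n', ρ mod 𝔪^n)`, Lucas sequences
on both sides, `faith`, Krull intersection; then `S31Core` (trace pairing).
-/
import Fermat.Agent.GJ.Tate.S31Core
import Fermat.Agent.GJ.Tate.Carayol
import Fermat.Agent.GJ.Cyc.FrobCycAdic
import Fermat.Agent.GJ.FrobLiftMain

set_option autoImplicit false

open Polynomial Module IsLocalRing
open Fermat.Agent.Common_helper32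

namespace Fermat.Agent.GJ.Tate

section Lucas

/-- The Lucas sequence `V_j(a, d)`: `V_0 = 2`, `V_1 = a`, `V_{j+2} = a V_{j+1} - d V_j`. -/
def lucasV {R : Type*} [Ring R] (a d : R) : ℕ → R
  | 0 => 2
  | 1 => a
  | (j + 2) => a * lucasV a d (j + 1) - d * lucasV a d j

theorem lucasV_zero {R : Type*} [Ring R] (a d : R) : lucasV a d 0 = 2 := rfl

theorem lucasV_one {R : Type*} [Ring R] (a d : R) : lucasV a d 1 = a := rfl

theorem lucasV_add_two {R : Type*} [Ring R] (a d : R) (j : ℕ) :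
    lucasV a d (j + 2) = a * lucasV a d (j + 1) - d * lucasV a d j := rfl

theorem map_lucasV {R R' : Type*} [Ring R] [Ring R'] (f : R →+* R') (a d : R) (j : ℕ) :
    f (lucasV a d j) = lucasV (f a) (f d) j := by
  induction j using Nat.twoStepInduction with
  | zero => rw [lucasV_zero, lucasV_zero, map_ofNat]
  | one => rw [lucasV_one, lucasV_one]
  | more j h0 h1 => rw [lucasV_add_two, lucasV_add_two, map_sub, map_mul, map_mul, h0, h1]

/-- Newton's identity `V_j(u + v, u v) = u ^ j + v ^ j` for commuting `u`, `v`. -/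
theorem lucasV_add_mul_of_commute {R : Type*} [Ring R] (u v : R) (h : Commute u v) (j : ℕ) :
    lucasV (u + v) (u * v) j = u ^ j + v ^ j := by
  induction j using Nat.twoStepInduction with
  | zero => rw [lucasV_zero, pow_zero, pow_zero, one_add_one_eq_two]
  | one => rw [lucasV_one, pow_one, pow_one]
  | more j h0 h1 =>
    rw [lucasV_add_two, h0, h1]
    have e1 : v * u ^ (j + 1) = u * v * u ^ j := by
      rw [pow_succ', ← mul_assoc, h.eq]
    have e2 : u * v ^ (j + 1) = u * v * v ^ j := by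
      rw [pow_succ', ← mul_assoc]
    have e3 : u * u ^ (j + 1) = u ^ (j + 2) := by rw [← pow_succ']
    have e4 : v * v ^ (j + 1) = v ^ (j + 2) := by rw [← pow_succ']
    rw [add_mul, mul_add, mul_add, mul_add, e1, e2, e3, e4]
    abel

/-- If `x` is invertible with inverse `y` and `x² - a x + ℓ = 0`, then
`V_j(a, ℓ) = x ^ j + ℓ ^ j y ^ j`. -/
theorem lucasV_eq_pow_add_of_quadratic {E : Type*} [Ring E] (x y a : E) (ℓ : ℕ)
    (hxy : x * y = 1) (hyx : y * x = 1) (h : x * x - a * x + (ℓ : E) = 0) (j : ℕ) :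
    lucasV a (ℓ : E) j = x ^ j + (ℓ : E) ^ j * y ^ j := by
  have hc : ∀ z : E, Commute (ℓ : E) z := fun z => Nat.cast_commute ℓ z
  have ha : a = x + (ℓ : E) * y := by
    have h1 : (x * x - a * x + (ℓ : E)) * y = 0 := by rw [h, zero_mul]
    rw [add_mul, sub_mul, mul_assoc, mul_assoc, hxy, mul_one, mul_one] at h1
    rw [← sub_eq_zero, ← neg_eq_zero, ← h1]
    abel
  have hcomm : Commute x ((ℓ : E) * y) := by
    show x * ((ℓ : E) * y) = (ℓ : E) * y * x
    rw [← mul_assoc, ← (hc x).eq, mul_assoc, hxy, mul_assoc, hyx]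
  have hd : (ℓ : E) = x * ((ℓ : E) * y) := by
    rw [← mul_assoc, ← (hc x).eq, mul_assoc, hxy, mul_one]
  have key := lucasV_add_mul_of_commute x ((ℓ : E) * y) hcomm j
  rw [← ha, ← hd, (hc y).mul_pow] at key
  exact key

variable {A : Type*} [CommRing A] [Nontrivial A]
  {V : Type*} [AddCommGroup V] [Module A V] [Module.Free A V] [Module.Finite A V]

/-- Traces of powers of an endomorphism of a free module of rank two are the Lucas sequence of
its characteristic polynomial. -/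
theorem trace_pow_eq_lucasV (hV : finrank A V = 2) (f : Module.End A V) (a d : A)
    (h : f.charpoly = X ^ 2 - C a * X + C d) (j : ℕ) :
    LinearMap.trace A V (f ^ j) = lucasV a d j := by
  have hCH : f ^ 2 = a • f - d • 1 := by
    have h1 := LinearMap.aeval_self_charpoly f
    rw [h, map_add, map_sub, map_pow, map_mul, aeval_X, aeval_C, aeval_C,
      Algebra.algebraMap_eq_smul_one, Algebra.algebraMap_eq_smul_one, smul_mul_assoc, one_mul]
      at h1
    rw [← sub_eq_zero, ← h1]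
    abel
  have htr : LinearMap.trace A V f = a := by
    rw [LinearMap.trace_eq_matrix_trace A (Module.Free.chooseBasis A V) f,
      Matrix.trace_eq_neg_charpoly_nextCoeff, LinearMap.charpoly_toMatrix, h]
    have hdeg : (X ^ 2 - C a * X + C d : A[X]).natDegree = 2 := by
      rw [← h, LinearMap.charpoly_natDegree, hV]
    rw [nextCoeff_of_natDegree_pos (by rw [hdeg]; norm_num), hdeg]
    simp [coeff_X_pow, coeff_C]
  induction j using Nat.twoStepInduction with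
  | zero => rw [pow_zero, LinearMap.trace_one, hV, lucasV_zero]; norm_num
  | one => rw [pow_one, htr, lucasV_one]
  | more j h0 h1 =>
    have e : f ^ (j + 2) = a • f ^ (j + 1) - d • f ^ j := by
      rw [pow_add, hCH, mul_sub, mul_smul_comm, mul_smul_comm, mul_one, ← pow_succ]
    rw [e, map_sub, map_smul, map_smul, h0, h1, lucasV_add_two, smul_eq_mul, smul_eq_mul]

end Lucas


section CycMod

variable (p : ℕ) [Fact p.Prime]

/-- The cyclotomic character modulo `p ^ n`. -/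
noncomputable def cycMod (n : ℕ) : GQ →* (ZMod (p ^ n))ˣ where
  toFun σ := Units.map (PadicInt.toZModPow n).toMonoidHom
    (cyclotomicCharacter Qb p (σ : Qb ≃+* Qb))
  map_one' := by
    have h : ((1 : GQ) : Qb ≃+* Qb) = 1 := rfl
    rw [h, map_one, map_one]
  map_mul' σ τ := by
    have h : ((σ * τ : GQ) : Qb ≃+* Qb) = (σ : Qb ≃+* Qb) * (τ : Qb ≃+* Qb) := rfl
    rw [h, map_mul, map_mul]

theorem cycMod_apply (n : ℕ) (σ : GQ) :
    ((cycMod p n σ : (ZMod (p ^ n))ˣ) : ZMod (p ^ n)) =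
      PadicInt.toZModPow n ((cyclotomicCharacter Qb p (σ : Qb ≃+* Qb) : ℤ_[p]ˣ) : ℤ_[p]) := rfl

theorem cycMod_frob (n : ℕ) (A : ValuationSubring Qb) (l : ℕ) (hl : l.Prime)
    (hA : A.LiesOverPrime l) (hlp : l ≠ p) (σ : GQ) (hσ : A.IsFrobeniusAt σ l) :
    ((cycMod p n σ : (ZMod (p ^ n))ˣ) : ZMod (p ^ n)) = (l : ZMod (p ^ n)) := by
  rw [cycMod_apply, Cyc.cyclotomicCharacter_frob p A l hl hA hlp σ hσ, map_natCast]

theorem cycMod_inertia (n : ℕ) (A : ValuationSubring Qb) (l : ℕ) (hl : l.Prime)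
    (hA : A.LiesOverPrime l) (hlp : l ≠ p) (σ : GQ) (hσ : σ ∈ A.inertiaSubgroupIn ℚ) :
    cycMod p n σ = 1 := by
  ext
  rw [cycMod_apply, Cyc.cyclotomicCharacter_inertia p A l hl hA hlp σ hσ, Units.val_one, map_one,
    Units.val_one]

theorem cycMod_level (n : ℕ) : GaloisFactorsThroughFiniteLevel (cycMod p n) := by
  obtain ⟨F, hF, h⟩ := Cyc.exists_finiteDimensional_toZModPow_cyclotomicCharacter_eq_one p n
  refine ⟨F, hF, fun σ hσ => ?_⟩
  ext
  rw [cycMod_apply, h σ ((IntermediateField.mem_fixingSubgroup_iff F σ).mpr hσ), Units.val_one]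

end CycMod

section Generalities

theorem factorsThroughFiniteLevel_prod {M M' : Type} [Monoid M] [Monoid M'] {f : GQ →* M}
    {f' : GQ →* M'} (hf : GaloisFactorsThroughFiniteLevel f)
    (hf' : GaloisFactorsThroughFiniteLevel f') : GaloisFactorsThroughFiniteLevel (f.prod f') := by
  obtain ⟨L, hL, h1⟩ := hf
  obtain ⟨L', hL', h1'⟩ := hf'
  refine ⟨L ⊔ L', inferInstance, fun σ hσ => ?_⟩
  rw [MonoidHom.prod_apply, Prod.mk_eq_one]
  exact ⟨h1 σ fun x hx => hσ x (le_sup_left (a := L) hx),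
    h1' σ fun x hx => hσ x (le_sup_right (b := L') hx)⟩

theorem map_inv_eq_of_map_eq {G M : Type*} [Group G] [Monoid M] (f : G →* M) {a b : G}
    (h : f a = f b) : f a⁻¹ = f b⁻¹ := by
  calc f a⁻¹ = f a⁻¹ * (f b * f b⁻¹) := by rw [← map_mul, mul_inv_cancel, map_one, mul_one]
    _ = f a⁻¹ * f a * f b⁻¹ := by rw [h, mul_assoc]
    _ = f b⁻¹ := by rw [← map_mul, inv_mul_cancel, map_one, one_mul]

theorem natCast_eq_of_zmod_eq {E : Type*} [Ring E] {m : ℕ} (hm : ((m : ℕ) : E) = 0) {a b : ℕ}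
    (h : (a : ZMod m) = (b : ZMod m)) : (a : E) = (b : E) := by
  have h1 : (m : ℤ) ∣ (b : ℤ) - (a : ℤ) :=
    (Nat.modEq_iff_dvd).mp ((ZMod.natCast_eq_natCast_iff a b m).mp h)
  obtain ⟨k, hk⟩ := h1
  have h2 : ((b : ℤ) : E) - ((a : ℤ) : E) = 0 := by
    rw [← Int.cast_sub, hk, Int.cast_mul, Int.cast_natCast, hm, zero_mul]
  rw [Int.cast_natCast, Int.cast_natCast, sub_eq_zero] at h2
  exact h2.symm

end Generalities

section Levels

/-- Levelwise Kummer/Tate data over an abstract commutative "Hecke ring" `𝕋` with operators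
`Tl ℓ`, bad set `B`, residue characteristic `p`.  `E n` plays the role of `End (Kum_{p^n})`. -/
structure TraceLevels (𝕋 : Type) [CommRing 𝕋] (Tl : ℕ → 𝕋) (B : Finset ℕ) (p : ℕ) : Type 1 where
  /-- the ring of endomorphisms of the level-`p ^ n` Kummer module -/
  E : ℕ → Type
  [instRing : ∀ n, Ring (E n)]
  /-- the Hecke action -/
  hecke : ∀ n, 𝕋 →+* E n
  /-- the Galois action -/
  gal : ∀ n, GQ →* E n
  tors : ∀ n, ((p ^ n : ℕ) : E n) = 0
  level : ∀ n, GaloisFactorsThroughFiniteLevel (gal n)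
  unram : ∀ n (q : ℕ), q.Prime → q ∉ B → ∀ P : ValuationSubring Qb, P.LiesOverPrime q →
    ∀ σ ∈ P.inertiaSubgroupIn ℚ, gal n σ = 1
  es : ∀ n (ℓ : ℕ), ℓ.Prime → ℓ ∉ B → ∀ A : ValuationSubring Qb, A.LiesOverPrime ℓ →
    ∀ τ : GQ, A.IsFrobeniusAt τ ℓ →
      gal n τ * gal n τ - hecke n (Tl ℓ) * gal n τ + (ℓ : E n) = 0
  faith : ∃ c : ℕ, ∀ n (t : 𝕋), hecke (n + c) t = 0 → ∃ t' : 𝕋, t = (p ^ n) • t'

attribute [instance] TraceLevels.instRing

variable {𝕋 : Type} [CommRing 𝕋] {Tl : ℕ → 𝕋} {B : Finset ℕ} {p : ℕ} [Fact p.Prime]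
  (D : TraceLevels 𝕋 Tl B p) (hpB : p ∈ B)
  {T : Type} [CommRing T] [IsLocalRing T]
  (π : 𝕋 →+* T) (ρ : GaloisRepAdic T)
  (hfrob : ∀ ℓ : ℕ, ℓ.Prime → ℓ ∉ B → ∀ A : ValuationSubring Qb, A.LiesOverPrime ℓ →
    ∀ σ : GQ, A.IsFrobeniusAt σ ℓ →
      LinearMap.charpoly (ρ.ρ σ) = X ^ 2 - C (π (Tl ℓ)) * X + C ((ℓ : T)))

open scoped Classical in
open Carayol in
/-- `ρ` reduced modulo `𝔪 ^ n`, in matrix form. -/
noncomputable def redRho (n : ℕ) :
    GQ →* Matrix (Free.ChooseBasisIndex T ρ.V) (Free.ChooseBasisIndex T ρ.V)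
      (T ⧸ maximalIdeal T ^ n) :=
  (redMat (maximalIdeal T ^ n) ρ.V).toMonoidHom.comp ρ.ρ

open Carayol in
theorem redRho_apply (n : ℕ) (σ : GQ) :
    redRho ρ n σ = redMat (maximalIdeal T ^ n) ρ.V (ρ.ρ σ) := rfl

open Carayol in
theorem redRho_factors (n : ℕ) : GaloisFactorsThroughFiniteLevel (redRho ρ n) := by
  obtain ⟨L, hL, h1⟩ := ρ.isAdicContinuous n
  exact ⟨L, hL, fun σ hσ => redMat_eq_one_of_sub_mem _ _ (h1 σ hσ)⟩

include hpB hfrob in
open Carayol in
/-- Every `g ∈ G_ℚ` is approximated, simultaneously modulo `𝔪 ^ n` on the `T`-side and on the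
level `n'` Kummer module, by a Hecke operator `t = V_j(T_ℓ, ℓ)`. -/
theorem exists_hecke_approx (n n' : ℕ) (g : GQ) :
    ∃ (t : 𝕋) (c : ℕ), ρ.trace g - π t ∈ maximalIdeal T ^ n ∧
      D.hecke n' t = D.gal n' g + (c : D.E n') * D.gal n' g⁻¹ ∧
      ((cycMod p n' g : (ZMod (p ^ n'))ˣ) : ZMod (p ^ n')) = (c : ZMod (p ^ n')) := by
  obtain ⟨ℓ, A, τ, j, hℓ, hℓB, hA, hτ, hpow⟩ :=
    FrobLift.exists_isFrobeniusAt_pow'
      ((D.gal n').prod ((cycMod p n').prod (redRho ρ n)))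
      (factorsThroughFiniteLevel_prod (D.level n')
        (factorsThroughFiniteLevel_prod (cycMod_level p n') (redRho_factors ρ n))) B g
  rw [MonoidHom.prod_apply, MonoidHom.prod_apply, MonoidHom.prod_apply, MonoidHom.prod_apply,
    Prod.pow_mk, Prod.pow_mk, Prod.mk.injEq, Prod.mk.injEq] at hpow
  obtain ⟨h1, h2, h3⟩ := hpow
  have hℓp : ℓ ≠ p := fun h => hℓB (h ▸ hpB)
  refine ⟨lucasV (Tl ℓ) (ℓ : 𝕋) j, ℓ ^ j, ?_, ?_, ?_⟩
  · -- the `T`-side
    rw [redRho_apply, redRho_apply] at h3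
    have e1 : redMat (maximalIdeal T ^ n) ρ.V (ρ.ρ τ) ^ j =
        redMat (maximalIdeal T ^ n) ρ.V ((ρ.ρ τ) ^ j) := (map_pow _ _ _).symm
    have t1 := congrArg Matrix.trace (h3.trans e1)
    rw [trace_redMat, trace_redMat,
      trace_pow_eq_lucasV ρ.finrank_eq (ρ.ρ τ) (π (Tl ℓ)) (ℓ : T) (hfrob ℓ hℓ hℓB A hA τ hτ) j]
      at t1
    rw [map_lucasV, map_natCast]
    exact Ideal.Quotient.eq.mp t1
  · -- the Kummer side
    have hxy : D.gal n' τ * D.gal n' τ⁻¹ = 1 := by rw [← map_mul, mul_inv_cancel, map_one]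
    have hyx : D.gal n' τ⁻¹ * D.gal n' τ = 1 := by rw [← map_mul, inv_mul_cancel, map_one]
    have key := lucasV_eq_pow_add_of_quadratic (D.gal n' τ) (D.gal n' τ⁻¹)
      (D.hecke n' (Tl ℓ)) ℓ hxy hyx (D.es n' ℓ hℓ hℓB A hA τ hτ) j
    have hinv : D.gal n' g⁻¹ = D.gal n' τ⁻¹ ^ j := by
      have h4 : D.gal n' g = D.gal n' (τ ^ j) := by rw [map_pow, h1]
      rw [map_inv_eq_of_map_eq (D.gal n') h4, ← map_pow, inv_pow]
    rw [map_lucasV, map_natCast, key, ← h1, ← hinv, Nat.cast_pow]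
  · -- the cyclotomic character
    rw [h2, Units.val_pow_eq_pow_val, cycMod_frob p n' A ℓ hℓ hA hℓp τ hτ, Nat.cast_pow]

include D hpB hfrob in
/-- **S31-DENS**: the trace of `ρ` is invariant under right translation by inertia at `q ∉ B`. -/
theorem trace_mul_inertia_eq [IsNoetherianRing T] (hpT : (p : T) ∈ maximalIdeal T)
    (q : ℕ) (hq : q.Prime) (hqB : q ∉ B) (P : ValuationSubring Qb) (hP : P.LiesOverPrime q)
    (i : GQ) (hi : i ∈ P.inertiaSubgroupIn ℚ) (g : GQ) :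
    ρ.trace (g * i) = ρ.trace g := by
  rw [← sub_eq_zero]
  have hmem : ρ.trace (g * i) - ρ.trace g ∈ (⨅ n : ℕ, maximalIdeal T ^ n) := by
    rw [Ideal.mem_iInf]
    intro n
    obtain ⟨c, hc⟩ := D.faith
    obtain ⟨t, a, ht1, ht2, ht3⟩ := exists_hecke_approx D hpB π ρ hfrob n (n + c) g
    obtain ⟨t', a', ht1', ht2', ht3'⟩ := exists_hecke_approx D hpB π ρ hfrob n (n + c) (g * i)
    have hqp : q ≠ p := fun h => hqB (h ▸ hpB)
    have hcyc : cycMod p (n + c) (g * i) = cycMod p (n + c) g := by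
      rw [map_mul, cycMod_inertia p (n + c) P q hq hP hqp i hi, mul_one]
    have haa : (a : D.E (n + c)) = (a' : D.E (n + c)) :=
      natCast_eq_of_zmod_eq (D.tors (n + c)) (by rw [← ht3, ← ht3', hcyc])
    have hgi : D.gal (n + c) (g * i) = D.gal (n + c) g := by
      rw [map_mul, D.unram (n + c) q hq hqB P hP i hi, mul_one]
    have hgi' : D.gal (n + c) (g * i)⁻¹ = D.gal (n + c) g⁻¹ := map_inv_eq_of_map_eq _ hgi
    have hker : D.hecke (n + c) (t' - t) = 0 := by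
      rw [map_sub, ht2, ht2', hgi, hgi', haa, sub_self]
    obtain ⟨t'', ht''⟩ := hc n (t' - t) hker
    have hπ : π t' - π t ∈ maximalIdeal T ^ n := by
      rw [← map_sub, ht'', map_nsmul, nsmul_eq_mul, Nat.cast_pow]
      exact Ideal.mul_mem_right _ _ (Ideal.pow_mem_pow hpT n)
    have e : ρ.trace (g * i) - ρ.trace g =
        (ρ.trace (g * i) - π t') + (π t' - π t) - (ρ.trace g - π t) := by ring
    rw [e]
    exact Ideal.sub_mem _ (Ideal.add_mem _ ht1' hπ) ht1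
  rw [Ideal.iInf_pow_eq_bot_of_isLocalRing _ (maximalIdeal.isMaximal T).ne_top] at hmem
  exact hmem

include D hpB hfrob in
/-- **S31, abstract form**: a residually absolutely irreducible `ρ` over a Noetherian local ring
`T` whose Frobenius characteristic polynomials are `X² - π(T_ℓ) X + ℓ` (`ℓ ∉ B`) is unramified at
every prime `q ∉ B`, as soon as levelwise Kummer/Tate data `D` exist. -/
theorem isUnramifiedAt_of_traceLevels [IsNoetherianRing T] (hpT : (p : T) ∈ maximalIdeal T)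
    (hirr : ρ.residual.IsAbsolutelyIrreducible) (q : ℕ) (hq : q.Prime) (hqB : q ∉ B) :
    ρ.IsUnramifiedAt q :=
  isUnramifiedAt_of_trace_inertia ρ hirr q fun P hP i hi g =>
    trace_mul_inertia_eq D hpB π ρ hfrob hpT q hq hqB P hP i hi g

end Levels

section S31

open CuspForm

open scoped Classical in
/-- The Hecke operators `T_ℓ ∈ heckeAlgebra N 2 S` as a total function of `ℓ` (zero for bad `ℓ`). -/
noncomputable def heckeTl (N : ℕ) [NeZero N] (S : Finset ℕ) (ℓ : ℕ) :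
    heckeAlgebra N 2 (↑S : Set ℕ) :=
  if h : ℓ.Prime ∧ ¬ ℓ ∣ N ∧ ℓ ∉ (↑S : Set ℕ) then heckeAlgebra.T h.1 h.2.1 h.2.2 else 0

theorem heckeTl_eq {N : ℕ} [NeZero N] {S : Finset ℕ} {ℓ : ℕ} (hℓ : ℓ.Prime) (hℓN : ¬ ℓ ∣ N)
    (hℓS : ℓ ∉ (↑S : Set ℕ)) : heckeTl N S ℓ = heckeAlgebra.T hℓ hℓN hℓS := by
  unfold heckeTl
  rw [dif_pos ⟨hℓ, hℓN, hℓS⟩]

/-- **Levelwise Tate data for `(N, S, p)`**: the interface consumed by S31.  For every `n`: a ring
`E n` with `p ^ n = 0` (think `End (Kum_{p^n}(F_N))`), `hecke n : heckeAlgebra N 2 S →+* E n`,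
`gal n : G_ℚ →* E n` of finite level, trivial on inertia at `q ∉ S`, with
`gal τ * gal τ - hecke T_ℓ * gal τ + ℓ = 0` at Frobenius lifts `τ` at `ℓ ∉ S`, and
`faith : ∃ c, ∀ n t, hecke (n + c) t = 0 → ∃ t', t = p ^ n • t'`. -/
abbrev TateLevels (N : ℕ) [NeZero N] (S : Finset ℕ) (p : ℕ) : Type 1 :=
  TraceLevels (heckeAlgebra N 2 (↑S : Set ℕ)) (heckeTl N S) S p

variable {p : ℕ} {N : ℕ} [NeZero N] {S : Finset ℕ}
  {𝒪 : Type} [CommRing 𝒪] [IsDomain 𝒪] [IsDiscreteValuationRing 𝒪]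
  [IsAdicComplete (IsLocalRing.maximalIdeal 𝒪) 𝒪]
  {θ : CuspForm.heckeAlgebra N 2 (↑S : Set ℕ) →+* IsLocalRing.ResidueField 𝒪}
  {T : Type} [CommRing T] [IsLocalRing T] [IsNoetherianRing T]
  [IsAdicComplete (IsLocalRing.maximalIdeal T) T] [Algebra 𝒪 T] [IsLocalHom (algebraMap 𝒪 T)]
  [Module.Finite 𝒪 T] [Module.Free 𝒪 T]

/-- **S31 from levelwise Tate data** (the frozen statement S31 with the extra hypothesis `D`). -/
theorem s31_of_tateLevels (D : TateLevels N S p) (hp : p.Prime)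
    (hp𝒪 : (p : 𝒪) ∈ IsLocalRing.maximalIdeal 𝒪) (hpS : p ∈ S)
    (hNS : ∀ q : ℕ, q.Prime → q ∣ N → q ∈ S)
    (H : CuspForm.HeckeGaloisRepDatum N (↑S : Set ℕ) 𝒪 θ T)
    (q : ℕ) (hq : q.Prime) (hqS : q ∉ S) :
    H.ρ.IsUnramifiedAt q := by
  have : Fact p.Prime := ⟨hp⟩
  have hpT : (p : T) ∈ maximalIdeal T := by
    have h := map_nonunit (algebraMap 𝒪 T) (p : 𝒪) hp𝒪
    rwa [map_natCast] at h
  refine isUnramifiedAt_of_traceLevels D hpS H.π H.ρ ?_ hpT H.residual_absIrr q hq hqS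
  intro ℓ hℓ hℓS A hA σ hσ
  have hℓN : ¬ ℓ ∣ N := fun h => hℓS (hNS ℓ hℓ h)
  have hℓS' : ℓ ∉ (↑S : Set ℕ) := by simpa using hℓS
  rw [heckeTl_eq hℓ hℓN hℓS']
  exact H.charpoly_frob ℓ hℓ hℓN hℓS' A hA σ hσ

end S31

end Fermat.Agent.GJ.Tate
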