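/-
GATE-J / J4-TATE, brick S31-ADAPTER (helper53).

`KumLevelData.ofKumModels`: helper31's abstract Kummer models `J4Asm.KumModel N (p ^ n)` at all the
moduli `p ^ n` (helper42's `KumType.kumModel N (p ^ n) …` is one), a lattice `Λ` with a faithful
Hecke action and comparison maps `Θ n : Λ →+ (M n).K` (onto, kernel `p ^ n Λ`, Hecke-equivariant)
give `KumLevelData N S p`, hence (by `s31_of_kumLevelData`) the frozen statement S31.
-/
import Fermat.Agent.GJ.Tate.LevelsOfKum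
import Fermat.Agent.GJ.J4.ESModule

set_option autoImplicit false

open Fermat.Agent.Common_helper32 CuspForm

namespace Fermat.Agent.GJ.Tate

/-- Forgetting linearity, as a ring homomorphism. -/
def endToAddEnd (R M : Type*) [Semiring R] [AddCommMonoid M] [Module R M] :
    Module.End R M →+* AddMonoid.End M where
  toFun f := f.toAddMonoidHom
  map_one' := rfl
  map_mul' _ _ := rfl
  map_zero' := rfl
  map_add' _ _ := rfl

theorem endToAddEnd_apply {R M : Type*} [Semiring R] [AddCommMonoid M] [Module R M]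
    (f : Module.End R M) (x : M) : endToAddEnd R M f x = f x := rfl

theorem not_dvd_mul_pow_of_notMem {N : ℕ} {S : Finset ℕ} {p : ℕ} (hp : p.Prime) (hpS : p ∈ S)
    (hNS : ∀ q : ℕ, q.Prime → q ∣ N → q ∈ S) {ℓ : ℕ} (hℓ : ℓ.Prime) (hℓS : ℓ ∉ S) (n : ℕ) :
    ¬ ℓ ∣ N * p ^ n := by
  intro h
  rcases (Nat.Prime.dvd_mul hℓ).mp h with h1 | h1
  · exact hℓS (hNS ℓ hℓ h1)
  · have h2 : ℓ = p := (Nat.prime_dvd_prime_iff_eq hℓ hp).mp (hℓ.dvd_of_dvd_pow h1)
    exact hℓS (h2 ▸ hpS)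

/-- **The adapter**: Kummer models at the moduli `p ^ n` + lattice comparison ⟹ `KumLevelData`. -/
noncomputable def KumLevelData.ofKumModels {N : ℕ} [NeZero N] {S : Finset ℕ} {p : ℕ}
    (hp : p.Prime) (hpS : p ∈ S) (hNS : ∀ q : ℕ, q.Prime → q ∣ N → q ∈ S)
    (Λ : Type) [AddCommGroup Λ] [Module.Free ℤ Λ] [Module.Finite ℤ Λ]
    (act : heckeAlgebra N 2 (↑S : Set ℕ) →+* Module.End ℤ Λ) (hact : Function.Injective act)
    (M : ∀ n : ℕ, J4Asm.KumModel N (p ^ n))
    (Θ : ∀ n, Λ →+ (M n).K) (hsurj : ∀ n, Function.Surjective (Θ n))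
    (hker : ∀ n x, Θ n x = 0 → ∃ y, x = (p ^ n) • y)
    (hΘT : ∀ n (ℓ : ℕ), ℓ.Prime → ℓ ∉ S → ∀ x,
      Θ n (act (heckeTl N S ℓ) x) = (M n).T ℓ (Θ n x)) :
    KumLevelData N S p where
  Λ := Λ
  act := act
  act_injective := hact
  K n := (M n).K
  gal n := (endToAddEnd (ZMod (p ^ n)) (M n).K : _ →* _).comp (M n).gal
  Tn n ℓ := endToAddEnd (ZMod (p ^ n)) (M n).K ((M n).T ℓ)
  Θ := Θ
  Θ_surjective := hsurj
  Θ_eq_zero := hker
  Θ_pow_smul n x := by
    rw [map_nsmul, ← Nat.cast_smul_eq_nsmul (ZMod (p ^ n)), ZMod.natCast_self, zero_smul]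
  Θ_T n ℓ hℓ hℓS x := hΘT n ℓ hℓ hℓS x
  level n x := (M n).level x
  unram n q hq hqS P hP σ hσ := by
    rw [MonoidHom.comp_apply,
      (M n).inertia q hq (not_dvd_mul_pow_of_notMem hp hpS hNS hq hqS n) P hP σ hσ]
    exact map_one _
  frob n ℓ hℓ hℓS A hA τ hτ := by
    have h := congrArg (endToAddEnd (ZMod (p ^ n)) (M n).K)
      ((M n).frob ℓ hℓ (not_dvd_mul_pow_of_notMem hp hpS hNS hℓ hℓS n) A hA τ hτ)
    rw [map_add, map_sub, map_mul, map_mul, map_zero] at h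
    have e : endToAddEnd (ZMod (p ^ n)) (M n).K
        ((ℓ : ZMod (p ^ n)) • (1 : Module.End (ZMod (p ^ n)) (M n).K)) =
        (ℓ : AddMonoid.End (M n).K) := by
      ext k
      rw [endToAddEnd_apply, LinearMap.smul_apply, Module.End.one_apply,
        Nat.cast_smul_eq_nsmul, AddMonoid.End.natCast_apply]
    rw [e] at h
    exact h

end Fermat.Agent.GJ.Tate
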