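/-
GATE-J / J4-TATE, S31 TOP (helper53).

`s31_of_gates : K18sPow → TowerGate N S p → (frozen statement S31)`.

* `K18sPow` = J1's clause-free Kummer statement (K18s) for a GENERAL exponent `m` (`ℓ ∤ N m`);
  it is `KumFinal.K18sAll` without the primality of the exponent.
* `TowerGate N S p` = J2's tower export (EIGS), relational like `KumGroup.EIG`: a finite free
  `ℤ`-lattice `Λ` with a FAITHFUL action of `heckeAlgebra N 2 S`, and for every `n` an additive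
  surjection `Θ : Λ → Kum_{p^n}(F_N)` with kernel `p ^ n Λ`, sending `T_ℓ x` to the class of the
  Hecke norm of a representative of `Θ x`.  No compatibility between the levels is required.

Everything else (HN, ES, KUMTYPE at the moduli `p ^ n`, FL1, CYC, Lucas, Artin–Rees, Burnside,
Nakayama, trace pairing) is plugged in.
-/
import Fermat.Agent.GJ.Tate.LevelsOfKumModel
import Fermat.Agent.GJ.J4.KumFinal

set_option autoImplicit false

open CuspForm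

namespace Fermat.Agent.GJ.Tate.S31Top

open Fermat.Agent.GJ.KumGroup Fermat.Agent.GJ.Kum.KumType Fermat.Agent.GJ.J4Asm
open Fermat.Agent.GJ.S18.Front (K18s)
open Fermat.Agent.GJ.KumFinal (hnMemHyp hnDivHyp)

/-- `ℚ̄`. -/
local notation "Qb" => AlgebraicClosure ℚ

/-- J1's export (K18s) at every level, every exponent `m > 0`, every prime `ℓ ∤ N m` and every
place over `ℓ`. -/
def K18sPow : Prop :=
  ∀ (N : ℕ) [NeZero N] (m ℓ : ℕ), 0 < m → ℓ.Prime → ¬ ℓ ∣ N * m →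
    ∀ A : ValuationSubring Qb, A.LiesOverPrime ℓ → K18s A (IsLocalRing.residue A) N m

/-- J2's tower export (EIGS), relational form; see the file header. -/
def TowerGate (N : ℕ) [NeZero N] (S : Finset ℕ) (p : ℕ) : Prop :=
  ∃ (Λ : Type) (_ : AddCommGroup Λ) (_ : Module.Free ℤ Λ) (_ : Module.Finite ℤ Λ)
    (act : heckeAlgebra N 2 (↑S : Set ℕ) →+* Module.End ℤ Λ), Function.Injective act ∧
    ∀ n : ℕ, ∃ Θ : Λ →+ Additive (Kum Qb (FK N) (p ^ n)), Function.Surjective Θ ∧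
      (∀ x, Θ x = 0 → ∃ y, x = (p ^ n) • y) ∧
      ∀ (ℓ : ℕ) (hℓ : ℓ.Prime) (hℓN : ¬ ℓ ∣ N) (hℓS : ℓ ∉ (↑S : Set ℕ)) (x : Λ)
        (u u' : pDivUnits Qb (FK N) (p ^ n)),
        Θ x = Additive.ofMul (Kum.mk u) →
        ((((u' : pDivUnits Qb (FK N) (p ^ n)) : (FK N)ˣ) : FK N) : LaurentSeries Qb) =
          @heckeNormSeries Qb _ ℓ ⟨hℓ.ne_zero⟩
            ((((u : pDivUnits Qb (FK N) (p ^ n)) : (FK N)ˣ) : FK N) : LaurentSeries Qb) →
        Θ (act (heckeAlgebra.T hℓ hℓN hℓS) x) = Additive.ofMul (Kum.mk u')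

section Converters

variable (N : ℕ) [NeZero N]

/-- (ES) at a general modulus from (K18s) at that exponent. -/
theorem es_hyps_pow (hK : K18sPow) {m : ℕ} (hm : 0 < m) {ℓ : ℕ} (hℓ : ℓ.Prime)
    (hℓNm : ¬ ℓ ∣ N * m) : ESInertiaHyp N m ℓ ∧ ESFrobHyp N m ℓ := by
  have : Fact ℓ.Prime := ⟨hℓ⟩
  have : NeZero ℓ := ⟨hℓ.ne_zero⟩
  have hℓN : ¬ ℓ ∣ N := fun h => hℓNm (Dvd.dvd.mul_right h m)
  have h := Kum.es_of_k18s (N := N) (p := m) (ℓ := ℓ) hm
    (fun A hA => hK N m ℓ hm hℓ hℓNm A hA)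
    (fun u hu => HN.hnMem N ℓ hℓ hℓN u hu)
    (fun u x hu hx hdiv => HN.hnDiv N ℓ hℓ hℓN m u x hu hx hdiv)
  refine ⟨h.1, ?_⟩
  intro _ A hA s hs u hu hdiv
  exact h.2 A hA s hs u hu hdiv

/-- The Kummer model at the modulus `m`, from (K18s) at the exponent `m`. -/
noncomputable def kumModelPow (hK : K18sPow) (m : ℕ) (hm : 0 < m) : KumModel N m :=
  kumModel N m (fun _ hℓ hℓN => hnMemHyp N hℓ hℓN) (fun _ hℓ hℓN => hnDivHyp N m hℓ hℓN)
    (fun _ hℓ hℓNm => (es_hyps_pow N hK hm hℓ hℓNm).1)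
    (fun _ hℓ hℓNm => (es_hyps_pow N hK hm hℓ hℓNm).2)

end Converters

variable {p : ℕ} {N : ℕ} [NeZero N] {S : Finset ℕ}

/-- The Kummer level data from the two gates. -/
theorem nonempty_kumLevelData (hK : K18sPow) (hT : TowerGate N S p) (hp : p.Prime)
    (hpS : p ∈ S) (hNS : ∀ q : ℕ, q.Prime → q ∣ N → q ∈ S) :
    Nonempty (KumLevelData N S p) := by
  obtain ⟨Λ, _, _, _, act, hact, hΘall⟩ := hT
  choose Θ hsurj hker hrel using hΘall
  have hpos : ∀ n : ℕ, 0 < p ^ n := fun n => pow_pos hp.pos n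
  refine ⟨KumLevelData.ofKumModels hp hpS hNS Λ act hact
    (fun n => kumModelPow N hK (p ^ n) (hpos n)) Θ hsurj hker ?_⟩
  intro n ℓ hℓ hℓS x
  have hℓN : ¬ ℓ ∣ N := fun h => hℓS (hNS ℓ hℓ h)
  have hℓS' : ℓ ∉ (↑S : Set ℕ) := by simpa using hℓS
  have : NeZero ℓ := ⟨hℓ.ne_zero⟩
  obtain ⟨u, hu⟩ := exists_rep (K := Qb) (F := FK N) (p := p ^ n) (Θ n x)
  set hM := hnMemHyp N hℓ hℓN with hMdef
  set hD := hnDivHyp N (p ^ n) hℓ hℓN with hDdef
  set u' : pDivUnits Qb (FK N) (p ^ n) := ⟨heckeUnits hM u, heckeUnits_mem hM hD u u.2⟩ with hu'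
  have h1 := hrel n ℓ hℓ hℓN hℓS' x u u' hu rfl
  have h2 := kumModel_T_cls_of_eq (p := p ^ n) (fun _ hℓ hℓN => hnMemHyp N hℓ hℓN)
    (fun _ hℓ hℓN => hnDivHyp N (p ^ n) hℓ hℓN)
    (fun _ hℓ hℓNm => (es_hyps_pow N hK (hpos n) hℓ hℓNm).1)
    (fun _ hℓ hℓNm => (es_hyps_pow N hK (hpos n) hℓ hℓNm).2) hℓ hℓN u u' rfl
  rw [heckeTl_eq hℓ hℓN hℓS']
  exact h1.trans (h2.symm.trans (congrArg ((kumModelPow N hK (p ^ n) (hpos n)).T ℓ) hu).symm)

variable {𝒪 : Type} [CommRing 𝒪] [IsDomain 𝒪] [IsDiscreteValuationRing 𝒪]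
  [IsAdicComplete (IsLocalRing.maximalIdeal 𝒪) 𝒪]
  {θ : CuspForm.heckeAlgebra N 2 (↑S : Set ℕ) →+* IsLocalRing.ResidueField 𝒪}
  {T : Type} [CommRing T] [IsLocalRing T] [IsNoetherianRing T]
  [IsAdicComplete (IsLocalRing.maximalIdeal T) T] [Algebra 𝒪 T] [IsLocalHom (algebraMap 𝒪 T)]
  [Module.Finite 𝒪 T] [Module.Free 𝒪 T]

/-- **The frozen statement S31 from (K18s at general exponents) and (EIGS tower).** -/
theorem s31_of_gates (hK : K18sPow) (hT : TowerGate N S p) (hp : p.Prime)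
    (hp𝒪 : (p : 𝒪) ∈ IsLocalRing.maximalIdeal 𝒪) (hpS : p ∈ S)
    (hNS : ∀ q : ℕ, q.Prime → q ∣ N → q ∈ S)
    (H : CuspForm.HeckeGaloisRepDatum N (↑S : Set ℕ) 𝒪 θ T)
    (q : ℕ) (hq : q.Prime) (hqS : q ∉ S) :
    H.ρ.IsUnramifiedAt q := by
  obtain ⟨D⟩ := nonempty_kumLevelData hK hT hp hpS hNS
  exact s31_of_kumLevelData D hp hp𝒪 hpS hNS H q hq hqS

end Fermat.Agent.GJ.Tate.S31Top
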