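import Mathlib

/-!
# GATE-J / J4-TATE (helper23): changing the ideal of an adic completeness statement

* `isAdicComplete_of_le_of_pow_le` : if `J ≤ I` and every `Jⁿ` contains a power of `I`, then
  `I`-adic completeness implies `J`-adic completeness;
* `isAdicComplete_span_of_dvr` : a discrete valuation ring which is complete for its maximal ideal
  is `a`-adically complete for every nonzero non-unit `a` (for S30: `a = p`).
-/

set_option autoImplicit false

namespace Fermat.Agent.GJ.Tate.Lim

variable {R : Type*} [CommRing R] {M : Type*} [AddCommGroup M] [Module R M]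

theorem isAdicComplete_of_le_of_pow_le {I J : Ideal R} (hJI : J ≤ I)
    (h : ∀ n : ℕ, ∃ k : ℕ, I ^ k ≤ J ^ n) [IsAdicComplete I M] : IsAdicComplete J M := by
  have hle : ∀ n : ℕ, (J ^ n • ⊤ : Submodule R M) ≤ I ^ n • ⊤ := fun n =>
    Submodule.smul_mono (Ideal.pow_right_mono hJI n) le_rfl
  have hH : IsHausdorff J M := by
    refine ⟨fun x hx => ?_⟩
    refine IsHausdorff.haus (inferInstance : IsHausdorff I M) x fun n => ?_
    exact SModEq.mono (hle n) (hx n)
  have hP : IsPrecomplete J M := by
    refine ⟨fun f hf => ?_⟩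
    obtain ⟨L, hL⟩ := IsPrecomplete.prec (inferInstance : IsPrecomplete I M) (f := f)
      (fun {m n} hmn => SModEq.mono (hle m) (hf hmn))
    refine ⟨L, fun n => ?_⟩
    obtain ⟨k, hk⟩ := h n
    have hk' : (I ^ (max k n) • ⊤ : Submodule R M) ≤ J ^ n • ⊤ :=
      Submodule.smul_mono ((Ideal.pow_le_pow_right (le_max_left k n)).trans hk) le_rfl
    have h1 : f n ≡ f (max k n) [SMOD (J ^ n • ⊤ : Submodule R M)] := hf (le_max_right k n)
    have h2 : f (max k n) ≡ L [SMOD (J ^ n • ⊤ : Submodule R M)] := SModEq.mono hk' (hL _)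
    exact h1.trans h2
  exact { toIsHausdorff := hH, toIsPrecomplete := hP }

theorem isAdicComplete_pow {I : Ideal R} {e : ℕ} (he : e ≠ 0) [IsAdicComplete I M] :
    IsAdicComplete (I ^ e) M := by
  refine isAdicComplete_of_le_of_pow_le (I := I) (Ideal.pow_le_self he) fun n => ⟨e * n, ?_⟩
  rw [pow_mul]

theorem isAdicComplete_span_of_dvr {O : Type*} [CommRing O] [IsDomain O]
    [IsDiscreteValuationRing O] [IsAdicComplete (IsLocalRing.maximalIdeal O) O] {a : O}
    (ha : a ∈ IsLocalRing.maximalIdeal O) (ha0 : a ≠ 0) :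
    IsAdicComplete (Ideal.span {a}) O := by
  obtain ⟨ϖ, hϖ⟩ := IsDiscreteValuationRing.exists_irreducible O
  have hm : IsLocalRing.maximalIdeal O = Ideal.span {ϖ} :=
    (IsDiscreteValuationRing.irreducible_iff_uniformizer ϖ).mp hϖ
  have hne : Ideal.span {a} ≠ ⊥ := by
    rw [Ne, Ideal.span_singleton_eq_bot]
    exact ha0
  obtain ⟨e, he⟩ := IsDiscreteValuationRing.ideal_eq_span_pow_irreducible hne hϖ
  have he0 : e ≠ 0 := by
    rintro rfl
    rw [pow_zero, Ideal.span_singleton_one] at he
    have h1 : (1 : O) ∈ Ideal.span {a} := by rw [he]; trivial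
    have h2 : Ideal.span {a} ≤ IsLocalRing.maximalIdeal O := by
      rw [Ideal.span_singleton_le_iff_mem]
      exact ha
    exact (Ideal.ne_top_iff_one _).mp (IsLocalRing.maximalIdeal.isMaximal O).ne_top (h2 h1)
  have h3 : Ideal.span {a} = (IsLocalRing.maximalIdeal O) ^ e := by
    rw [he, hm, Ideal.span_singleton_pow]
  rw [h3]
  exact isAdicComplete_pow he0

end Fermat.Agent.GJ.Tate.Lim
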