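/-
GATE-J / J4-TATE (helper17) — **IFACE:TATE**.

`TateDatum p N S 𝒪 α` : what the Tate-module side (J1/J2/J3 at the levels `p ^ n`, passed to the
limit and base-changed to `𝒪`) has to provide so that `S30Consumer` produces the `p`-adic Galois
representation with `charpoly ρ(Frob_ℓ) = X² - α ℓ X + ℓ` (`α ℓ = χ (T_ℓ)`).

`CycDatum p 𝒪` : the `p`-adic cyclotomic character with values in `𝒪ˣ`
(instantiated by `GJ/Cyc/TateCyc.lean`, helper8).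
-/
import Mathlib
import Fermat.Prelude.Def_GaloisRep_ComplexConjugation
import Fermat.Prelude.Def_GaloisRep_Adic
import Fermat.Prelude.Def_FLTPrelim_Ramification
import Fermat.Prelude.Def_EllipticCurve_FrobeniusTrace
set_option autoImplicit false
namespace Fermat.Agent.GJ.Tate

/-- **IFACE:TATE** — the datum from which `S30Consumer` builds the Galois representation. -/
structure TateDatum (p N : ℕ) (S : Finset ℕ) (𝒪 : Type) [CommRing 𝒪] (α : ℕ → 𝒪) where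
  /-- the (image of the) Hecke algebra acting on `Y` -/
  B : Type
  [instCommRing : CommRing B]
  [instAlgebra : Algebra 𝒪 B]
  /-- the Tate module, base-changed to `𝒪` -/
  Y : Type
  [instAddCommGroup : AddCommGroup Y]
  [instModule : Module 𝒪 Y]
  [instModuleB : Module B Y]
  [instTower : IsScalarTower 𝒪 B Y]
  [instFree : Module.Free 𝒪 Y]
  [instFinite : Module.Finite 𝒪 Y]
  faithful : ∀ b : B, (∀ y : Y, b • y = 0) → b = 0
  /-- the eigencharacter -/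
  χB : B →ₐ[𝒪] 𝒪
  /-- the Hecke operators `T_ℓ` -/
  t : ℕ → B
  χB_t : ∀ ℓ : ℕ, ℓ.Prime → ¬ ℓ ∣ N → ℓ ∉ S → χB (t ℓ) = α ℓ
  /-- the Galois action -/
  gal : (AlgebraicClosure ℚ ≃ₐ[ℚ] AlgebraicClosure ℚ) →* Module.End 𝒪 Y
  gal_comm : ∀ (g : AlgebraicClosure ℚ ≃ₐ[ℚ] AlgebraicClosure ℚ) (b : B) (y : Y),
    gal g (b • y) = b • gal g y
  gal_cont : ∀ n : ℕ, ∃ K : IntermediateField ℚ (AlgebraicClosure ℚ), FiniteDimensional ℚ K ∧
    ∀ σ : AlgebraicClosure ℚ ≃ₐ[ℚ] AlgebraicClosure ℚ, (∀ x ∈ K, σ x = x) →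
      ∀ y : Y, ∃ y' : Y, gal σ y - y = ((p : 𝒪) ^ n) • y'
  gal_unram : ∀ q : ℕ, q.Prime → ¬ q ∣ N → q ≠ p →
    ∀ P : ValuationSubring (AlgebraicClosure ℚ), P.LiesOverPrime q →
      ∀ σ ∈ P.inertiaSubgroupIn ℚ, gal σ = 1
  /-- Eichler–Shimura -/
  ES : ∀ ℓ : ℕ, ℓ.Prime → ¬ ℓ ∣ N → ℓ ∉ S →
    ∀ A : ValuationSubring (AlgebraicClosure ℚ), A.LiesOverPrime ℓ →
      ∀ σ : AlgebraicClosure ℚ ≃ₐ[ℚ] AlgebraicClosure ℚ, A.IsFrobeniusAt σ ℓ →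
        ∀ y : Y, gal σ (gal σ y) - t ℓ • gal σ y + (ℓ : 𝒪) • y = 0

attribute [instance] TateDatum.instCommRing TateDatum.instAlgebra TateDatum.instAddCommGroup
  TateDatum.instModule TateDatum.instModuleB TateDatum.instTower TateDatum.instFree
  TateDatum.instFinite

/-- the cyclotomic character datum consumed alongside -/
structure CycDatum (p : ℕ) (𝒪 : Type) [CommRing 𝒪] where
  d : (AlgebraicClosure ℚ ≃ₐ[ℚ] AlgebraicClosure ℚ) →* 𝒪ˣ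
  d_frob : ∀ ℓ : ℕ, ℓ.Prime → ℓ ≠ p → ∀ A : ValuationSubring (AlgebraicClosure ℚ),
    A.LiesOverPrime ℓ → ∀ σ : AlgebraicClosure ℚ ≃ₐ[ℚ] AlgebraicClosure ℚ, A.IsFrobeniusAt σ ℓ →
      ((d σ : 𝒪ˣ) : 𝒪) = (ℓ : 𝒪)
  d_inertia : ∀ q : ℕ, q.Prime → q ≠ p → ∀ P : ValuationSubring (AlgebraicClosure ℚ),
    P.LiesOverPrime q → ∀ σ ∈ P.inertiaSubgroupIn ℚ, d σ = 1
  d_conj : d complexConjugation = -1
  d_cont : ∀ n : ℕ, ∃ K : IntermediateField ℚ (AlgebraicClosure ℚ), FiniteDimensional ℚ K ∧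
    ∀ σ : AlgebraicClosure ℚ ≃ₐ[ℚ] AlgebraicClosure ℚ, (∀ x ∈ K, σ x = x) →
      ((d σ : 𝒪ˣ) : 𝒪) - 1 ∈ Ideal.span {(p : 𝒪) ^ n}

end Fermat.Agent.GJ.Tate
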