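import Mathlib

/-!
# GATE-J / J4-TATE (helper23): faithfulness survives a flat base change

`Λ` a finitely presented `ℤ`-module (e.g. finite free), `T` a commutative ring acting faithfully on
`Λ` through `ι : T →ₐ[ℤ] Module.End ℤ Λ`, `R` a commutative ring which is flat over `ℤ`.
Then `R ⊗[ℤ] T` acts faithfully on `R ⊗[ℤ] Λ`:

* `tensorEnd R ι : R ⊗[ℤ] T →ₗ[R] Module.End R (R ⊗[ℤ] Λ)`, `r ⊗ t ↦ r • (ι t).baseChange R`;
* `tensorEnd_injective`;
* `tensorEndAlg R ι : R ⊗[ℤ] T →ₐ[R] Module.End R (R ⊗[ℤ] Λ)`, the same map as an algebra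
  homomorphism, and `tensorEndAlg_injective`.
-/

set_option autoImplicit false

noncomputable section

namespace Fermat.Agent.GJ.Tate.Lim

open TensorProduct

variable (R : Type*) [CommRing R] {Λ : Type*} [AddCommGroup Λ] {T : Type*}

section Linear

variable [AddCommGroup T] [Module.FinitePresentation ℤ Λ] [Module.Flat ℤ R]

/-- the canonical isomorphism `R ⊗ End_ℤ(Λ) ≃ End_R(R ⊗ Λ)` -/
def endBaseChangeEquiv : R ⊗[ℤ] (Λ →ₗ[ℤ] Λ) ≃ₗ[R] Module.End R (R ⊗[ℤ] Λ) :=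
  (Module.FinitePresentation.isBaseChange_map ℤ Λ Λ R).equiv

theorem endBaseChangeEquiv_tmul (r : R) (φ : Λ →ₗ[ℤ] Λ) :
    endBaseChangeEquiv R (r ⊗ₜ φ) = r • φ.baseChange R :=
  (Module.FinitePresentation.isBaseChange_map ℤ Λ Λ R).equiv_tmul r φ

/-- `r ⊗ t ↦ r • (ι t) ⊗ R` -/
def tensorEnd (ι : T →ₗ[ℤ] Module.End ℤ Λ) : R ⊗[ℤ] T →ₗ[R] Module.End R (R ⊗[ℤ] Λ) :=
  (endBaseChangeEquiv R (Λ := Λ)).toLinearMap ∘ₗ ι.baseChange R

theorem tensorEnd_tmul (ι : T →ₗ[ℤ] Module.End ℤ Λ) (r : R) (t : T) :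
    tensorEnd R ι (r ⊗ₜ t) = r • (ι t).baseChange R := by
  rw [tensorEnd, LinearMap.comp_apply, LinearMap.baseChange_tmul]
  exact endBaseChangeEquiv_tmul R r (ι t)

theorem tensorEnd_injective (ι : T →ₗ[ℤ] Module.End ℤ Λ) (hι : Function.Injective ι) :
    Function.Injective (tensorEnd R ι) := by
  rw [tensorEnd]
  refine (endBaseChangeEquiv R (Λ := Λ)).injective.comp ?_
  exact Module.Flat.lTensor_preserves_injective_linearMap (M := R) ι hι

end Linear

section Alg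

variable [CommRing T]

/-- the action of `R ⊗ T` on `R ⊗ Λ`, as an algebra homomorphism -/
def tensorEndAlg (ι : T →ₐ[ℤ] Module.End ℤ Λ) : R ⊗[ℤ] T →ₐ[R] Module.End R (R ⊗[ℤ] Λ) :=
  Algebra.TensorProduct.lift (Algebra.ofId R (Module.End R (R ⊗[ℤ] Λ)))
    ((Module.End.baseChangeHom ℤ R Λ).comp ι)
    (fun r _ => show Commute (algebraMap R (Module.End R (R ⊗[ℤ] Λ)) r) _ from
      Algebra.commutes r _)

theorem tensorEndAlg_tmul (ι : T →ₐ[ℤ] Module.End ℤ Λ) (r : R) (t : T) :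
    tensorEndAlg R ι (r ⊗ₜ t) = r • (ι t).baseChange R := by
  have h := Algebra.TensorProduct.lift_tmul (Algebra.ofId R (Module.End R (R ⊗[ℤ] Λ)))
    ((Module.End.baseChangeHom ℤ R Λ).comp ι)
    (fun r _ => show Commute (algebraMap R (Module.End R (R ⊗[ℤ] Λ)) r) _ from
      Algebra.commutes r _) r t
  rw [tensorEndAlg, h, Algebra.ofId_apply, ← Algebra.smul_def]
  rfl

variable [Module.FinitePresentation ℤ Λ] [Module.Flat ℤ R]

theorem tensorEndAlg_eq (ι : T →ₐ[ℤ] Module.End ℤ Λ) :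
    (tensorEndAlg R ι).toLinearMap = tensorEnd R ι.toLinearMap := by
  refine TensorProduct.AlgebraTensorModule.ext fun r t => ?_
  rw [AlgHom.toLinearMap_apply, tensorEndAlg_tmul, tensorEnd_tmul]
  rfl

theorem tensorEndAlg_injective (ι : T →ₐ[ℤ] Module.End ℤ Λ) (hι : Function.Injective ι) :
    Function.Injective (tensorEndAlg R ι) := by
  have h := tensorEnd_injective R ι.toLinearMap hι
  rw [← tensorEndAlg_eq] at h
  exact h

end Alg

end Fermat.Agent.GJ.Tate.Lim
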