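import Mathlib

/-!
# GATE-J / J4-TATE (TATE-LIM, helper23): finite free modules over an adically complete ring are
adically complete

Mathlib has no instance `IsAdicComplete I (ι → R)` / transfer along linear equivalences.

* `mem_pow_smul_top_pi` : `f ∈ I ^ n • ⊤ ↔ ∀ i, f i ∈ I ^ n` in `ι → R`, `ι` finite;
* `isAdicComplete_pi` ;
* `isAdicComplete_of_linearEquiv` ;
* `isAdicComplete_of_finite_free` .
-/

set_option autoImplicit false

namespace Fermat.Agent.GJ.Tate.Lim

section Complete

variable {R : Type*} [CommRing R] (I : Ideal R)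

theorem mem_pow_smul_top_pi {ι : Type*} [Finite ι] (n : ℕ) (f : ι → R) :
    f ∈ (I ^ n • ⊤ : Submodule R (ι → R)) ↔ ∀ i, f i ∈ I ^ n := by
  classical
  cases nonempty_fintype ι
  constructor
  · intro hf
    refine Submodule.smul_induction_on hf ?_ ?_
    · intro a ha g _ i
      rw [Pi.smul_apply, smul_eq_mul]
      exact Ideal.mul_mem_right _ _ ha
    · intro x y hx hy i
      rw [Pi.add_apply]
      exact Ideal.add_mem _ (hx i) (hy i)
  · intro hf
    have h : f = ∑ i, f i • (Pi.single i (1 : R) : ι → R) := by
      funext j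
      simp [Finset.sum_apply, Pi.single_apply]
    rw [h]
    exact Submodule.sum_mem _ fun i _ => Submodule.smul_mem_smul (hf i) Submodule.mem_top

theorem mem_pow_smul_top_self (n : ℕ) (x : R) :
    x ∈ (I ^ n • ⊤ : Submodule R R) ↔ x ∈ I ^ n := by
  rw [smul_eq_mul, Ideal.mul_top]

theorem isAdicComplete_pi [IsAdicComplete I R] (ι : Type*) [Finite ι] :
    IsAdicComplete I (ι → R) where
  haus' x hx := by
    funext i
    refine IsHausdorff.haus (inferInstance : IsHausdorff I R) (x i) fun n => ?_
    have h := hx n
    rw [SModEq.sub_mem, sub_zero, mem_pow_smul_top_pi] at h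
    rw [SModEq.sub_mem, sub_zero, mem_pow_smul_top_self]
    exact h i
  prec' f hf := by
    have hc : ∀ i, ∃ L : R, ∀ n, f n i ≡ L [SMOD (I ^ n • ⊤ : Submodule R R)] := by
      intro i
      refine IsPrecomplete.prec (inferInstance : IsPrecomplete I R) (f := fun n => f n i) ?_
      intro m n hmn
      have h := hf hmn
      rw [SModEq.sub_mem, mem_pow_smul_top_pi] at h
      rw [SModEq.sub_mem, mem_pow_smul_top_self]
      exact h i
    choose L hL using hc
    refine ⟨L, fun n => ?_⟩
    rw [SModEq.sub_mem, mem_pow_smul_top_pi]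
    intro i
    have h := hL i n
    rw [SModEq.sub_mem, mem_pow_smul_top_self] at h
    exact h

variable {M N : Type*} [AddCommGroup M] [Module R M] [AddCommGroup N] [Module R N]

theorem map_mem_pow_smul_top (f : M →ₗ[R] N) (n : ℕ) {x : M}
    (hx : x ∈ (I ^ n • ⊤ : Submodule R M)) : f x ∈ (I ^ n • ⊤ : Submodule R N) := by
  have h : (I ^ n • ⊤ : Submodule R M).map f ≤ (I ^ n • ⊤ : Submodule R N) := by
    rw [Submodule.map_smul'']
    exact Submodule.smul_mono le_rfl le_top
  exact h ⟨x, hx, rfl⟩

theorem isAdicComplete_of_linearEquiv (e : M ≃ₗ[R] N) [IsAdicComplete I M] :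
    IsAdicComplete I N where
  haus' x hx := by
    have h : e.symm x = 0 := by
      refine IsHausdorff.haus (inferInstance : IsHausdorff I M) _ fun n => ?_
      have h := hx n
      rw [SModEq.sub_mem, sub_zero] at h ⊢
      exact map_mem_pow_smul_top I e.symm.toLinearMap n h
    simpa using congrArg e h
  prec' f hf := by
    obtain ⟨L, hL⟩ := IsPrecomplete.prec (inferInstance : IsPrecomplete I M)
      (f := fun n => e.symm (f n)) (by
        intro m n hmn
        have h := hf hmn
        rw [SModEq.sub_mem] at h ⊢
        have := map_mem_pow_smul_top I e.symm.toLinearMap m h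
        simpa using this)
    refine ⟨e L, fun n => ?_⟩
    have h := hL n
    rw [SModEq.sub_mem] at h ⊢
    have := map_mem_pow_smul_top I e.toLinearMap n h
    simpa using this

/-- **Finite free modules over an `I`-adically complete ring are `I`-adically complete.** -/
theorem isAdicComplete_of_finite_free [IsAdicComplete I R] (M : Type*) [AddCommGroup M]
    [Module R M] [Module.Finite R M] [Module.Free R M] : IsAdicComplete I M := by
  have := isAdicComplete_pi I (Module.Free.ChooseBasisIndex R M)
  exact isAdicComplete_of_linearEquiv I (Module.Free.chooseBasis R M).equivFun.symm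

end Complete

end Fermat.Agent.GJ.Tate.Lim
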