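import Mathlib
import Fermat.Agent.GJ.Tate.AdicFree

/-!
# GATE-J / J4-TATE (TATE-LIM, helper23): the limit of a compatible tower of actions on `Λ / pⁿ Λ`

`Λ` a finite free `ℤ`-module, `R` a commutative ring which is `p`-adically complete,
`Y := R ⊗[ℤ] Λ`.  A *tower* `𝒯 : Tower p Λ G` is a family of surjections `π n : Λ →+ Q n` with
kernel `pⁿ Λ` together with actions `ρ n : G →* AddMonoid.End (Q n)` compatible with the (implicit)
transition maps.  (Intended: `Q n = Additive (Kum_{pⁿ})`, `π n = Θ_n ∘ mk`.)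

* `Tower.lim 𝒯 R : G →* Module.End R (R ⊗[ℤ] Λ)` : the limit action;
* `Tower.lim_sub_bc_mem` : `lim g ≡ (any ℤ-linear lift of ρ n g) ⊗ R` modulo `pⁿ`;
* `Tower.bc_mem` : an endomorphism of `Λ` killed by `π n` is `≡ 0` modulo `pⁿ` after `⊗ R`;
* `eq_of_forall_sub_mem` : Hausdorff property of `End_R Y`;
* consequences: `lim_tmul` (values on pure tensors), `lim_eq_one`, `lim_sub_one_mem` (finite level),
  `lim_comm` (commutation with `T ⊗ R`), `lim_quadratic` (relations `σ² − Tσ + c = 0`),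
  `lim_unique`.
-/

set_option autoImplicit false

noncomputable section

namespace Fermat.Agent.GJ.Tate.Lim

open TensorProduct

universe u v w

/-! ### principal ideals -/

section Principal

variable {R : Type*} [CommRing R] {M : Type*} [AddCommGroup M] [Module R M]

theorem mem_span_pow_smul_top_iff (a : R) (n : ℕ) (x : M) :
    x ∈ ((Ideal.span {a}) ^ n • ⊤ : Submodule R M) ↔ ∃ y : M, x = a ^ n • y := by
  rw [Ideal.span_singleton_pow, Submodule.ideal_span_singleton_smul]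
  constructor
  · rintro ⟨y, -, rfl⟩
    exact ⟨y, rfl⟩
  · rintro ⟨y, rfl⟩
    exact ⟨y, Submodule.mem_top, rfl⟩

end Principal

/-! ### towers -/

/-- A compatible tower of actions of `G` on the quotients `Λ / pⁿ Λ`, presented through
surjections `π n : Λ →+ Q n` with kernel `pⁿ Λ`. -/
structure Tower (p : ℕ) (Λ : Type u) [AddCommGroup Λ] (G : Type v) [Monoid G] where
  /-- the quotients -/
  Q : ℕ → Type w
  /-- the group structures -/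
  instQ : ∀ n, AddCommGroup (Q n)
  /-- the projections -/
  π : ∀ n, Λ →+ Q n
  π_surj : ∀ n, Function.Surjective (π n)
  π_eq_zero : ∀ n x, π n x = 0 ↔ ∃ y : Λ, x = (p ^ n : ℕ) • y
  /-- the actions -/
  ρ : ∀ n, G →* AddMonoid.End (Q n)
  compat : ∀ n g (x y : Λ), ρ (n + 1) g (π (n + 1) x) = π (n + 1) y → ρ n g (π n x) = π n y

attribute [instance] Tower.instQ

namespace Tower

variable {p : ℕ} {Λ : Type u} [AddCommGroup Λ] {G : Type v} [Monoid G] (𝒯 : Tower.{u, v, w} p Λ G)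

theorem compat_le {m n : ℕ} (hmn : m ≤ n) (g : G) (x y : Λ)
    (h : 𝒯.ρ n g (𝒯.π n x) = 𝒯.π n y) : 𝒯.ρ m g (𝒯.π m x) = 𝒯.π m y := by
  induction n, hmn using Nat.le_induction with
  | base => exact h
  | succ n _ ih => exact ih (𝒯.compat n g x y h)

theorem π_eq_iff (n : ℕ) (x y : Λ) : 𝒯.π n x = 𝒯.π n y ↔ ∃ z : Λ, x = y + (p ^ n : ℕ) • z := by
  rw [← sub_eq_zero, ← map_sub, 𝒯.π_eq_zero]
  constructor
  · rintro ⟨z, hz⟩
    exact ⟨z, by rw [← hz]; abel⟩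
  · rintro ⟨z, hz⟩
    exact ⟨z, by rw [hz]; abel⟩

/-- `φ` is a `ℤ`-linear lift of `ρ n g` -/
def IsLift (n : ℕ) (g : G) (φ : Λ →ₗ[ℤ] Λ) : Prop := ∀ x, 𝒯.π n (φ x) = 𝒯.ρ n g (𝒯.π n x)

theorem IsLift.of_le {m n : ℕ} (hmn : m ≤ n) {g : G} {φ : Λ →ₗ[ℤ] Λ} (h : 𝒯.IsLift n g φ) :
    𝒯.IsLift m g φ := fun x => (𝒯.compat_le hmn g x (φ x) (h x).symm).symm

theorem isLift_one (n : ℕ) : 𝒯.IsLift n 1 LinearMap.id := fun x => by
  rw [map_one]
  rfl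

theorem IsLift.mul {n : ℕ} {g h : G} {φ ψ : Λ →ₗ[ℤ] Λ} (hφ : 𝒯.IsLift n g φ)
    (hψ : 𝒯.IsLift n h ψ) : 𝒯.IsLift n (g * h) (φ ∘ₗ ψ) := fun x => by
  rw [map_mul, LinearMap.comp_apply, hφ, hψ]
  rfl

theorem isLift_id_of_eq_one {n : ℕ} {g : G} (h : 𝒯.ρ n g = 1) : 𝒯.IsLift n g LinearMap.id :=
  fun x => by
    rw [h]
    rfl

variable [Module.Free ℤ Λ]

theorem exists_isLift (n : ℕ) (g : G) : ∃ φ : Λ →ₗ[ℤ] Λ, 𝒯.IsLift n g φ := by
  obtain ⟨φ, hφ⟩ := Module.projective_lifting_property ((𝒯.π n).toIntLinearMap)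
    (((𝒯.ρ n g : 𝒯.Q n →+ 𝒯.Q n).comp (𝒯.π n)).toIntLinearMap) (𝒯.π_surj n)
  exact ⟨φ, fun x => LinearMap.congr_fun hφ x⟩

/-- a chosen lift of `ρ n g` -/
def lift (n : ℕ) (g : G) : Λ →ₗ[ℤ] Λ := (𝒯.exists_isLift n g).choose

theorem isLift_lift (n : ℕ) (g : G) : 𝒯.IsLift n g (𝒯.lift n g) := (𝒯.exists_isLift n g).choose_spec

/-- an endomorphism of `Λ` killed by `π n` is divisible by `pⁿ` -/
theorem exists_eq_smul_of_π_eq_zero (n : ℕ) (ψ : Λ →ₗ[ℤ] Λ) (hψ : ∀ x, 𝒯.π n (ψ x) = 0) :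
    ∃ ψ' : Λ →ₗ[ℤ] Λ, ψ = (p ^ n : ℕ) • ψ' := by
  set μ : Λ →ₗ[ℤ] Λ := (p ^ n : ℕ) • LinearMap.id with hμ
  have hmem : ∀ x, ψ x ∈ LinearMap.range μ := by
    intro x
    obtain ⟨y, hy⟩ := (𝒯.π_eq_zero n (ψ x)).mp (hψ x)
    exact ⟨y, by rw [hy]; rfl⟩
  obtain ⟨h, hh⟩ := Module.projective_lifting_property (μ.rangeRestrict)
    (ψ.codRestrict (LinearMap.range μ) hmem) μ.surjective_rangeRestrict
  refine ⟨h, LinearMap.ext fun x => ?_⟩
  have := congrArg Subtype.val (LinearMap.congr_fun hh x)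
  simpa [hμ] using this.symm

end Tower

/-! ### base change to a `p`-adically complete ring -/

section Lim

variable {p : ℕ} {Λ : Type u} [AddCommGroup Λ] {G : Type v} [Monoid G]
variable (𝒯 : Tower.{u, v, w} p Λ G) (R : Type*) [CommRing R]

/-- base change of an endomorphism of `Λ` -/
abbrev bc (φ : Λ →ₗ[ℤ] Λ) : Module.End R (R ⊗[ℤ] Λ) := LinearMap.baseChange R φ

variable {R} in
theorem bc_nsmul (c : ℕ) (φ : Λ →ₗ[ℤ] Λ) : bc R (c • φ) = (c : R) • bc R φ := by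
  apply TensorProduct.AlgebraTensorModule.curry_injective
  ext x
  simp [bc, TensorProduct.tmul_smul, TensorProduct.smul_tmul', Nat.cast_smul_eq_nsmul]

theorem bc_zsmul (c : ℤ) (φ : Λ →ₗ[ℤ] Λ) : bc R (c • φ) = (c : R) • bc R φ := by
  apply TensorProduct.AlgebraTensorModule.curry_injective
  ext x
  simp [bc, TensorProduct.tmul_smul, TensorProduct.smul_tmul', Int.cast_smul_eq_zsmul]

theorem bc_comp (φ ψ : Λ →ₗ[ℤ] Λ) : bc R (φ ∘ₗ ψ) = bc R φ * bc R ψ :=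
  LinearMap.baseChange_comp _ _

theorem bc_id : bc R (LinearMap.id : Λ →ₗ[ℤ] Λ) = 1 := LinearMap.baseChange_id

theorem bc_sub (φ ψ : Λ →ₗ[ℤ] Λ) : bc R (φ - ψ) = bc R φ - bc R ψ :=
  LinearMap.baseChange_sub _ _

theorem bc_add (φ ψ : Λ →ₗ[ℤ] Λ) : bc R (φ + ψ) = bc R φ + bc R ψ :=
  LinearMap.baseChange_add _ _

/-- the ideal `(p)` of `R` -/
abbrev pI : Ideal R := Ideal.span {(p : R)}

/-- the `n`-th level of the `p`-adic filtration of `End_R (R ⊗ Λ)` -/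
abbrev J (p : ℕ) (Λ : Type u) [AddCommGroup Λ] (R : Type*) [CommRing R] (n : ℕ) :
    Submodule R (Module.End R (R ⊗[ℤ] Λ)) :=
  (Ideal.span {(p : R)}) ^ n • ⊤

variable {R}

theorem mem_J_iff {n : ℕ} {A : Module.End R (R ⊗[ℤ] Λ)} :
    A ∈ J p Λ R n ↔ ∃ C : Module.End R (R ⊗[ℤ] Λ), A = (p : R) ^ n • C :=
  mem_span_pow_smul_top_iff _ _ _

theorem J_mul_left {n : ℕ} {A : Module.End R (R ⊗[ℤ] Λ)} (hA : A ∈ J p Λ R n)
    (B : Module.End R (R ⊗[ℤ] Λ)) : B * A ∈ J p Λ R n := by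
  obtain ⟨C, rfl⟩ := mem_J_iff.mp hA
  exact mem_J_iff.mpr ⟨B * C, by rw [mul_smul_comm]⟩

theorem J_mul_right {n : ℕ} {A : Module.End R (R ⊗[ℤ] Λ)} (hA : A ∈ J p Λ R n)
    (B : Module.End R (R ⊗[ℤ] Λ)) : A * B ∈ J p Λ R n := by
  obtain ⟨C, rfl⟩ := mem_J_iff.mp hA
  exact mem_J_iff.mpr ⟨C * B, by rw [smul_mul_assoc]⟩

theorem J_anti {m n : ℕ} (hmn : m ≤ n) : J p Λ R n ≤ J p Λ R m := by
  intro A hA
  obtain ⟨C, rfl⟩ := mem_J_iff.mp hA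
  refine mem_J_iff.mpr ⟨(p : R) ^ (n - m) • C, ?_⟩
  rw [smul_smul, ← pow_add, Nat.add_sub_cancel' hmn]

variable [Module.Free ℤ Λ]

/-- an endomorphism of `Λ` killed by `π n` is `≡ 0 mod pⁿ` after base change -/
theorem Tower.bc_mem (n : ℕ) (ψ : Λ →ₗ[ℤ] Λ) (hψ : ∀ x, 𝒯.π n (ψ x) = 0) :
    bc R ψ ∈ J p Λ R n := by
  obtain ⟨ψ', rfl⟩ := 𝒯.exists_eq_smul_of_π_eq_zero n ψ hψ
  exact mem_J_iff.mpr ⟨bc R ψ', by rw [bc_nsmul]; push_cast; rfl⟩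

/-- two lifts of the same `ρ n g` agree modulo `pⁿ` after base change -/
theorem Tower.bc_sub_mem {n : ℕ} {g : G} {φ ψ : Λ →ₗ[ℤ] Λ} (hφ : 𝒯.IsLift n g φ)
    (hψ : 𝒯.IsLift n g ψ) : bc R φ - bc R ψ ∈ J p Λ R n := by
  rw [← bc_sub]
  refine 𝒯.bc_mem n _ fun x => ?_
  rw [LinearMap.sub_apply, map_sub, hφ, hψ, sub_self]

variable [Module.Finite ℤ Λ]

variable (R) in
theorem isAdicComplete_End [IsAdicComplete (Ideal.span {(p : R)}) R] :
    IsAdicComplete (Ideal.span {(p : R)}) (Module.End R (R ⊗[ℤ] Λ)) :=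
  isAdicComplete_of_finite_free _ _

variable (R) in
theorem isAdicComplete_tensor [IsAdicComplete (Ideal.span {(p : R)}) R] :
    IsAdicComplete (Ideal.span {(p : R)}) (R ⊗[ℤ] Λ) :=
  isAdicComplete_of_finite_free _ _

variable [IsAdicComplete (Ideal.span {(p : R)}) R]

/-- Hausdorff property of `End_R (R ⊗ Λ)` -/
theorem eq_of_forall_sub_mem {A B : Module.End R (R ⊗[ℤ] Λ)}
    (h : ∀ n, A - B ∈ J p Λ R n) : A = B := by
  have := isAdicComplete_End (p := p) (Λ := Λ) R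
  rw [← sub_eq_zero]
  refine IsHausdorff.haus (inferInstance : IsHausdorff (Ideal.span {(p : R)})
    (Module.End R (R ⊗[ℤ] Λ))) _ fun n => ?_
  rw [SModEq.sub_mem, sub_zero]
  exact h n

theorem Tower.exists_limEnd (g : G) :
    ∃ L : Module.End R (R ⊗[ℤ] Λ), ∀ n, L - bc R (𝒯.lift n g) ∈ J p Λ R n := by
  have := isAdicComplete_End (p := p) (Λ := Λ) R
  obtain ⟨L, hL⟩ := IsPrecomplete.prec (inferInstance : IsPrecomplete (Ideal.span {(p : R)})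
    (Module.End R (R ⊗[ℤ] Λ))) (f := fun n => bc R (𝒯.lift n g)) (by
      intro m n hmn
      rw [SModEq.sub_mem]
      exact 𝒯.bc_sub_mem (𝒯.isLift_lift m g) ((𝒯.isLift_lift n g).of_le 𝒯 hmn))
  refine ⟨L, fun n => ?_⟩
  have h := hL n
  rw [SModEq.sub_mem] at h
  have h2 := (J p Λ R n).neg_mem h
  rwa [neg_sub] at h2

/-- the limit endomorphism attached to `g` -/
def Tower.limEnd (g : G) : Module.End R (R ⊗[ℤ] Λ) := (𝒯.exists_limEnd (R := R) g).choose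

theorem Tower.limEnd_sub_lift_mem (g : G) (n : ℕ) :
    𝒯.limEnd (R := R) g - bc R (𝒯.lift n g) ∈ J p Λ R n :=
  (𝒯.exists_limEnd (R := R) g).choose_spec n

/-- **the limit is congruent modulo `pⁿ` to the base change of ANY lift of `ρ n g`** -/
theorem Tower.limEnd_sub_bc_mem {g : G} {n : ℕ} {φ : Λ →ₗ[ℤ] Λ} (hφ : 𝒯.IsLift n g φ) :
    𝒯.limEnd (R := R) g - bc R φ ∈ J p Λ R n := by
  have h1 := 𝒯.limEnd_sub_lift_mem (R := R) g n
  have h2 := 𝒯.bc_sub_mem (R := R) (𝒯.isLift_lift n g) hφ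
  have := (J p Λ R n).add_mem h1 h2
  rwa [sub_add_sub_cancel] at this

theorem Tower.limEnd_one : 𝒯.limEnd (R := R) 1 = 1 := by
  refine eq_of_forall_sub_mem (p := p) fun n => ?_
  have := 𝒯.limEnd_sub_bc_mem (R := R) (𝒯.isLift_one n)
  rwa [bc_id] at this

theorem Tower.limEnd_mul (g h : G) :
    𝒯.limEnd (R := R) (g * h) = 𝒯.limEnd g * 𝒯.limEnd h := by
  refine eq_of_forall_sub_mem (p := p) fun n => ?_
  have h1 := 𝒯.limEnd_sub_bc_mem (R := R) ((𝒯.isLift_lift n g).mul 𝒯 (𝒯.isLift_lift n h))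
  rw [bc_comp] at h1
  have h2 := J_mul_right (𝒯.limEnd_sub_lift_mem (R := R) g n) (𝒯.limEnd (R := R) h)
  have h3 := J_mul_left (𝒯.limEnd_sub_lift_mem (R := R) h n) (bc R (𝒯.lift n g))
  have h4 := (J p Λ R n).sub_mem h1 ((J p Λ R n).add_mem h2 h3)
  convert h4 using 1
  simp only [sub_mul, mul_sub]
  abel

/-- **The limit action** of `G` on `R ⊗ Λ`. -/
def Tower.lim : G →* Module.End R (R ⊗[ℤ] Λ) where
  toFun := 𝒯.limEnd
  map_one' := 𝒯.limEnd_one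
  map_mul' := 𝒯.limEnd_mul

theorem Tower.lim_apply (g : G) : 𝒯.lim (R := R) g = 𝒯.limEnd g := rfl

/-- the limit is congruent modulo `pⁿ` to the base change of any lift of `ρ n g` -/
theorem Tower.lim_sub_bc_mem {g : G} {n : ℕ} {φ : Λ →ₗ[ℤ] Λ} (hφ : 𝒯.IsLift n g φ) :
    𝒯.lim (R := R) g - bc R φ ∈ J p Λ R n := 𝒯.limEnd_sub_bc_mem hφ

/-- finite level: if `g` acts trivially on `Λ / pⁿ` then `lim g ≡ 1 mod pⁿ` -/
theorem Tower.lim_sub_one_mem {g : G} {n : ℕ} (h : 𝒯.ρ n g = 1) :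
    𝒯.lim (R := R) g - 1 ∈ J p Λ R n := by
  have := 𝒯.lim_sub_bc_mem (R := R) (𝒯.isLift_id_of_eq_one h)
  rwa [bc_id] at this

/-- if `g` acts trivially at every level then `lim g = 1` -/
theorem Tower.lim_eq_one {g : G} (h : ∀ n, 𝒯.ρ n g = 1) : 𝒯.lim (R := R) g = 1 :=
  eq_of_forall_sub_mem (p := p) fun n => 𝒯.lim_sub_one_mem (h n)

/-- commutation with an endomorphism of `Λ` which commutes with `g` at every level -/
theorem Tower.lim_comm {g : G} (T : Λ →ₗ[ℤ] Λ)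
    (hT : ∀ n x y, 𝒯.ρ n g (𝒯.π n x) = 𝒯.π n y → 𝒯.ρ n g (𝒯.π n (T x)) = 𝒯.π n (T y)) :
    𝒯.lim (R := R) g * bc R T = bc R T * 𝒯.lim g := by
  refine eq_of_forall_sub_mem (p := p) fun n => ?_
  set φ := 𝒯.lift n g with hφ
  have hl := 𝒯.isLift_lift n g
  have h1 : bc R (φ ∘ₗ T - T ∘ₗ φ) ∈ J p Λ R n := by
    refine 𝒯.bc_mem n _ fun x => ?_
    rw [LinearMap.sub_apply, map_sub, LinearMap.comp_apply, LinearMap.comp_apply, hl (T x),
      hT n x (φ x) (hl x).symm, sub_self]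
  rw [bc_sub, bc_comp, bc_comp] at h1
  have h2 := J_mul_right (𝒯.lim_sub_bc_mem (R := R) hl) (bc R T)
  have h3 := J_mul_left (𝒯.lim_sub_bc_mem (R := R) hl) (bc R T)
  have h4 := (J p Λ R n).add_mem ((J p Λ R n).sub_mem h2 h3) h1
  convert h4 using 1
  simp only [sub_mul, mul_sub]
  abel

/-- a quadratic relation `σ² − T σ + c = 0` holding at every level holds in the limit -/
theorem Tower.lim_quadratic {g : G} (T : Λ →ₗ[ℤ] Λ) (c : ℤ)
    (h : ∀ n x y z, 𝒯.ρ n g (𝒯.π n x) = 𝒯.π n y → 𝒯.ρ n g (𝒯.π n y) = 𝒯.π n z →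
      𝒯.π n z + c • 𝒯.π n x = 𝒯.π n (T y)) :
    𝒯.lim (R := R) g * 𝒯.lim g - bc R T * 𝒯.lim g + (c : R) • 1 = 0 := by
  refine eq_of_forall_sub_mem (p := p) fun n => ?_
  rw [sub_zero]
  set φ := 𝒯.lift n g with hφ
  have hl := 𝒯.isLift_lift n g
  have h1 : bc R (φ ∘ₗ φ - T ∘ₗ φ + c • LinearMap.id) ∈ J p Λ R n := by
    refine 𝒯.bc_mem n _ fun x => ?_
    have := h n x (φ x) (φ (φ x)) (hl x).symm (hl (φ x)).symm
    rw [LinearMap.add_apply, LinearMap.sub_apply, map_add, map_sub, LinearMap.comp_apply,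
      LinearMap.comp_apply, LinearMap.smul_apply, LinearMap.id_apply, map_zsmul, ← this]
    abel
  rw [bc_add, bc_sub, bc_comp, bc_comp, bc_zsmul, bc_id] at h1
  set L := 𝒯.lim (R := R) g with hL
  have hd : L - bc R φ ∈ J p Λ R n := 𝒯.lim_sub_bc_mem hl
  have h2 := J_mul_right hd L
  have h3 := J_mul_left hd (bc R φ)
  have h4 := J_mul_left hd (bc R T)
  have h5 := (J p Λ R n).add_mem ((J p Λ R n).sub_mem ((J p Λ R n).add_mem h2 h3) h4) h1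
  convert h5 using 1
  simp only [sub_mul, mul_sub]
  abel

/-- uniqueness of the limit -/
theorem Tower.lim_unique {g : G} {L : Module.End R (R ⊗[ℤ] Λ)}
    (h : ∀ n, ∃ φ : Λ →ₗ[ℤ] Λ, 𝒯.IsLift n g φ ∧ L - bc R φ ∈ J p Λ R n) :
    L = 𝒯.lim (R := R) g := by
  refine eq_of_forall_sub_mem (p := p) fun n => ?_
  obtain ⟨φ, hφ, hL⟩ := h n
  have h1 := 𝒯.lim_sub_bc_mem (R := R) hφ
  have h2 := (J p Λ R n).sub_mem hL h1
  rwa [sub_sub_sub_cancel_right] at h2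

/-- values on pure tensors -/
theorem Tower.lim_tmul {g : G} {n : ℕ} {x y : Λ} (h : 𝒯.ρ n g (𝒯.π n x) = 𝒯.π n y) :
    ∃ z : R ⊗[ℤ] Λ, 𝒯.lim (R := R) g (1 ⊗ₜ x) = 1 ⊗ₜ y + (p : R) ^ n • z := by
  have hl := 𝒯.isLift_lift n g
  obtain ⟨C, hC⟩ := mem_J_iff.mp (𝒯.lim_sub_bc_mem (R := R) hl)
  obtain ⟨w, hw⟩ := (𝒯.π_eq_iff n (𝒯.lift n g x) y).mp ((hl x).trans h)
  refine ⟨C (1 ⊗ₜ x) + 1 ⊗ₜ w, ?_⟩
  have h1 : 𝒯.lim (R := R) g (1 ⊗ₜ x) = bc R (𝒯.lift n g) (1 ⊗ₜ x) + ((p : R) ^ n • C) (1 ⊗ₜ x) := by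
    rw [← hC]
    simp
  rw [h1, LinearMap.baseChange_tmul, hw, TensorProduct.tmul_add, LinearMap.smul_apply, smul_add]
  have h2 : (1 : R) ⊗ₜ[ℤ] ((p ^ n : ℕ) • w) = (p : R) ^ n • ((1 : R) ⊗ₜ[ℤ] w) := by
    rw [TensorProduct.tmul_smul, TensorProduct.smul_tmul', TensorProduct.smul_tmul']
    simp
  rw [h2]
  abel

end Lim

end Fermat.Agent.GJ.Tate.Lim
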