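/-
GATE-J / J4-TATE (helper17): the density step (S1) of the S30 construction.

For a `TateDatum` (Tate module `Y` over `𝒪` with commuting Hecke algebra `B` and Galois action,
Eichler–Shimura at Frobenius lifts) and a cyclotomic character datum `d`, every `g ∈ G_ℚ` satisfies
    `gal g + d g • gal g⁻¹ = b •`   for some `b ∈ B`          (`exists_hecke_eq`).
Proof: modulo `p ^ n`, `g` is a power `τ ^ j` of a Frobenius lift (FL1, Frobenius' theorem), for
which `τ ^ j + ℓ ^ j τ ^ (-j)` is a Lucas polynomial in `T_ℓ`; the image of `B` in `End 𝒪 Y` is closed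
(Krull intersection theorem) — no compactness is used.
-/
import Mathlib
import Fermat.Agent.GJ.Tate.Datum
import Fermat.Agent.GJ.FrobLiftMain
set_option autoImplicit false
namespace Fermat.Agent.GJ.Tate.Density

/-! ### Lemma A: Lucas sequences -/
section Lucas
variable {𝒪 : Type*} [CommRing 𝒪] {R : Type*} [Ring R] [Algebra 𝒪 R]

theorem lucas_mem (C : Subalgebra 𝒪 R) (u u' t : R) (δ : 𝒪) (h1 : u * u' = 1) (h2 : u' * u = 1)
    (ht : u + δ • u' = t) (htC : t ∈ C) (j : ℕ) : u ^ j + δ ^ j • u' ^ j ∈ C := by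
  have key : ∀ j, u ^ j + δ ^ j • u' ^ j ∈ C ∧ u ^ (j + 1) + δ ^ (j + 1) • u' ^ (j + 1) ∈ C := by
    intro j
    induction j with
    | zero =>
      refine ⟨?_, ?_⟩
      · simp only [pow_zero, one_smul]
        exact C.add_mem C.one_mem C.one_mem
      · simp only [zero_add, pow_one]
        rw [ht]; exact htC
    | succ j ih =>
      refine ⟨ih.2, ?_⟩
      have e : u ^ (j + 1 + 1) + δ ^ (j + 1 + 1) • u' ^ (j + 1 + 1)
          = t * (u ^ (j + 1) + δ ^ (j + 1) • u' ^ (j + 1)) - δ • (u ^ j + δ ^ j • u' ^ j) := by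
        have a1 : u * u ^ (j + 1) = u ^ (j + 1 + 1) := (pow_succ' u (j + 1)).symm
        have a2 : u * u' ^ (j + 1) = u' ^ j := by
          rw [pow_succ' u' j, ← mul_assoc, h1, one_mul]
        have a3 : u' * u ^ (j + 1) = u ^ j := by
          rw [pow_succ' u j, ← mul_assoc, h2, one_mul]
        have a4 : u' * u' ^ (j + 1) = u' ^ (j + 1 + 1) := (pow_succ' u' (j + 1)).symm
        rw [← ht, add_mul, mul_add, mul_add, smul_mul_assoc, smul_mul_assoc, mul_smul_comm,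
          mul_smul_comm, a1, a2, a3, a4, smul_add, smul_smul, smul_smul]
        rw [show δ * δ ^ (j + 1) = δ ^ (j + 1 + 1) by ring, show δ * δ ^ j = δ ^ (j + 1) by ring]
        abel
      rw [e]
      exact C.sub_mem (C.mul_mem htC ih.2) (C.smul_mem ih.1 δ)
  exact (key j).1

end Lucas

/-! ### Lemma B: closedness of submodules (Krull) -/
section Krull
variable {𝒪 : Type*} [CommRing 𝒪] [IsNoetherianRing 𝒪] [IsLocalRing 𝒪]
variable {E : Type*} [AddCommGroup E] [Module 𝒪 E] [Module.Finite 𝒪 E]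

theorem mem_of_forall_approx (C : Submodule 𝒪 E) {π : 𝒪} (hπ : π ∈ IsLocalRing.maximalIdeal 𝒪)
    (x : E) (h : ∀ n : ℕ, ∃ b ∈ C, ∃ e : E, x - b = π ^ n • e) : x ∈ C := by
  have hK := Ideal.iInf_pow_smul_eq_bot_of_isLocalRing (R := 𝒪) (M := E ⧸ C)
    (IsLocalRing.maximalIdeal 𝒪) (Ideal.IsPrime.ne_top inferInstance)
  have hx : C.mkQ x ∈ ⨅ i : ℕ, (IsLocalRing.maximalIdeal 𝒪) ^ i • (⊤ : Submodule 𝒪 (E ⧸ C)) := by
    rw [Submodule.mem_iInf]
    intro n
    obtain ⟨b, hb, e, he⟩ := h n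
    have : C.mkQ x = π ^ n • C.mkQ e := by
      rw [← map_smul, ← he, map_sub, Submodule.mkQ_apply, Submodule.mkQ_apply,
        (Submodule.Quotient.mk_eq_zero C).mpr hb, sub_zero]
    rw [this]
    exact Submodule.smul_mem_smul (Ideal.pow_mem_pow hπ n) Submodule.mem_top
  rw [hK, Submodule.mem_bot, Submodule.mkQ_apply, Submodule.Quotient.mk_eq_zero] at hx
  exact hx

end Krull

/-! ### Lemma C: divisibility of endomorphisms of free modules -/
section Div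
variable {𝒪 : Type*} [CommRing 𝒪]
variable {Y : Type*} [AddCommGroup Y] [Module 𝒪 Y] [Module.Free 𝒪 Y]

theorem exists_eq_smul_of_forall (φ : Module.End 𝒪 Y) (a : 𝒪)
    (h : ∀ y, ∃ y', φ y = a • y') : ∃ φ' : Module.End 𝒪 Y, φ = a • φ' := by
  classical
  let b := Module.Free.chooseBasis 𝒪 Y
  choose f hf using h
  refine ⟨b.constr 𝒪 (fun i => f (b i)), ?_⟩
  apply b.ext
  intro i
  rw [LinearMap.smul_apply, Module.Basis.constr_basis, hf]

end Div

/-! ### Reduction of endomorphisms modulo an element -/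
section Level
variable {𝒪 : Type} [CommRing 𝒪] {Y : Type} [AddCommGroup Y] [Module 𝒪 Y]

/-- the submodule of multiples of `a` -/
def mulRange (Y : Type) [AddCommGroup Y] [Module 𝒪 Y] (a : 𝒪) : Submodule 𝒪 Y :=
  LinearMap.range (a • (LinearMap.id : Y →ₗ[𝒪] Y))

theorem mem_mulRange {a : 𝒪} {y : Y} : y ∈ mulRange Y a ↔ ∃ y', y = a • y' := by
  unfold mulRange
  rw [LinearMap.mem_range]
  constructor
  · rintro ⟨y', h⟩; exact ⟨y', h.symm⟩
  · rintro ⟨y', h⟩; exact ⟨y', h.symm⟩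

theorem mulRange_le_comap (a : 𝒪) (f : Module.End 𝒪 Y) :
    mulRange Y a ≤ (mulRange Y a).comap f := by
  intro y hy
  obtain ⟨y', rfl⟩ := mem_mulRange.mp hy
  rw [Submodule.mem_comap, map_smul]
  exact mem_mulRange.mpr ⟨_, rfl⟩

/-- reduction of endomorphisms modulo `a` -/
def redEnd (a : 𝒪) : Module.End 𝒪 Y →* Function.End (Y ⧸ mulRange Y a) where
  toFun f := ⇑((mulRange Y a).mapQ (mulRange Y a) f (mulRange_le_comap a f))
  map_one' := by
    funext x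
    induction x using Submodule.Quotient.induction_on with
    | H y => rfl
  map_mul' f g := by
    funext x
    induction x using Submodule.Quotient.induction_on with
    | H y => rfl

theorem redEnd_eq_iff (a : 𝒪) (f g : Module.End 𝒪 Y) :
    redEnd a f = redEnd a g ↔ ∀ y, ∃ y', f y - g y = a • y' := by
  constructor
  · intro h y
    have := congrFun h (Submodule.Quotient.mk y)
    change Submodule.Quotient.mk (f y) = Submodule.Quotient.mk (g y) at this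
    rw [Submodule.Quotient.eq] at this
    exact mem_mulRange.mp this
  · intro h
    funext x
    induction x using Submodule.Quotient.induction_on with
    | H y =>
      change Submodule.Quotient.mk (f y) = Submodule.Quotient.mk (g y)
      rw [Submodule.Quotient.eq]
      exact mem_mulRange.mpr (h y)

end Level

/-! ### The density argument -/
section Main
variable {p N : ℕ} {S : Finset ℕ}
variable {𝒪 : Type} [CommRing 𝒪]
variable {α : ℕ → 𝒪} (D : TateDatum p N S 𝒪 α) (cy : CycDatum p 𝒪)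

/-- the level `n` representation: `gal` modulo `p ^ n` together with `d` modulo `p ^ n` -/
noncomputable def levelRep (n : ℕ) : (AlgebraicClosure ℚ ≃ₐ[ℚ] AlgebraicClosure ℚ) →*
    Function.End (D.Y ⧸ mulRange D.Y ((p : 𝒪) ^ n)) × (𝒪 ⧸ Ideal.span {(p : 𝒪) ^ n}) :=
  MonoidHom.prod ((redEnd ((p : 𝒪) ^ n)).comp D.gal)
    (((Ideal.Quotient.mk (Ideal.span {(p : 𝒪) ^ n}) : 𝒪 →+* _) : 𝒪 →* _).comp
      ((Units.coeHom 𝒪).comp cy.d))

theorem levelRep_eq_iff (n : ℕ) (g h : AlgebraicClosure ℚ ≃ₐ[ℚ] AlgebraicClosure ℚ) :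
    levelRep D cy n g = levelRep D cy n h ↔
      (∀ y, ∃ y', D.gal g y - D.gal h y = ((p : 𝒪) ^ n) • y') ∧
      (∃ t : 𝒪, ((cy.d g : 𝒪ˣ) : 𝒪) - ((cy.d h : 𝒪ˣ) : 𝒪) = (p : 𝒪) ^ n * t) := by
  unfold levelRep
  rw [MonoidHom.prod_apply, MonoidHom.prod_apply, Prod.mk.injEq]
  refine and_congr ?_ ?_
  · rw [MonoidHom.comp_apply, MonoidHom.comp_apply, redEnd_eq_iff]
  · simp only [MonoidHom.comp_apply, Units.coeHom_apply, MonoidHom.coe_coe]
    rw [Ideal.Quotient.eq, Ideal.mem_span_singleton']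
    constructor
    · rintro ⟨t, ht⟩; exact ⟨t, by rw [← ht, mul_comm]⟩
    · rintro ⟨t, ht⟩; exact ⟨t, by rw [ht, mul_comm]⟩

theorem levelRep_factors (n : ℕ) : GaloisFactorsThroughFiniteLevel (levelRep D cy n) := by
  obtain ⟨K₁, hK₁, h₁⟩ := D.gal_cont n
  obtain ⟨K₂, hK₂, h₂⟩ := cy.d_cont n
  refine ⟨K₁ ⊔ K₂, IntermediateField.finiteDimensional_sup K₁ K₂, fun σ hσ => ?_⟩
  rw [← map_one (levelRep D cy n), levelRep_eq_iff]
  constructor
  · intro y
    obtain ⟨y', hy'⟩ := h₁ σ (fun x hx => hσ x ((le_sup_left : K₁ ≤ K₁ ⊔ K₂) hx)) y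
    exact ⟨y', by rw [map_one, Module.End.one_apply]; exact hy'⟩
  · have := h₂ σ (fun x hx => hσ x ((le_sup_right : K₂ ≤ K₁ ⊔ K₂) hx))
    rw [Ideal.mem_span_singleton'] at this
    obtain ⟨t, ht⟩ := this
    exact ⟨t, by rw [map_one, Units.val_one, ← ht, mul_comm]⟩


/-- **(S1)** for every `g`, the endomorphism `gal g + d g • gal g⁻¹` of `Y` is given by an element
of the Hecke algebra `B`. -/
theorem exists_hecke_eq [IsNoetherianRing 𝒪] [IsLocalRing 𝒪]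
    (hp : (p : 𝒪) ∈ IsLocalRing.maximalIdeal 𝒪) (hpS : p ∈ S)
    (hNS : ∀ q : ℕ, q.Prime → q ∣ N → q ∈ S)
    (g : AlgebraicClosure ℚ ≃ₐ[ℚ] AlgebraicClosure ℚ) :
    ∃ b : D.B, ∀ y : D.Y, D.gal g y + ((cy.d g : 𝒪ˣ) : 𝒪) • D.gal g⁻¹ y = b • y := by
  classical
  let Φ : D.B →ₐ[𝒪] Module.End 𝒪 D.Y := Algebra.lsmul 𝒪 𝒪 D.Y
  have hΦ : ∀ (b : D.B) (y : D.Y), Φ b y = b • y := fun b y => rfl
  let C : Subalgebra 𝒪 (Module.End 𝒪 D.Y) := Φ.range
  set x : Module.End 𝒪 D.Y := D.gal g + ((cy.d g : 𝒪ˣ) : 𝒪) • D.gal g⁻¹ with hx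
  have hxC : x ∈ Subalgebra.toSubmodule C := by
    apply mem_of_forall_approx (Subalgebra.toSubmodule C) hp x
    intro n
    obtain ⟨ℓ, A, τ, j, hℓ, hℓS, hA, hτ, hgτ⟩ :=
      Fermat.Agent.GJ.FrobLift.exists_isFrobeniusAt_pow' (levelRep D cy n)
        (levelRep_factors D cy n) S g
    have hℓN : ¬ ℓ ∣ N := fun h => hℓS (hNS ℓ hℓ h)
    have hℓp : ℓ ≠ p := fun h => hℓS (h ▸ hpS)
    rw [← map_pow, levelRep_eq_iff] at hgτ
    obtain ⟨hgal, t, hd⟩ := hgτ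
    set h := τ ^ j with hh
    have h1 : D.gal τ * D.gal τ⁻¹ = 1 := by rw [← map_mul, mul_inv_cancel, map_one]
    have h2 : D.gal τ⁻¹ * D.gal τ = 1 := by rw [← map_mul, inv_mul_cancel, map_one]
    have hdτ : ((cy.d τ : 𝒪ˣ) : 𝒪) = (ℓ : 𝒪) := cy.d_frob ℓ hℓ hℓp A hA τ hτ
    have ht : D.gal τ + (ℓ : 𝒪) • D.gal τ⁻¹ = Φ (D.t ℓ) := by
      ext y
      have hES := D.ES ℓ hℓ hℓN hℓS A hA τ hτ (D.gal τ⁻¹ y)
      have e : D.gal τ (D.gal τ⁻¹ y) = y := by
        rw [← Module.End.mul_apply, h1, Module.End.one_apply]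
      rw [e] at hES
      rw [LinearMap.add_apply, LinearMap.smul_apply, hΦ]
      have := eq_of_sub_eq_zero (by rw [← hES]; abel :
        (D.gal τ y + (ℓ : 𝒪) • D.gal τ⁻¹ y) - D.t ℓ • y = 0)
      exact this
    have hX := lucas_mem C (D.gal τ) (D.gal τ⁻¹) (Φ (D.t ℓ)) (ℓ : 𝒪) h1 h2 ht
      (AlgHom.mem_range_self Φ _) j
    have hXeq : D.gal τ ^ j + (ℓ : 𝒪) ^ j • D.gal τ⁻¹ ^ j
        = D.gal h + ((cy.d h : 𝒪ˣ) : 𝒪) • D.gal h⁻¹ := by
      rw [hh, ← inv_pow, map_pow, map_pow, map_pow, Units.val_pow_eq_pow_val, hdτ]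
    refine ⟨_, hX, ?_⟩
    rw [hXeq]
    obtain ⟨φ', hφ'⟩ := exists_eq_smul_of_forall
      (x - (D.gal h + ((cy.d h : 𝒪ˣ) : 𝒪) • D.gal h⁻¹)) ((p : 𝒪) ^ n) (by
      intro y
      obtain ⟨y₁, e1⟩ := hgal y
      obtain ⟨y₂, hz⟩ := hgal (D.gal h⁻¹ y)
      have hhz : D.gal h (D.gal h⁻¹ y) = y := by
        rw [← Module.End.mul_apply, ← map_mul, mul_inv_cancel, map_one, Module.End.one_apply]
      have hgz : ∀ z, D.gal g⁻¹ (D.gal g z) = z := by
        intro z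
        rw [← Module.End.mul_apply, ← map_mul, inv_mul_cancel, map_one, Module.End.one_apply]
      have e2 : D.gal g⁻¹ y - D.gal h⁻¹ y = ((p : 𝒪) ^ n) • (-(D.gal g⁻¹ y₂)) := by
        calc D.gal g⁻¹ y - D.gal h⁻¹ y
            = D.gal g⁻¹ (D.gal h (D.gal h⁻¹ y)) - D.gal g⁻¹ (D.gal g (D.gal h⁻¹ y)) := by
              rw [hhz, hgz]
          _ = - D.gal g⁻¹ (D.gal g (D.gal h⁻¹ y) - D.gal h (D.gal h⁻¹ y)) := by
              rw [map_sub]; abel
          _ = ((p : 𝒪) ^ n) • (-(D.gal g⁻¹ y₂)) := by rw [hz, map_smul, smul_neg]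
      refine ⟨y₁ + ((cy.d g : 𝒪ˣ) : 𝒪) • (-(D.gal g⁻¹ y₂)) + t • D.gal h⁻¹ y, ?_⟩
      have e0 : (x - (D.gal h + ((cy.d h : 𝒪ˣ) : 𝒪) • D.gal h⁻¹)) y
          = (D.gal g y - D.gal h y) + ((cy.d g : 𝒪ˣ) : 𝒪) • (D.gal g⁻¹ y - D.gal h⁻¹ y)
            + (((cy.d g : 𝒪ˣ) : 𝒪) - ((cy.d h : 𝒪ˣ) : 𝒪)) • D.gal h⁻¹ y := by
        rw [hx]
        simp only [LinearMap.sub_apply, LinearMap.add_apply, LinearMap.smul_apply]
        module
      rw [e0, e1, e2, hd]
      module)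
    exact ⟨φ', hφ'⟩
  obtain ⟨b, hb⟩ := hxC
  refine ⟨b, fun y => ?_⟩
  have := LinearMap.congr_fun hb y
  rw [hx] at this
  exact this.symm

end Main
end Fermat.Agent.GJ.Tate.Density
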