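/-
GATE-J / J4-TATE (helper17): basis-free 2-dimensional linear algebra over a domain.

* `charpoly_eq_of_finrank_two` : on a free module of rank 2, `charpoly f = X² - tr f · X + det f`.
* `trace_det_of_quadratic`     : if `f ≠ 0`, `f² - a f + d = 0`, `γ² = 1`, `γ` is not a scalar
  (even up to torsion), and `(fγ)² - a'(fγ) - d = 0`, then `tr f = a` and `det f = d`.
-/
import Mathlib

set_option autoImplicit false

namespace Fermat.Agent.GJ.Tate.TwoDim

open Polynomial

variable {R : Type*} [CommRing R] [IsDomain R]
variable {V : Type*} [AddCommGroup V] [Module R V] [Module.Free R V] [Module.Finite R V]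

theorem charpoly_eq_of_finrank_two (h : Module.finrank R V = 2) (f : Module.End R V) :
    f.charpoly = X ^ 2 - C (LinearMap.trace R V f) * X + C (LinearMap.det f) := by
  classical
  let b : Module.Basis (Fin 2) R V := Module.finBasisOfFinrankEq R V h
  rw [← LinearMap.charpoly_toMatrix f b, Matrix.charpoly_fin_two,
    LinearMap.trace_eq_matrix_trace R b, ← LinearMap.det_toMatrix b]

theorem sq_sub_trace_add_det (h : Module.finrank R V = 2) (f : Module.End R V) :
    f * f - LinearMap.trace R V f • f + LinearMap.det f • (1 : Module.End R V) = 0 := by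
  have h1 := LinearMap.aeval_self_charpoly f
  rw [charpoly_eq_of_finrank_two h f] at h1
  rw [map_add, map_sub, map_mul, map_pow, aeval_X, aeval_C, aeval_C] at h1
  rw [Algebra.algebraMap_eq_smul_one, Algebra.algebraMap_eq_smul_one, smul_mul_assoc, one_mul,
    pow_two] at h1
  exact h1

omit [Module.Finite R V] in
theorem smul_one_eq_zero_iff (h : Module.finrank R V = 2) (t : R) :
    t • (1 : Module.End R V) = 0 ↔ t = 0 := by
  constructor
  · intro ht
    have hnt : Nontrivial V := Module.nontrivial_of_finrank_pos (R := R) (by omega)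
    obtain ⟨v, hv⟩ := exists_ne (0 : V)
    have := congrArg (fun φ : Module.End R V => φ v) ht
    simp only [LinearMap.smul_apply, Module.End.one_apply, LinearMap.zero_apply] at this
    exact (smul_eq_zero.mp this).resolve_right hv
  · rintro rfl; simp

theorem trace_det_of_quadratic (h : Module.finrank R V = 2)
    (f γ : Module.End R V) (hf : f ≠ 0)
    (hγ : γ * γ = 1) (hγns : ∀ s t : R, s • γ = t • (1 : Module.End R V) → s = 0)
    (a a' d : R) (hfa : f * f - a • f + d • (1 : Module.End R V) = 0)
    (hfγ : (f * γ) * (f * γ) - a' • (f * γ) - d • (1 : Module.End R V) = 0) :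
    LinearMap.trace R V f = a ∧ LinearMap.det f = d := by
  have hCH := sq_sub_trace_add_det h f
  set t := LinearMap.trace R V f with ht
  set δ := LinearMap.det f with hδ
  -- (t - a) • f = (δ - d) • 1
  have h1 : (t - a) • f = (δ - d) • (1 : Module.End R V) := by
    have : (t - a) • f - (δ - d) • (1 : Module.End R V) = 0 := by
      have e : (t - a) • f - (δ - d) • (1 : Module.End R V)
          = (f * f - a • f + d • (1 : Module.End R V)) - (f * f - t • f + δ • (1 : Module.End R V)) := by
        simp only [sub_smul]; abel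
      rw [e, hfa, hCH, sub_zero]
    exact sub_eq_zero.mp this
  by_cases hu : t - a = 0
  · have hta : t = a := sub_eq_zero.mp hu
    rw [hu, zero_smul] at h1
    have := (smul_one_eq_zero_iff (V := V) h (δ - d)).mp h1.symm
    exact ⟨hta, sub_eq_zero.mp this⟩
  · exfalso
    set u := t - a with hu'
    set v := δ - d with hv'
    -- trace of both sides: u * t = 2 * v
    have htr : u * t = 2 * v := by
      have := congrArg (LinearMap.trace R V) h1
      rw [map_smul, map_smul, LinearMap.trace_one, h, smul_eq_mul, smul_eq_mul] at this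
      rw [this]; push_cast; ring
    -- u • (f * γ) = v • γ
    have h2 : u • (f * γ) = v • γ := by
      rw [← smul_mul_assoc, h1, smul_mul_assoc, one_mul]
    -- multiply hfγ by u^2
    have h3 : (a' * u * v) • γ = (v ^ 2 - d * u ^ 2) • (1 : Module.End R V) := by
      have e0 : (u • (f * γ)) * (u • (f * γ)) - (a' * u) • (u • (f * γ)) - (d * u ^ 2) • (1 : Module.End R V) = 0 := by
        have : (u • (f * γ)) * (u • (f * γ)) - (a' * u) • (u • (f * γ)) - (d * u ^ 2) • (1 : Module.End R V)
            = (u ^ 2) • ((f * γ) * (f * γ) - a' • (f * γ) - d • (1 : Module.End R V)) := by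
          simp only [smul_sub, smul_mul_smul_comm, smul_smul]
          ring_nf
        rw [this, hfγ, smul_zero]
      rw [h2] at e0
      have e1 : (v • γ) * (v • γ) = (v ^ 2) • (1 : Module.End R V) := by
        rw [smul_mul_smul_comm, hγ, pow_two]
      rw [e1, smul_smul] at e0
      have : (a' * u * v) • γ - (v ^ 2 - d * u ^ 2) • (1 : Module.End R V) = 0 := by
        rw [sub_smul, ← neg_eq_zero]
        rw [← e0]; abel
      exact sub_eq_zero.mp this
    have h4 : a' * u * v = 0 := hγns _ _ h3
    rw [h4, zero_smul] at h3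
    have h5 : v ^ 2 = d * u ^ 2 := sub_eq_zero.mp ((smul_one_eq_zero_iff (V := V) h _).mp h3.symm)
    -- multiply hfa by u^2
    have h6 : v ^ 2 - a * u * v + d * u ^ 2 = 0 := by
      have e0 : (u • f) * (u • f) - (a * u) • (u • f) + (d * u ^ 2) • (1 : Module.End R V) = 0 := by
        have : (u • f) * (u • f) - (a * u) • (u • f) + (d * u ^ 2) • (1 : Module.End R V)
            = (u ^ 2) • (f * f - a • f + d • (1 : Module.End R V)) := by
          simp only [smul_sub, smul_add, smul_mul_smul_comm, smul_smul]
          ring_nf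
        rw [this, hfa, smul_zero]
      rw [h1, smul_mul_smul_comm, one_mul, smul_smul, ← sub_smul, ← add_smul] at e0
      have := (smul_one_eq_zero_iff (V := V) h _).mp e0
      rw [← this]; ring
    -- v (2 v - a u) = 0
    have h7 : v * (2 * v - a * u) = 0 := by
      have : v * (2 * v - a * u) = (v ^ 2 - a * u * v + d * u ^ 2) + (v ^ 2 - d * u ^ 2) := by ring
      rw [this, h6, h5]; ring
    rcases mul_eq_zero.mp h7 with hv0 | hv0
    · -- v = 0 ⇒ u • f = 0 ⇒ f = 0
      rw [hv0, zero_smul] at h1
      exact hf ((smul_eq_zero.mp h1).resolve_left hu)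
    · -- 2 v = a u ⇒ u t = a u ⇒ t = a
      have : u * (t - a) = 0 := by
        have : u * (t - a) = u * t - a * u := by ring
        rw [this, htr]; exact hv0
      rcases mul_eq_zero.mp this with h8 | h8
      · exact hu h8
      · exact hu h8

theorem charpoly_of_quadratic (h : Module.finrank R V = 2)
    (f γ : Module.End R V) (hf : f ≠ 0)
    (hγ : γ * γ = 1) (hγns : ∀ s t : R, s • γ = t • (1 : Module.End R V) → s = 0)
    (a a' d : R) (hfa : f * f - a • f + d • (1 : Module.End R V) = 0)
    (hfγ : (f * γ) * (f * γ) - a' • (f * γ) - d • (1 : Module.End R V) = 0) :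
    f.charpoly = X ^ 2 - C a * X + C d := by
  obtain ⟨h1, h2⟩ := trace_det_of_quadratic h f γ hf hγ hγns a a' d hfa hfγ
  rw [charpoly_eq_of_finrank_two h f, h1, h2]

end Fermat.Agent.GJ.Tate.TwoDim
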