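/-
GATE-J / J4-TATE (helper17): extraction of a rank two representation from a torsion-free module
on which every group element satisfies a quadratic relation with scalar "trace".

Setting: `𝒪` a PID (`2 ≠ 0`), `L` a finitely generated torsion-free nontrivial `𝒪`-module,
`r : G →* End 𝒪 L`, `d : G →* 𝒪ˣ`, `a : G → 𝒪` with
    `r g + d g • r g⁻¹ = a g • 1`   for all `g`,
and an element `c` with `c * c = 1`, `d c = -1` ("complex conjugation").

Output (`exists_rankTwoRep`): a free rank two `𝒪`-module `V` with `ρ : G →* End 𝒪 V` such that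
`charpoly (ρ g) = X² - a g X + d g` for every `g`, together with a transfer principle for
congruences (`r g ≡ 1` and `d g ≡ 1` mod `s` imply `ρ g ≡ 1` mod `s`; `s = 0` gives triviality).

No field extension, no compactness: the idempotents `(1 ± r c)/2` of complex conjugation cut `L`
down to a stable saturated submodule of rank one or two (the corner identity).
-/
import Mathlib
import Fermat.Agent.GJ.Tate.TwoDim

set_option autoImplicit false

namespace Fermat.Agent.GJ.Tate.Extract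

open Polynomial

/-! ### Saturation -/

section Sat

variable {𝒪 : Type*} [CommRing 𝒪] [IsDomain 𝒪]
variable {L : Type*} [AddCommGroup L] [Module 𝒪 L]

/-- saturation of a submodule -/
def sat (X : Submodule 𝒪 L) : Submodule 𝒪 L where
  carrier := {v | ∃ s : 𝒪, s ≠ 0 ∧ s • v ∈ X}
  add_mem' := by
    rintro v w ⟨s, hs, hv⟩ ⟨t, ht, hw⟩
    refine ⟨s * t, mul_ne_zero hs ht, ?_⟩
    rw [smul_add]
    refine X.add_mem ?_ ?_
    · rw [mul_comm, mul_smul]; exact X.smul_mem t hv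
    · rw [mul_smul]; exact X.smul_mem s hw
  zero_mem' := ⟨1, one_ne_zero, by simp⟩
  smul_mem' := by
    rintro c v ⟨s, hs, hv⟩
    exact ⟨s, hs, by rw [smul_comm]; exact X.smul_mem c hv⟩

theorem mem_sat {X : Submodule 𝒪 L} {v : L} : v ∈ sat X ↔ ∃ s : 𝒪, s ≠ 0 ∧ s • v ∈ X := Iff.rfl

theorem le_sat (X : Submodule 𝒪 L) : X ≤ sat X := fun v hv => ⟨1, one_ne_zero, by simpa using hv⟩

theorem sat_saturated {X : Submodule 𝒪 L} {s : 𝒪} (hs : s ≠ 0) {v : L} (h : s • v ∈ sat X) :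
    v ∈ sat X := by
  obtain ⟨t, ht, hv⟩ := h
  exact ⟨t * s, mul_ne_zero ht hs, by rwa [mul_smul]⟩

theorem map_mem_sat {X : Submodule 𝒪 L} (f : Module.End 𝒪 L)
    (hf : ∀ x ∈ X, f x ∈ sat X) {v : L} (hv : v ∈ sat X) : f v ∈ sat X := by
  obtain ⟨s, hs, hv⟩ := hv
  have := hf _ hv
  rw [map_smul] at this
  exact sat_saturated hs this

/-- the rank of the saturation equals the rank -/
theorem finrank_sat (X : Submodule 𝒪 L) : Module.finrank 𝒪 (sat X) = Module.finrank 𝒪 X := by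
  have hle := le_sat X
  let X' : Submodule 𝒪 (sat X) := X.comap (sat X).subtype
  have e : X' ≃ₗ[𝒪] X := Submodule.comapSubtypeEquivOfLe hle
  have hq : Module.rank 𝒪 ((sat X) ⧸ X') = 0 := by
    rw [rank_eq_zero_iff]
    intro x
    obtain ⟨⟨v, hv⟩, rfl⟩ := Submodule.Quotient.mk_surjective _ x
    obtain ⟨s, hs, hsv⟩ := hv
    refine ⟨s, hs, ?_⟩
    rw [← Submodule.Quotient.mk_smul, Submodule.Quotient.mk_eq_zero]
    exact hsv
  have h1 := rank_quotient_add_rank_of_isDomain X'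
  rw [hq, zero_add] at h1
  have h2 : Module.rank 𝒪 X' = Module.rank 𝒪 X := e.rank_eq
  unfold Module.finrank
  rw [← h1, h2]

end Sat

/-! ### The corner identity -/

section Corner

variable {𝒪 : Type*} [CommRing 𝒪]

theorem corner_identity {A : Type*} [Ring A] [Algebra 𝒪 A] (C x y : A) (hC : C * C = 1)
    (α β β' δ : 𝒪) (h1 : x + y = α • (1 : A)) (h2 : C * x - y * C = β • (1 : A))
    (h3 : x * C - C * y = β' • (1 : A)) (h4 : C * x * C + C * y * C = δ • (1 : A)) :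
    (2 : 𝒪) • ((1 + C) * x * (1 + C)) = (α + β + β' + δ) • (1 + C) := by
  have key : (1 + C) * x * (1 + C) + (1 - C) * y * (1 - C) = (α + β + β' + δ) • (1 : A) := by
    have : (1 + C) * x * (1 + C) + (1 - C) * y * (1 - C)
        = (x + y) + (C * x - y * C) + (x * C - C * y) + (C * x * C + C * y * C) := by
      noncomm_ring
    rw [this, h1, h2, h3, h4, ← add_smul, ← add_smul, ← add_smul]
  have hpp : (1 + C) * (1 + C) = (2 : 𝒪) • (1 + C) := by
    have : (1 + C) * (1 + C) = 1 + C + C + C * C := by noncomm_ring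
    rw [this, hC, two_smul]; abel
  have hpm : (1 + C) * (1 - C) = 0 := by
    have : (1 + C) * (1 - C) = 1 - C * C := by noncomm_ring
    rw [this, hC, sub_self]
  have e : (1 + C) * ((1 + C) * x * (1 + C)) + (1 + C) * ((1 - C) * y * (1 - C))
      = (1 + C) * ((α + β + β' + δ) • (1 : A)) := by
    rw [← mul_add, key]
  have e1 : (1 + C) * ((1 + C) * x * (1 + C)) = (2 : 𝒪) • ((1 + C) * x * (1 + C)) := by
    rw [← mul_assoc, ← mul_assoc, hpp, smul_mul_assoc, smul_mul_assoc]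
  have e2 : (1 + C) * ((1 - C) * y * (1 - C)) = 0 := by
    rw [← mul_assoc, ← mul_assoc, hpm, zero_mul, zero_mul]
  rw [e1, e2, add_zero] at e
  rw [e, mul_smul_comm, mul_one]

variable {G : Type*} [Group G] {L : Type*} [AddCommGroup L] [Module 𝒪 L]
variable (r : G →* Module.End 𝒪 L) (d : G →* 𝒪ˣ) (a : G → 𝒪) (c : G)

/-- the sum of four values of `a` appearing in the corner identity -/
def Asum (s : 𝒪) (g : G) : 𝒪 := a g + s * a (c * g) + s * a (g * c) + a (c * g * c)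

/-- `1 + s • r c` (twice the projector onto the `s`-eigenspace of `r c` when `s = ±1`) -/
def Ep (s : 𝒪) : Module.End 𝒪 L := 1 + s • r c

variable {r d a c}

theorem corner (rel : ∀ g, r g + ((d g : 𝒪ˣ) : 𝒪) • r g⁻¹ = a g • (1 : Module.End 𝒪 L))
    (hc : c * c = 1) (hdc : d c = -1) (s : 𝒪) (hs : s * s = 1) (g : G) :
    (2 : 𝒪) • (Ep r c s * r g * Ep r c s) = Asum a c s g • Ep r c s := by
  have hcinv : c⁻¹ = c := inv_eq_of_mul_eq_one_right hc
  have hrc : r c * r c = 1 := by rw [← map_mul, hc, map_one]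
  have hdcv : ((d c : 𝒪ˣ) : 𝒪) = -1 := by rw [hdc]; simp
  have hC : (s • r c) * (s • r c) = 1 := by
    rw [smul_mul_smul_comm, hs, hrc, one_smul]
  have h2 : (s • r c) * r g - (((d g : 𝒪ˣ) : 𝒪) • r g⁻¹) * (s • r c)
      = (s * a (c * g)) • (1 : Module.End 𝒪 L) := by
    have e := rel (c * g)
    rw [map_mul d, Units.val_mul, hdcv, mul_inv_rev, hcinv, map_mul r, map_mul r] at e
    rw [mul_smul, ← e]
    simp only [smul_mul_assoc, mul_smul_comm, smul_add, neg_mul, one_mul, neg_smul, smul_neg]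
    rw [smul_comm]; abel
  have h3 : r g * (s • r c) - (s • r c) * (((d g : 𝒪ˣ) : 𝒪) • r g⁻¹)
      = (s * a (g * c)) • (1 : Module.End 𝒪 L) := by
    have e := rel (g * c)
    rw [map_mul d, Units.val_mul, hdcv, mul_inv_rev, hcinv, map_mul r, map_mul r] at e
    rw [mul_smul, ← e]
    simp only [smul_mul_assoc, mul_smul_comm, smul_add, mul_neg, mul_one, neg_smul, smul_neg]
    rw [smul_comm]; abel
  have h4 : (s • r c) * r g * (s • r c) + (s • r c) * (((d g : 𝒪ˣ) : 𝒪) • r g⁻¹) * (s • r c)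
      = (a (c * g * c)) • (1 : Module.End 𝒪 L) := by
    have e := rel (c * g * c)
    rw [map_mul d, map_mul d, Units.val_mul, Units.val_mul, hdcv, mul_inv_rev, mul_inv_rev, hcinv,
      map_mul r, map_mul r, map_mul r, map_mul r] at e
    rw [← e]
    simp only [smul_mul_assoc, mul_smul_comm, smul_smul]
    have : s * s * ((d g : 𝒪ˣ) : 𝒪) = -1 * ((d g : 𝒪ˣ) : 𝒪) * -1 := by rw [hs]; ring
    rw [hs, one_smul]
    congr 1
    rw [mul_comm ((d g : 𝒪ˣ) : 𝒪) s, ← mul_assoc, this, mul_assoc (r c)]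
  exact corner_identity (𝒪 := 𝒪) (s • r c) (r g) (((d g : 𝒪ˣ) : 𝒪) • r g⁻¹) hC
    (a g) (s * a (c * g)) (s * a (g * c)) (a (c * g * c)) (rel g) h2 h3 h4

theorem Ep_apply (s : 𝒪) (v : L) : Ep r c s v = v + s • r c v := by
  simp [Ep]

theorem two_smul_eq_Ep_add (s : 𝒪) (v : L) : (2 : 𝒪) • v = Ep r c s v + Ep r c (-s) v := by
  rw [Ep_apply, Ep_apply, two_smul, neg_smul]; abel

/-- `Ep s v` is an eigenvector of `s • r c` -/
theorem smul_rc_Ep (hc : c * c = 1) (s : 𝒪) (hs : s * s = 1) (v : L) :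
    s • r c (Ep r c s v) = Ep r c s v := by
  have hrc : r c (r c v) = v := by
    rw [← Module.End.mul_apply, ← map_mul, hc, map_one, Module.End.one_apply]
  rw [Ep_apply, map_add, map_smul, hrc, smul_add, smul_smul, hs, one_smul, add_comm]

theorem Ep_of_eigen {s : 𝒪} {u : L} (hu : s • r c u = u) : Ep r c s u = (2 : 𝒪) • u := by
  rw [Ep_apply, hu, two_smul]

theorem Ep_neg_of_eigen {s : 𝒪} {u : L} (hu : s • r c u = u) : Ep r c (-s) u = 0 := by
  rw [Ep_apply, neg_smul, hu, add_neg_cancel]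

theorem rc_of_eigen {s : 𝒪} (hs : s * s = 1) {u : L} (hu : s • r c u = u) : r c u = s • u := by
  have := congrArg (fun z => s • z) hu
  simp only [smul_smul, hs, one_smul] at this
  exact this

end Corner

/-! ### The stable submodule -/

section Stable

variable {𝒪 : Type*} [CommRing 𝒪] [IsDomain 𝒪]
variable {G : Type*} [Group G] {L : Type*} [AddCommGroup L] [Module 𝒪 L]
variable {r : G →* Module.End 𝒪 L} {d : G →* 𝒪ˣ} {a : G → 𝒪} {c : G}
variable [Module.IsTorsionFree 𝒪 L] (h2 : (2 : 𝒪) ≠ 0)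
variable (rel : ∀ g, r g + ((d g : 𝒪ˣ) : 𝒪) • r g⁻¹ = a g • (1 : Module.End 𝒪 L))
  (hc : c * c = 1) (hdc : d c = -1)
include h2 rel hc hdc

theorem two_smul_Ep_apply {s : 𝒪} (hs : s * s = 1) {u : L} (hu : s • r c u = u) (g : G) :
    (2 : 𝒪) • Ep r c s (r g u) = Asum a c s g • u := by
  have h := congrArg (fun φ : Module.End 𝒪 L => φ u) (corner rel hc hdc s hs g)
  simp only [LinearMap.smul_apply, Module.End.mul_apply, Ep_of_eigen hu, map_smul] at h
  rw [smul_comm (Asum a c s g) (2 : 𝒪) u] at h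
  exact smul_right_injective L h2 h

/-- the "line" case -/
theorem four_smul_of_line {s : 𝒪} (hs : s * s = 1) {u : L} (hu : s • r c u = u)
    (hline : ∀ x, Ep r c (-s) (r x u) = 0) (g : G) :
    (4 : 𝒪) • r g u = Asum a c s g • u := by
  have e1 := two_smul_eq_Ep_add (r := r) (c := c) s (r g u)
  rw [hline g, add_zero] at e1
  have e2 := two_smul_Ep_apply h2 rel hc hdc hs hu g
  rw [← e1, smul_smul] at e2
  norm_num at e2
  exact e2

/-- the "plane" case, part 1 -/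
theorem four_smul_Ep_apply_plane {s : 𝒪} (hs : s * s = 1) {w : L} (hw : s • r c w = w) (x g : G) :
    (4 : 𝒪) • Ep r c s (r g (Ep r c (-s) (r x w)))
      = (4 * Asum a c s (g * x) - Asum a c s x * Asum a c s g) • w := by
  have e0 : Ep r c (-s) (r x w) = (2 : 𝒪) • r x w - Ep r c s (r x w) := by
    rw [two_smul_eq_Ep_add (r := r) (c := c) s (r x w)]; abel
  have e1 : (2 : 𝒪) • Ep r c s (r (g * x) w) = Asum a c s (g * x) • w :=
    two_smul_Ep_apply h2 rel hc hdc hs hw (g * x)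
  have e2 : (2 : 𝒪) • Ep r c s (r x w) = Asum a c s x • w :=
    two_smul_Ep_apply h2 rel hc hdc hs hw x
  have e3 : (2 : 𝒪) • Ep r c s (r g w) = Asum a c s g • w :=
    two_smul_Ep_apply h2 rel hc hdc hs hw g
  rw [e0, map_sub, map_sub, map_smul, map_smul]
  rw [← Module.End.mul_apply (r g) (r x), ← map_mul]
  have e4 : (4 : 𝒪) • Ep r c s (r g (Ep r c s (r x w))) = (Asum a c s x * Asum a c s g) • w := by
    have : (4 : 𝒪) • Ep r c s (r g (Ep r c s (r x w)))
        = (2 : 𝒪) • Ep r c s (r g ((2 : 𝒪) • Ep r c s (r x w))) := by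
      rw [map_smul, map_smul, smul_smul]; norm_num
    rw [this, e2, map_smul, map_smul, smul_comm, e3, smul_smul]
  rw [smul_sub, e4, e1]
  module

theorem eight_smul_plane {s : 𝒪} (hs : s * s = 1) {w : L} (hw : s • r c w = w) (x g : G) :
    (8 : 𝒪) • r g (Ep r c (-s) (r x w))
      = (4 * Asum a c s (g * x) - Asum a c s x * Asum a c s g) • w
        + (2 * Asum a c (-s) g) • Ep r c (-s) (r x w) := by
  have hs' : (-s) * (-s) = 1 := by rw [neg_mul_neg, hs]
  have hw' : (-s) • r c (Ep r c (-s) (r x w)) = Ep r c (-s) (r x w) := smul_rc_Ep hc (-s) hs' _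
  have e1 := two_smul_eq_Ep_add (r := r) (c := c) s (r g (Ep r c (-s) (r x w)))
  have e2 := four_smul_Ep_apply_plane h2 rel hc hdc hs hw x g
  have e3 := two_smul_Ep_apply h2 rel hc hdc hs' hw' g
  have : (8 : 𝒪) • r g (Ep r c (-s) (r x w))
      = (4 : 𝒪) • ((2 : 𝒪) • r g (Ep r c (-s) (r x w))) := by
    rw [smul_smul]; norm_num
  rw [this, e1, smul_add, e2]
  have : (4 : 𝒪) • Ep r c (-s) (r g (Ep r c (-s) (r x w)))
      = (2 : 𝒪) • ((2 : 𝒪) • Ep r c (-s) (r g (Ep r c (-s) (r x w)))) := by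
    rw [smul_smul]; norm_num
  rw [this, e3, smul_smul]

/-- existence of a stable saturated submodule of rank one or two -/
theorem exists_stable [Nontrivial L] :
    ∃ X : Submodule 𝒪 L, (∀ g, ∀ v ∈ sat X, r g v ∈ sat X) ∧
      ((∃ u : L, u ≠ 0 ∧ X = Submodule.span 𝒪 {u}) ∨
       (∃ (w w' : L) (σ : 𝒪), σ * σ = 1 ∧ w ≠ 0 ∧ w' ≠ 0 ∧ r c w = σ • w ∧ r c w' = (-σ) • w' ∧
          X = Submodule.span 𝒪 {w, w'})) := by
  have h4 : (4 : 𝒪) ≠ 0 := by
    have : (4 : 𝒪) = 2 * 2 := by norm_num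
    rw [this]; exact mul_ne_zero h2 h2
  have h8 : (8 : 𝒪) ≠ 0 := by
    have : (8 : 𝒪) = 2 * 4 := by norm_num
    rw [this]; exact mul_ne_zero h2 h4
  have line : ∀ (s : 𝒪) (hs : s * s = 1) (u : L) (hu0 : u ≠ 0) (hu : s • r c u = u)
      (hline : ∀ x, Ep r c (-s) (r x u) = 0),
      ∃ X : Submodule 𝒪 L, (∀ g, ∀ v ∈ sat X, r g v ∈ sat X) ∧
        ((∃ u : L, u ≠ 0 ∧ X = Submodule.span 𝒪 {u}) ∨
         (∃ (w w' : L) (σ : 𝒪), σ * σ = 1 ∧ w ≠ 0 ∧ w' ≠ 0 ∧ r c w = σ • w ∧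
            r c w' = (-σ) • w' ∧ X = Submodule.span 𝒪 {w, w'})) := by
    intro s hs u hu0 hu hline
    refine ⟨Submodule.span 𝒪 {u}, fun g v hv => ?_, Or.inl ⟨u, hu0, rfl⟩⟩
    refine map_mem_sat (r g) (fun x hx => ?_) hv
    obtain ⟨t, rfl⟩ := Submodule.mem_span_singleton.mp hx
    rw [map_smul]
    refine Submodule.smul_mem _ _ ?_
    refine ⟨4, h4, ?_⟩
    rw [four_smul_of_line h2 rel hc hdc hs hu hline g]
    exact Submodule.smul_mem _ _ (Submodule.mem_span_singleton_self u)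
  obtain ⟨v0, hv0⟩ := exists_ne (0 : L)
  obtain ⟨s, hs, hw0⟩ : ∃ s : 𝒪, s * s = 1 ∧ Ep r c s v0 ≠ 0 := by
    by_contra hcon
    push Not at hcon
    have e1 := hcon 1 (by ring)
    have e2 := hcon (-1) (by ring)
    have := two_smul_eq_Ep_add (r := r) (c := c) 1 v0
    rw [e1, e2, add_zero] at this
    exact hv0 ((smul_eq_zero.mp this).resolve_left h2)
  set w := Ep r c s v0 with hwdef
  have hw : s • r c w = w := smul_rc_Ep hc s hs v0
  have hs' : (-s) * (-s) = 1 := by rw [neg_mul_neg, hs]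
  by_cases hcase : ∀ x, Ep r c (-s) (r x w) = 0
  · exact line s hs w hw0 hw hcase
  · push Not at hcase
    obtain ⟨x, hx⟩ := hcase
    set w' := Ep r c (-s) (r x w) with hw'def
    have hw' : (-s) • r c w' = w' := smul_rc_Ep hc (-s) hs' _
    by_cases hcase2 : ∀ y, Ep r c s (r y w') = 0
    · refine line (-s) hs' w' hx hw' ?_
      intro y; rw [neg_neg]; exact hcase2 y
    · push Not at hcase2
      obtain ⟨y, hy⟩ := hcase2
      have horb : ∀ g, r g w' ∈ sat (Submodule.span 𝒪 {w, w'}) := by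
        intro g
        refine ⟨8, h8, ?_⟩
        rw [eight_smul_plane h2 rel hc hdc hs hw x g]
        refine Submodule.add_mem _ (Submodule.smul_mem _ _ ?_) (Submodule.smul_mem _ _ ?_)
        · exact Submodule.subset_span (Set.mem_insert _ _)
        · exact Submodule.subset_span (Set.mem_insert_of_mem _ (Set.mem_singleton _))
      have hμ := four_smul_Ep_apply_plane h2 rel hc hdc hs hw x y
      set μ := 4 * Asum a c s (y * x) - Asum a c s x * Asum a c s y with hμdef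
      have hμ0 : μ ≠ 0 := by
        intro h0
        rw [h0, zero_smul] at hμ
        exact hy ((smul_eq_zero.mp hμ).resolve_left h4)
      have hw_orb : ∀ g, r g w ∈ sat (Submodule.span 𝒪 {w, w'}) := by
        intro g
        apply sat_saturated hμ0
        rw [← map_smul, ← hμ, map_smul]
        refine Submodule.smul_mem _ _ ?_
        rw [Ep_apply, map_add, map_smul]
        refine Submodule.add_mem _ ?_ (Submodule.smul_mem _ _ ?_)
        · rw [← Module.End.mul_apply, ← map_mul]; exact horb _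
        · rw [← Module.End.mul_apply, ← Module.End.mul_apply, ← map_mul, ← map_mul]
          exact horb _
      refine ⟨Submodule.span 𝒪 {w, w'}, fun g v hv => ?_, Or.inr ⟨w, w', s, hs, hw0, hx,
        rc_of_eigen hs hw, rc_of_eigen hs' hw', rfl⟩⟩
      refine map_mem_sat (r g) (fun z hz => ?_) hv
      obtain ⟨t, t', rfl⟩ := Submodule.mem_span_pair.mp hz
      rw [map_add, map_smul, map_smul]
      exact Submodule.add_mem _ (Submodule.smul_mem _ _ (hw_orb g))
        (Submodule.smul_mem _ _ (horb g))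

end Stable

/-! ### Output structure and diagonal representations -/

/-- output structure: a free rank two module with a representation -/
structure RankTwoRep (𝒪 : Type) [CommRing 𝒪] (G : Type*) [Group G] where
  V : Type
  [instAddCommGroup : AddCommGroup V]
  [instModule : Module 𝒪 V]
  [instFree : Module.Free 𝒪 V]
  [instFinite : Module.Finite 𝒪 V]
  finrank_eq : Module.finrank 𝒪 V = 2
  ρ : G →* Module.End 𝒪 V

attribute [instance] RankTwoRep.instAddCommGroup RankTwoRep.instModule RankTwoRep.instFree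
  RankTwoRep.instFinite

section Diag
variable {𝒪 : Type} [CommRing 𝒪]
variable {G : Type*} [Group G]

/-- the diagonal matrix attached to two characters -/
def diagMat (ψ₁ ψ₂ : G →* 𝒪ˣ) (g : G) : Matrix (Fin 2) (Fin 2) 𝒪 :=
  Matrix.diagonal ![((ψ₁ g : 𝒪ˣ) : 𝒪), ((ψ₂ g : 𝒪ˣ) : 𝒪)]

theorem diagMat_one (ψ₁ ψ₂ : G →* 𝒪ˣ) : diagMat ψ₁ ψ₂ 1 = 1 := by
  unfold diagMat
  rw [← Matrix.diagonal_one]
  congr 1
  ext i
  fin_cases i <;> simp

theorem diagMat_mul (ψ₁ ψ₂ : G →* 𝒪ˣ) (g h : G) :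
    diagMat ψ₁ ψ₂ (g * h) = diagMat ψ₁ ψ₂ g * diagMat ψ₁ ψ₂ h := by
  unfold diagMat
  rw [Matrix.diagonal_mul_diagonal]
  congr 1
  ext i
  fin_cases i <;> simp

/-- the diagonal representation attached to two characters -/
noncomputable def diagRep (ψ₁ ψ₂ : G →* 𝒪ˣ) : G →* Module.End 𝒪 (Fin 2 → 𝒪) where
  toFun g := Matrix.toLin' (diagMat ψ₁ ψ₂ g)
  map_one' := by rw [diagMat_one, Matrix.toLin'_one]; rfl
  map_mul' g h := by rw [diagMat_mul, Matrix.toLin'_mul]; rfl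

theorem diagRep_apply (ψ₁ ψ₂ : G →* 𝒪ˣ) (g : G) (x : Fin 2 → 𝒪) :
    diagRep ψ₁ ψ₂ g x = ![((ψ₁ g : 𝒪ˣ) : 𝒪) * x 0, ((ψ₂ g : 𝒪ˣ) : 𝒪) * x 1] := by
  ext i
  change (Matrix.toLin' (diagMat ψ₁ ψ₂ g)) x i = _
  rw [Matrix.toLin'_apply, diagMat, Matrix.mulVec_diagonal]
  fin_cases i <;> simp

theorem diagRep_charpoly (ψ₁ ψ₂ : G →* 𝒪ˣ) (g : G) :
    (diagRep ψ₁ ψ₂ g).charpoly
      = X ^ 2 - C (((ψ₁ g : 𝒪ˣ) : 𝒪) + ((ψ₂ g : 𝒪ˣ) : 𝒪)) * X
        + C (((ψ₁ g : 𝒪ˣ) : 𝒪) * ((ψ₂ g : 𝒪ˣ) : 𝒪)) := by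
  change (Matrix.toLin' (diagMat ψ₁ ψ₂ g)).charpoly = _
  rw [Matrix.charpoly_toLin', diagMat, Matrix.charpoly_diagonal, Fin.prod_univ_two]
  simp only [Matrix.cons_val_zero, Matrix.cons_val_one, map_add, map_mul]
  ring

/-- the rank two representation attached to two characters -/
noncomputable def RankTwoRep.ofChars [Nontrivial 𝒪] (ψ₁ ψ₂ : G →* 𝒪ˣ) : RankTwoRep 𝒪 G where
  V := Fin 2 → 𝒪
  finrank_eq := Module.finrank_fin_fun 𝒪
  ρ := diagRep ψ₁ ψ₂

end Diag

/-! ### Rank one: a stable free rank one module gives a character -/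
section RankOne
variable {𝒪 : Type*} [CommRing 𝒪] [IsDomain 𝒪]
variable {G : Type*} [Group G]
variable {V : Type*} [AddCommGroup V] [Module 𝒪 V] [Module.Free 𝒪 V] [Module.Finite 𝒪 V]

theorem exists_generator_of_finrank_one (h : Module.finrank 𝒪 V = 1) :
    ∃ w0 : V, w0 ≠ 0 ∧ ∀ v : V, ∃ ν : 𝒪, v = ν • w0 := by
  classical
  let b : Module.Basis (Fin 1) 𝒪 V := Module.finBasisOfFinrankEq 𝒪 V h
  refine ⟨b 0, b.ne_zero 0, fun v => ⟨b.repr v 0, ?_⟩⟩
  conv_lhs => rw [← b.sum_repr v]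
  simp

omit [Module.Free 𝒪 V] [Module.Finite 𝒪 V] in
theorem exists_char_of_generator [Module.IsTorsionFree 𝒪 V] {w0 : V} (hw0 : w0 ≠ 0) (hgen : ∀ v : V, ∃ ν : 𝒪, v = ν • w0)
    (ρ : G →* Module.End 𝒪 V) :
    ∃ ψ : G →* 𝒪ˣ, ∀ g v, ρ g v = ((ψ g : 𝒪ˣ) : 𝒪) • v := by
  classical
  choose κ hκ using fun f : Module.End 𝒪 V => hgen (f w0)
  have key : ∀ (f : Module.End 𝒪 V) (v : V), f v = κ f • v := by
    intro f v
    obtain ⟨ν, rfl⟩ := hgen v
    rw [map_smul, hκ f, smul_smul, smul_smul, mul_comm]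
  let ψ₀ : G →* 𝒪 :=
    { toFun := fun g => κ (ρ g)
      map_one' := by
        have e := key (ρ 1) w0
        have : (1 : 𝒪) • w0 = κ (ρ 1) • w0 := by
          rw [one_smul, ← e, map_one, Module.End.one_apply]
        exact (smul_left_injective 𝒪 hw0 this).symm
      map_mul' := by
        intro g g'
        have e := key (ρ (g * g')) w0
        rw [map_mul, Module.End.mul_apply, key (ρ g') w0, map_smul, key (ρ g) w0, smul_smul,
          mul_comm] at e
        rw [← map_mul] at e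
        exact (smul_left_injective 𝒪 hw0 e).symm }
  refine ⟨ψ₀.toHomUnits, fun g v => ?_⟩
  rw [MonoidHom.coe_toHomUnits]
  exact key (ρ g) v

end RankOne

/-! ### Restriction to a stable submodule -/
section Restrict
variable {𝒪 : Type*} [CommRing 𝒪]
variable {G : Type*} [Group G] {L : Type*} [AddCommGroup L] [Module 𝒪 L]

/-- restriction of a representation to a stable submodule -/
def restrictRep (r : G →* Module.End 𝒪 L) (W : Submodule 𝒪 L)
    (hW : ∀ g, ∀ v ∈ W, r g v ∈ W) : G →* Module.End 𝒪 W where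
  toFun g := (r g).restrict (hW g)
  map_one' := by
    ext v
    simp
  map_mul' g h := by
    ext v
    simp [Module.End.mul_apply]

theorem restrictRep_apply (r : G →* Module.End 𝒪 L) (W : Submodule 𝒪 L)
    (hW : ∀ g, ∀ v ∈ W, r g v ∈ W) (g : G) (v : W) :
    ((restrictRep r W hW g v : W) : L) = r g (v : L) := rfl

end Restrict

/-! ### The two cases -/
section Cases
variable {𝒪 : Type} [CommRing 𝒪] [IsDomain 𝒪] [IsPrincipalIdealRing 𝒪]
variable {G : Type*} [Group G] {L : Type} [AddCommGroup L] [Module 𝒪 L] [Module.Finite 𝒪 L]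
variable [Module.IsTorsionFree 𝒪 L]
variable {r : G →* Module.End 𝒪 L} {d : G →* 𝒪ˣ} {a : G → 𝒪} {c : G}

/-- the conclusion of the extraction theorem -/
def Conclusion (r : G →* Module.End 𝒪 L) (d : G →* 𝒪ˣ) (a : G → 𝒪) : Prop :=
  ∃ R : RankTwoRep 𝒪 G,
    (∀ g, (R.ρ g).charpoly = X ^ 2 - C (a g) * X + C (((d g : 𝒪ˣ) : 𝒪))) ∧
    (∀ (g : G) (s : 𝒪), (∀ v : L, ∃ v' : L, r g v - v = s • v') →
      (∃ t : 𝒪, ((d g : 𝒪ˣ) : 𝒪) - 1 = s * t) → ∀ v : R.V, ∃ v' : R.V, R.ρ g v - v = s • v')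

theorem conclusion_of_line
    (rel : ∀ g, r g + ((d g : 𝒪ˣ) : 𝒪) • r g⁻¹ = a g • (1 : Module.End 𝒪 L))
    {u : L} (hu : u ≠ 0)
    (hstab : ∀ g, ∀ v ∈ sat (Submodule.span 𝒪 {u}), r g v ∈ sat (Submodule.span 𝒪 {u})) :
    Conclusion r d a := by
  classical
  set W := sat (Submodule.span 𝒪 {u}) with hW
  have hfr : Module.finrank 𝒪 W = 1 := by
    rw [hW, finrank_sat]
    have hli : LinearIndependent 𝒪 (fun _ : Fin 1 => u) := by
      rw [linearIndependent_unique_iff]; exact hu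
    have := finrank_span_eq_card hli
    rw [Set.range_const] at this
    rw [this, Fintype.card_fin]
  have : Module.Free 𝒪 W := Module.free_of_finite_type_torsion_free'
  obtain ⟨w0, hw0, hgen⟩ := exists_generator_of_finrank_one (𝒪 := 𝒪) (V := W) hfr
  obtain ⟨ψ, hψ⟩ := exists_char_of_generator hw0 hgen (restrictRep r W hstab)
  have hψL : ∀ g, r g (w0 : L) = ((ψ g : 𝒪ˣ) : 𝒪) • (w0 : L) := by
    intro g
    have := congrArg (fun z : W => (z : L)) (hψ g w0)
    simpa [restrictRep_apply] using this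
  have hw0L : (w0 : L) ≠ 0 := fun h => hw0 (Subtype.ext h)
  -- the relation on characters
  have hrel : ∀ g, ((ψ g : 𝒪ˣ) : 𝒪) + ((d g : 𝒪ˣ) : 𝒪) * (((ψ g)⁻¹ : 𝒪ˣ) : 𝒪) = a g := by
    intro g
    have e := congrArg (fun φ : Module.End 𝒪 L => φ (w0 : L)) (rel g)
    simp only [LinearMap.add_apply, LinearMap.smul_apply, Module.End.one_apply] at e
    rw [hψL g, hψL g⁻¹, map_inv, smul_smul, ← add_smul] at e
    exact smul_left_injective 𝒪 hw0L e
  refine ⟨RankTwoRep.ofChars ψ (d * ψ⁻¹), fun g => ?_, fun g s h1 h2 => ?_⟩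
  · change (diagRep ψ (d * ψ⁻¹) g).charpoly = _
    rw [diagRep_charpoly]
    have e1 : ((d * ψ⁻¹) g : 𝒪ˣ) = d g * (ψ g)⁻¹ := by simp
    rw [e1, Units.val_mul, hrel g]
    have e2 : ((ψ g : 𝒪ˣ) : 𝒪) * (((d g : 𝒪ˣ) : 𝒪) * (((ψ g)⁻¹ : 𝒪ˣ) : 𝒪)) = ((d g : 𝒪ˣ) : 𝒪) := by
      rw [mul_comm, mul_assoc, Units.inv_mul, mul_one]
    rw [e2]
  · -- transfer
    change ∀ x : Fin 2 → 𝒪, ∃ x' : Fin 2 → 𝒪, diagRep ψ (d * ψ⁻¹) g x - x = s • x'
    intro x
    obtain ⟨t, ht⟩ := h2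
    have h3 : ∃ t₁ : 𝒪, ((ψ g : 𝒪ˣ) : 𝒪) - 1 = s * t₁ := by
      obtain ⟨v', hv'⟩ := h1 (w0 : L)
      rw [hψL g] at hv'
      have hv'' : (((ψ g : 𝒪ˣ) : 𝒪) - 1) • (w0 : L) = s • v' := by rw [sub_smul, one_smul, hv']
      by_cases hs : s = 0
      · rw [hs, zero_smul] at hv''
        refine ⟨0, ?_⟩
        rw [mul_zero]
        exact (smul_eq_zero.mp hv'').resolve_right hw0L
      · have hv'W : v' ∈ W := by
          apply sat_saturated hs
          rw [← hv'']
          exact Submodule.smul_mem _ _ w0.2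
        obtain ⟨ν, hν⟩ := hgen ⟨v', hv'W⟩
        have hνL : v' = ν • (w0 : L) := congrArg (fun z : W => (z : L)) hν
        rw [hνL, smul_smul] at hv''
        exact ⟨ν, smul_left_injective 𝒪 hw0L hv''⟩
    obtain ⟨t₁, ht₁⟩ := h3
    have h4 : (((d * ψ⁻¹) g : 𝒪ˣ) : 𝒪) - 1 = s * ((((ψ g)⁻¹ : 𝒪ˣ) : 𝒪) * (t - t₁)) := by
      have e1 : ((d * ψ⁻¹) g : 𝒪ˣ) = d g * (ψ g)⁻¹ := by simp
      rw [e1, Units.val_mul]
      have : ((d g : 𝒪ˣ) : 𝒪) * (((ψ g)⁻¹ : 𝒪ˣ) : 𝒪) - 1
          = (((ψ g)⁻¹ : 𝒪ˣ) : 𝒪) * ((((d g : 𝒪ˣ) : 𝒪) - 1) - (((ψ g : 𝒪ˣ) : 𝒪) - 1)) := by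
        have : (((ψ g)⁻¹ : 𝒪ˣ) : 𝒪) * ((ψ g : 𝒪ˣ) : 𝒪) = 1 := Units.inv_mul _
        linear_combination this
      rw [this, ht, ht₁]; ring
    refine ⟨![t₁ * x 0, ((((ψ g)⁻¹ : 𝒪ˣ) : 𝒪) * (t - t₁)) * x 1], ?_⟩
    rw [diagRep_apply]
    ext i
    fin_cases i
    · change ((ψ g : 𝒪ˣ) : 𝒪) * x 0 - x 0 = s * (t₁ * x 0)
      linear_combination (x 0) * ht₁
    · change (((d * ψ⁻¹) g : 𝒪ˣ) : 𝒪) * x 1 - x 1
        = s * (((((ψ g)⁻¹ : 𝒪ˣ) : 𝒪) * (t - t₁)) * x 1)
      linear_combination (x 1) * h4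

omit [IsDomain 𝒪] [IsPrincipalIdealRing 𝒪] [Module.Finite 𝒪 L] [Module.IsTorsionFree 𝒪 L] in
/-- the quadratic relation `r g * r g - a g • r g + d g • 1 = 0` -/
theorem quadratic_of_rel
    (rel : ∀ g, r g + ((d g : 𝒪ˣ) : 𝒪) • r g⁻¹ = a g • (1 : Module.End 𝒪 L)) (g : G) :
    r g * r g - a g • r g + ((d g : 𝒪ˣ) : 𝒪) • (1 : Module.End 𝒪 L) = 0 := by
  have e : (r g + ((d g : 𝒪ˣ) : 𝒪) • r g⁻¹) * r g = (a g • (1 : Module.End 𝒪 L)) * r g := by
    rw [rel g]
  rw [add_mul, smul_mul_assoc, smul_mul_assoc, one_mul, ← map_mul r g⁻¹ g, inv_mul_cancel,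
    map_one] at e
  rw [← e]; abel

theorem conclusion_of_plane (h2 : (2 : 𝒪) ≠ 0)
    (rel : ∀ g, r g + ((d g : 𝒪ˣ) : 𝒪) • r g⁻¹ = a g • (1 : Module.End 𝒪 L))
    (hc : c * c = 1) (hdc : d c = -1)
    {w w' : L} {σ : 𝒪} (hσ : σ * σ = 1) (hw0 : w ≠ 0) (hw'0 : w' ≠ 0)
    (hw : r c w = σ • w) (hw' : r c w' = (-σ) • w')
    (hstab : ∀ g, ∀ v ∈ sat (Submodule.span 𝒪 {w, w'}), r g v ∈ sat (Submodule.span 𝒪 {w, w'})) :
    Conclusion r d a := by
  classical
  set W := sat (Submodule.span 𝒪 {w, w'}) with hW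
  have hσ0 : σ ≠ 0 := by
    rintro rfl
    rw [mul_zero] at hσ
    exact zero_ne_one hσ
  have hrcc : ∀ v, r c (r c v) = v := by
    intro v
    rw [← Module.End.mul_apply, ← map_mul, hc, map_one, Module.End.one_apply]
  -- linear independence
  have hli : LinearIndependent 𝒪 ![w, w'] := by
    rw [LinearIndependent.pair_iff]
    intro α β h
    have h' := congrArg (fun z => σ • r c z) h
    simp only [map_add, map_smul, hw, hw', smul_zero, smul_smul, smul_add, map_zero] at h'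
    have e1 : σ * (α * σ) = α := by linear_combination α * hσ
    have e2 : σ * (β * -σ) = -β := by linear_combination (-β) * hσ
    rw [e1, e2, neg_smul] at h'
    -- h : α w + β w' = 0, h' : α w - β w' = 0
    have hα : (2 * α) • w = 0 := by
      have : (2 * α) • w = (α • w + β • w') + (α • w + -(β • w')) := by
        rw [mul_smul, two_smul]; abel
      rw [this, h, h', add_zero]
    have hβ : (2 * β) • w' = 0 := by
      have : (2 * β) • w' = (α • w + β • w') - (α • w + -(β • w')) := by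
        rw [mul_smul, two_smul]; abel
      rw [this, h, h', sub_zero]
    constructor
    · have := (smul_eq_zero.mp hα).resolve_right hw0
      exact (mul_eq_zero.mp this).resolve_left h2
    · have := (smul_eq_zero.mp hβ).resolve_right hw'0
      exact (mul_eq_zero.mp this).resolve_left h2
  have hfr : Module.finrank 𝒪 W = 2 := by
    rw [hW, finrank_sat]
    have := finrank_span_eq_card hli
    rw [Matrix.range_cons_cons_empty] at this
    rw [this, Fintype.card_fin]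
  have : Module.Free 𝒪 W := Module.free_of_finite_type_torsion_free'
  have hwW : w ∈ W := le_sat _ (Submodule.subset_span (Set.mem_insert _ _))
  have hw'W : w' ∈ W :=
    le_sat _ (Submodule.subset_span (Set.mem_insert_of_mem _ (Set.mem_singleton _)))
  let ρ := restrictRep r W hstab
  have hρ : ∀ g (v : W), ((ρ g v : W) : L) = r g (v : L) := fun g v => rfl
  -- the quadratic relation on `W`
  have hquad : ∀ g, ρ g * ρ g - a g • ρ g + ((d g : 𝒪ˣ) : 𝒪) • (1 : Module.End 𝒪 W) = 0 := by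
    intro g
    ext v
    have e := congrArg (fun φ : Module.End 𝒪 L => φ (v : L)) (quadratic_of_rel rel g)
    simp only [LinearMap.add_apply, LinearMap.sub_apply, LinearMap.smul_apply,
      Module.End.mul_apply, Module.End.one_apply, LinearMap.zero_apply] at e
    simp only [LinearMap.add_apply, LinearMap.sub_apply, LinearMap.smul_apply,
      Module.End.mul_apply, Module.End.one_apply, LinearMap.zero_apply, Submodule.coe_add,
      Submodule.coe_sub, Submodule.coe_smul, hρ, ZeroMemClass.coe_zero]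
    exact e
  refine ⟨⟨W, hfr, ρ⟩, fun g => ?_, fun g s h1 _ v => ?_⟩
  · change (ρ g).charpoly = _
    have hne : Nontrivial W := ⟨⟨⟨w, hwW⟩, 0, fun h => hw0 (congrArg Subtype.val h)⟩⟩
    refine TwoDim.charpoly_of_quadratic hfr (ρ g) (ρ c) ?_ ?_ ?_ (a g) (a (g * c))
      ((d g : 𝒪ˣ) : 𝒪) (hquad g) ?_
    · intro h0
      have : (1 : Module.End 𝒪 W) = 0 := by
        rw [← map_one ρ, ← mul_inv_cancel g, map_mul, h0, zero_mul]
      exact one_ne_zero this
    · rw [← map_mul, hc, map_one]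
    · intro s t hst
      have e1 := congrArg (fun φ : Module.End 𝒪 W => ((φ ⟨w, hwW⟩ : W) : L)) hst
      have e2 := congrArg (fun φ : Module.End 𝒪 W => ((φ ⟨w', hw'W⟩ : W) : L)) hst
      simp only [LinearMap.smul_apply, Module.End.one_apply, Submodule.coe_smul, hρ, hw, hw',
        smul_smul] at e1 e2
      have f1 : s * σ = t := smul_left_injective 𝒪 hw0 e1
      have f2 : s * -σ = t := smul_left_injective 𝒪 hw'0 e2
      have f3 : (2 * σ) * s = 0 := by linear_combination f1 - f2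
      exact (mul_eq_zero.mp f3).resolve_left (mul_ne_zero h2 hσ0)
    · have e := hquad (g * c)
      have hdgc : ((d (g * c) : 𝒪ˣ) : 𝒪) = -((d g : 𝒪ˣ) : 𝒪) := by
        rw [map_mul, hdc]; simp
      rw [hdgc, map_mul ρ] at e
      rw [← e]
      module
  · -- transfer
    change ∃ v' : W, ρ g v - v = s • v'
    by_cases hs : s = 0
    · refine ⟨0, ?_⟩
      obtain ⟨v', hv'⟩ := h1 (v : L)
      rw [hs, zero_smul] at hv'
      rw [smul_zero]
      apply Subtype.ext
      rw [Submodule.coe_sub, hρ, hv']; rfl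
    · obtain ⟨v', hv'⟩ := h1 (v : L)
      have hv'W : v' ∈ W := by
        apply sat_saturated hs
        rw [← hv']
        exact W.sub_mem (hstab g _ v.2) v.2
      refine ⟨⟨v', hv'W⟩, ?_⟩
      apply Subtype.ext
      rw [Submodule.coe_sub, hρ, hv']; rfl

/-- **Extraction theorem.** -/
theorem exists_rankTwoRep [Nontrivial L] (h2 : (2 : 𝒪) ≠ 0)
    (rel : ∀ g, r g + ((d g : 𝒪ˣ) : 𝒪) • r g⁻¹ = a g • (1 : Module.End 𝒪 L))
    (hc : c * c = 1) (hdc : d c = -1) :
    Conclusion r d a := by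
  obtain ⟨X, hstab, hX⟩ := exists_stable h2 rel hc hdc
  rcases hX with ⟨u, hu, rfl⟩ | ⟨w, w', σ, hσ, hw0, hw'0, hw, hw', rfl⟩
  · exact conclusion_of_line rel hu hstab
  · exact conclusion_of_plane h2 rel hc hdc hσ hw0 hw'0 hw hw' hstab

end Cases
end Fermat.Agent.GJ.Tate.Extract
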