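/-
GATE-J / J4-TATE (helper17): **S30 from a Tate datum** (`exists_galoisRepAdic`).

Input : `D : TateDatum p N S 𝒪 α` (IFACE:TATE, `GJ/Tate/Datum.lean`) and `cy : CycDatum p 𝒪`.
Output: `ρ : GaloisRepAdic 𝒪` with `charpoly ρ(Frob_ℓ) = X² - α ℓ X + ℓ` for `ℓ ∤ N`, `ℓ ∉ S`, and
unramified at every `q ∤ N p`.

Steps: (S1) `Density.exists_hecke_eq` : `gal g + d g gal g⁻¹ ∈ B` for every `g`;
(S2) the eigen-quotient `L = Y / sat((ker χB) Y)` is finitely generated, torsion-free and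
NONTRIVIAL (determinant trick + faithfulness), and `r g + d g r g⁻¹ = χB(b_g)` on it;
(S3) `Extract.exists_rankTwoRep` (complex conjugation idempotents) gives the rank two lattice.
No field extension of `𝒪`, no compactness, no pseudo-representations.
-/
import Mathlib
import Fermat.Agent.GJ.Tate.Extract
import Fermat.Agent.GJ.Tate.Density
set_option autoImplicit false
namespace Fermat.Agent.GJ.Tate.S30Consumer
open Polynomial

/-! ### Lemma N: the eigen-quotient of a faithful module is not torsion -/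
section LemmaN
variable {𝒪 : Type*} [CommRing 𝒪] [IsDomain 𝒪] {B : Type*} [CommRing B] [Algebra 𝒪 B]
variable {Y : Type*} [AddCommGroup Y] [Module 𝒪 Y] [Module B Y] [IsScalarTower 𝒪 B Y]
variable [Module.Finite 𝒪 Y]

theorem eq_zero_of_smul_mem_ker_smul (hfaith : ∀ b : B, (∀ y : Y, b • y = 0) → b = 0)
    (χB : B →ₐ[𝒪] 𝒪) (s : 𝒪)
    (hs : ∀ y : Y, s • y ∈ (RingHom.ker (χB : B →+* 𝒪)) • (⊤ : Submodule B Y)) : s = 0 := by
  classical
  have : Module.Finite B Y := Module.Finite.of_restrictScalars_finite 𝒪 B Y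
  set I : Ideal B := RingHom.ker (χB : B →+* 𝒪) with hI
  set c : B := algebraMap 𝒪 B s with hc
  have hrange : LinearMap.range (algebraMap B (Module.End B Y) c) ≤ I • (⊤ : Submodule B Y) := by
    rintro _ ⟨y, rfl⟩
    rw [Module.algebraMap_end_apply, hc, algebraMap_smul]
    exact hs y
  obtain ⟨P, hmonic, -, hcoeff, hP⟩ :=
    LinearMap.exists_monic_and_natDegree_eq_and_coeff_mem_pow_and_aeval_eq_zero B
      (algebraMap B (Module.End B Y) c) I hrange
  rw [aeval_algebraMap_apply, coe_aeval_eq_eval] at hP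
  have hev : P.eval c = 0 := by
    apply hfaith
    intro y
    have := LinearMap.congr_fun hP y
    rwa [Module.algebraMap_end_apply] at this
  have h2 : χB (P.eval c) = s ^ P.natDegree := by
    rw [eval_eq_sum_range, map_sum]
    rw [Finset.sum_eq_single P.natDegree]
    · rw [map_mul, map_pow, hmonic.coeff_natDegree, map_one, one_mul, hc, AlgHom.commutes]
      rfl
    · intro k hk hkne
      have hklt : k < P.natDegree := by
        have := Finset.mem_range.mp hk
        omega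
      have hmem : P.coeff k ∈ I := by
        have h1 := hcoeff k
        have h3 : I ^ (P.natDegree - k) ≤ I := Ideal.pow_le_self (by omega)
        exact h3 h1
      rw [map_mul]
      have : χB (P.coeff k) = 0 := hmem
      rw [this, zero_mul]
    · intro h
      exact absurd (Finset.mem_range.mpr (Nat.lt_succ_self _)) h
  rw [hev, map_zero] at h2
  exact eq_zero_of_pow_eq_zero h2.symm

end LemmaN

/-! ### (S2) the eigen-quotient `L` -/
section S2
open Fermat.Agent.GJ.Tate.Extract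
variable {p N : ℕ} {S : Finset ℕ} {𝒪 : Type} [CommRing 𝒪] [IsDomain 𝒪]
variable {α : ℕ → 𝒪} (D : TateDatum p N S 𝒪 α)

/-- `(ker χB) • Y` as an `𝒪`-submodule -/
def eigenSub : Submodule 𝒪 D.Y :=
  ((RingHom.ker (D.χB : D.B →+* 𝒪)) • (⊤ : Submodule D.B D.Y)).restrictScalars 𝒪

omit [IsDomain 𝒪] in
theorem mem_eigenSub {y : D.Y} :
    y ∈ eigenSub D ↔ y ∈ (RingHom.ker (D.χB : D.B →+* 𝒪)) • (⊤ : Submodule D.B D.Y) := Iff.rfl

/-- the saturation of `(ker χB) • Y` -/
def eigenSat : Submodule 𝒪 D.Y := sat (eigenSub D)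

/-- the eigen-quotient, torsion-free -/
abbrev EigenQuot : Type := D.Y ⧸ eigenSat D

instance : Module.IsTorsionFree 𝒪 (EigenQuot D) := by
  apply Module.IsTorsionFree.of_smul_eq_zero
  intro s x hsx
  induction x using Submodule.Quotient.induction_on with
  | H y =>
    by_cases hs : s = 0
    · exact Or.inl hs
    · right
      rw [← Submodule.Quotient.mk_smul, Submodule.Quotient.mk_eq_zero] at hsx
      rw [Submodule.Quotient.mk_eq_zero]
      exact sat_saturated hs hsx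

omit [IsDomain 𝒪] in
theorem gal_mem_eigenSub (g : AlgebraicClosure ℚ ≃ₐ[ℚ] AlgebraicClosure ℚ) {y : D.Y}
    (hy : y ∈ eigenSub D) : D.gal g y ∈ eigenSub D := by
  rw [mem_eigenSub] at hy ⊢
  refine Submodule.smul_induction_on hy (fun i hi y _ => ?_) (fun x y hx hy => ?_)
  · rw [D.gal_comm]
    exact Submodule.smul_mem_smul hi Submodule.mem_top
  · rw [map_add]
    exact Submodule.add_mem _ hx hy

theorem eigenSat_le_comap (g : AlgebraicClosure ℚ ≃ₐ[ℚ] AlgebraicClosure ℚ) :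
    eigenSat D ≤ (eigenSat D).comap (D.gal g) := by
  intro y hy
  rw [Submodule.mem_comap]
  exact map_mem_sat (D.gal g) (fun x hx => le_sat _ (gal_mem_eigenSub D g hx)) hy

/-- the Galois action on the eigen-quotient -/
noncomputable def eigenRep :
    (AlgebraicClosure ℚ ≃ₐ[ℚ] AlgebraicClosure ℚ) →* Module.End 𝒪 (EigenQuot D) where
  toFun g := (eigenSat D).mapQ (eigenSat D) (D.gal g) (eigenSat_le_comap D g)
  map_one' := by
    apply Submodule.linearMap_qext
    ext y
    simp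
  map_mul' g h := by
    apply Submodule.linearMap_qext
    ext y
    simp [Module.End.mul_apply]

theorem eigenRep_mk (g : AlgebraicClosure ℚ ≃ₐ[ℚ] AlgebraicClosure ℚ) (y : D.Y) :
    eigenRep D g (Submodule.Quotient.mk y) = Submodule.Quotient.mk (D.gal g y) := rfl

/-- elements of `B` act on the eigen-quotient through `χB` -/
theorem mk_smul_eq (b : D.B) (y : D.Y) :
    (Submodule.Quotient.mk (b • y) : EigenQuot D) = D.χB b • Submodule.Quotient.mk y := by
  rw [← Submodule.Quotient.mk_smul, Submodule.Quotient.eq]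
  apply le_sat
  rw [mem_eigenSub]
  have : b • y - D.χB b • y = (b - algebraMap 𝒪 D.B (D.χB b)) • y := by
    rw [sub_smul, algebraMap_smul]
  rw [this]
  refine Submodule.smul_mem_smul ?_ Submodule.mem_top
  rw [RingHom.mem_ker]
  change D.χB (b - algebraMap 𝒪 D.B (D.χB b)) = 0
  rw [map_sub, AlgHom.commutes, Algebra.algebraMap_self_apply, sub_self]

theorem nontrivial_eigenQuot : Nontrivial (EigenQuot D) := by
  classical
  by_contra hnt
  rw [not_nontrivial_iff_subsingleton] at hnt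
  have hall : ∀ y : D.Y, ∃ s : 𝒪, s ≠ 0 ∧ s • y ∈ eigenSub D := by
    intro y
    have : (Submodule.Quotient.mk y : EigenQuot D) = 0 := Subsingleton.elim _ _
    rw [Submodule.Quotient.mk_eq_zero] at this
    exact this
  choose f hf0 hf using hall
  obtain ⟨T, hT⟩ := (Module.Finite.fg_top : (⊤ : Submodule 𝒪 D.Y).FG)
  set s : 𝒪 := ∏ y ∈ T, f y with hs
  have hs0 : s ≠ 0 := Finset.prod_ne_zero_iff.mpr (fun y _ => hf0 y)
  have hsY : ∀ y : D.Y, s • y ∈ eigenSub D := by
    intro y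
    have hy : y ∈ Submodule.span 𝒪 (T : Set D.Y) := by rw [hT]; exact Submodule.mem_top
    refine Submodule.span_induction ?_ ?_ ?_ ?_ hy
    · intro z hz
      have hz' : z ∈ T := hz
      rw [hs, ← Finset.mul_prod_erase T f hz', mul_comm, mul_smul]
      exact Submodule.smul_mem _ _ (hf z)
    · rw [smul_zero]; exact Submodule.zero_mem _
    · intro x z _ _ hx hz
      rw [smul_add]; exact Submodule.add_mem _ hx hz
    · intro a x _ hx
      rw [smul_comm]; exact Submodule.smul_mem _ _ hx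
  exact hs0 (eq_zero_of_smul_mem_ker_smul D.faithful D.χB s hsY)

end S2

/-! ### (S3) the representation -/
section Final
open Fermat.Agent.GJ.Tate.Extract Fermat.Agent.GJ.Tate.Density
variable {p N : ℕ} {S : Finset ℕ}
variable {𝒪 : Type} [CommRing 𝒪] [IsDomain 𝒪] [IsDiscreteValuationRing 𝒪]
variable {α : ℕ → 𝒪} (D : TateDatum p N S 𝒪 α) (cy : CycDatum p 𝒪)

omit [IsDomain 𝒪] [IsDiscreteValuationRing 𝒪] in
/-- Eichler–Shimura in the form `Frob + ℓ Frob⁻¹ = T_ℓ` -/
theorem frob_add_inv (ℓ : ℕ) (hℓ : ℓ.Prime) (hℓN : ¬ ℓ ∣ N) (hℓS : ℓ ∉ S)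
    (A : ValuationSubring (AlgebraicClosure ℚ)) (hA : A.LiesOverPrime ℓ)
    (σ : AlgebraicClosure ℚ ≃ₐ[ℚ] AlgebraicClosure ℚ) (hσ : A.IsFrobeniusAt σ ℓ) (y : D.Y) :
    D.gal σ y + (ℓ : 𝒪) • D.gal σ⁻¹ y = D.t ℓ • y := by
  have hES := D.ES ℓ hℓ hℓN hℓS A hA σ hσ (D.gal σ⁻¹ y)
  have e : D.gal σ (D.gal σ⁻¹ y) = y := by
    rw [← Module.End.mul_apply, ← map_mul, mul_inv_cancel, map_one, Module.End.one_apply]
  rw [e] at hES
  exact eq_of_sub_eq_zero (by rw [← hES]; abel)

include D cy in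
/-- **S30 from a Tate datum.** -/
theorem exists_galoisRepAdic [CharZero 𝒪]
    (hp : (p : 𝒪) ∈ IsLocalRing.maximalIdeal 𝒪) (hpS : p ∈ S)
    (hNS : ∀ q : ℕ, q.Prime → q ∣ N → q ∈ S) :
    ∃ ρ : GaloisRepAdic 𝒪,
      (∀ ℓ : ℕ, ℓ.Prime → ¬ ℓ ∣ N → ℓ ∉ S →
        ∀ A : ValuationSubring (AlgebraicClosure ℚ), A.LiesOverPrime ℓ →
          ∀ σ : AlgebraicClosure ℚ ≃ₐ[ℚ] AlgebraicClosure ℚ, A.IsFrobeniusAt σ ℓ →
            LinearMap.charpoly (ρ.ρ σ) = X ^ 2 - C (α ℓ) * X + C ((ℓ : 𝒪))) ∧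
      (∀ q : ℕ, q.Prime → ¬ q ∣ N → q ≠ p → ρ.IsUnramifiedAt q) := by
  classical
  choose b hb using exists_hecke_eq D cy hp hpS hNS
  have hnt : Nontrivial (EigenQuot D) := nontrivial_eigenQuot D
  have h2 : (2 : 𝒪) ≠ 0 := two_ne_zero
  have rel : ∀ g, eigenRep D g + ((cy.d g : 𝒪ˣ) : 𝒪) • eigenRep D g⁻¹
      = D.χB (b g) • (1 : Module.End 𝒪 (EigenQuot D)) := by
    intro g
    apply Submodule.linearMap_qext
    ext y
    simp only [LinearMap.comp_apply, Submodule.mkQ_apply, LinearMap.add_apply,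
      LinearMap.smul_apply, Module.End.one_apply, eigenRep_mk]
    rw [← mk_smul_eq, ← hb g y, Submodule.Quotient.mk_add, Submodule.Quotient.mk_smul]
  obtain ⟨R, hchar, htr⟩ := exists_rankTwoRep (r := eigenRep D) (d := cy.d)
    (a := fun g => D.χB (b g)) (c := complexConjugation) h2 rel complexConjugation_mul_self
    cy.d_conj
  have hcont : GaloisActionIsAdicContinuous 𝒪 R.ρ := by
    intro n
    obtain ⟨K₁, hK₁, h₁⟩ := D.gal_cont n
    obtain ⟨K₂, hK₂, h₂⟩ := cy.d_cont n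
    refine ⟨K₁ ⊔ K₂, IntermediateField.finiteDimensional_sup K₁ K₂, fun σ hσ v => ?_⟩
    have hσ₁ : ∀ x ∈ K₁, σ x = x := fun x hx => hσ x ((le_sup_left : K₁ ≤ K₁ ⊔ K₂) hx)
    have hσ₂ : ∀ x ∈ K₂, σ x = x := fun x hx => hσ x ((le_sup_right : K₂ ≤ K₁ ⊔ K₂) hx)
    obtain ⟨v', hv'⟩ := htr σ ((p : 𝒪) ^ n) (by
      intro x
      induction x using Submodule.Quotient.induction_on with
      | H y =>
        obtain ⟨y', hy'⟩ := h₁ σ hσ₁ y
        refine ⟨Submodule.Quotient.mk y', ?_⟩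
        rw [eigenRep_mk, ← Submodule.Quotient.mk_sub, hy', Submodule.Quotient.mk_smul]) (by
      have := h₂ σ hσ₂
      rw [Ideal.mem_span_singleton'] at this
      obtain ⟨t, ht⟩ := this
      exact ⟨t, by rw [← ht, mul_comm]⟩) v
    rw [hv']
    exact Submodule.smul_mem_smul (Ideal.pow_mem_pow hp n) Submodule.mem_top
  refine ⟨{ V := R.V, finrank_eq := R.finrank_eq, ρ := R.ρ, isAdicContinuous := hcont }, ?_, ?_⟩
  · intro ℓ hℓ hℓN hℓS A hA σ hσ
    change LinearMap.charpoly (R.ρ σ) = _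
    have hℓp : ℓ ≠ p := fun h => hℓS (h ▸ hpS)
    have hdσ : ((cy.d σ : 𝒪ˣ) : 𝒪) = (ℓ : 𝒪) := cy.d_frob ℓ hℓ hℓp A hA σ hσ
    have hbσ : b σ = D.t ℓ := by
      have : b σ - D.t ℓ = 0 := by
        apply D.faithful
        intro y
        rw [sub_smul, ← hb σ y, hdσ, frob_add_inv D ℓ hℓ hℓN hℓS A hA σ hσ y, sub_self]
      exact sub_eq_zero.mp this
    rw [hchar σ, hdσ]
    change X ^ 2 - C (D.χB (b σ)) * X + C (ℓ : 𝒪) = _
    rw [hbσ, D.χB_t ℓ hℓ hℓN hℓS]
  · intro q hq hqN hqp P hP σ hσ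
    change R.ρ σ = 1
    have hgal : D.gal σ = 1 := D.gal_unram q hq hqN hqp P hP σ hσ
    have hd : cy.d σ = 1 := cy.d_inertia q hq hqp P hP σ hσ
    ext v
    obtain ⟨v', hv'⟩ := htr σ 0 (by
      intro x
      induction x using Submodule.Quotient.induction_on with
      | H y =>
        refine ⟨0, ?_⟩
        rw [eigenRep_mk, hgal, Module.End.one_apply, sub_self, smul_zero]) (by
      exact ⟨0, by rw [hd, Units.val_one, sub_self, mul_zero]⟩) v
    rw [zero_smul] at hv'
    rw [Module.End.one_apply]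
    exact sub_eq_zero.mp hv'

end Final
end Fermat.Agent.GJ.Tate.S30Consumer
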