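/-
GATE-J / J4-TATE (helper17): the frozen statement S30 from a `TateDatum`.

`s30_of_tateDatum` has EXACTLY the conclusion of the frozen S30 (with `𝒪'' := 𝒪'`), given a
`TateDatum p N S 𝒪' (alphaOf χ)`; the cyclotomic datum is instantiated by helper8's `adicCyc`.
So `Fermat/Agent/S30.lean` becomes: construct the Tate datum, then apply this theorem.
-/
import Mathlib
import Fermat.Prelude.Def_CuspForm_HeckeGaloisRepDatum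
import Fermat.Agent.GJ.Tate.S30Consumer
import Fermat.Agent.GJ.Cyc.TateCyc

set_option autoImplicit false

namespace Fermat.Agent.GJ.Tate.S30Asm

open Polynomial CuspForm

/-- the cyclotomic datum given by the `p`-adic cyclotomic character `adicCyc` -/
noncomputable def cycDatum (p : ℕ) [Fact p.Prime] (𝒪 : Type) [CommRing 𝒪] [IsLocalRing 𝒪]
    [IsAdicComplete (IsLocalRing.maximalIdeal 𝒪) 𝒪]
    (hp : (p : 𝒪) ∈ IsLocalRing.maximalIdeal 𝒪) : CycDatum p 𝒪 where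
  d := Fermat.Agent.GJ.Cyc.adicCyc p 𝒪 hp
  d_frob ℓ hℓ hℓp A hA σ hσ := Fermat.Agent.GJ.Cyc.adicCyc_frob p 𝒪 hp A ℓ hℓ hA hℓp σ hσ
  d_inertia q hq hqp P hP σ hσ :=
    Fermat.Agent.GJ.Cyc.adicCyc_inertia p 𝒪 hp P q hq hP hqp σ hσ
  d_conj := Fermat.Agent.GJ.Cyc.adicCyc_complexConjugation p 𝒪 hp
  d_cont n := Fermat.Agent.GJ.Cyc.adicCyc_continuous_span p 𝒪 hp n

/-- the system of Hecke eigenvalues of `χ` (junk value `0` at bad primes) -/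
noncomputable def alphaOf {N : ℕ} [NeZero N] {S : Finset ℕ} {𝒪 : Type} [CommRing 𝒪]
    (χ : CuspForm.heckeAlgebra N 2 (↑S : Set ℕ) →+* 𝒪) (ℓ : ℕ) : 𝒪 :=
  open Classical in
  if h : ℓ.Prime ∧ ¬ ℓ ∣ N ∧ ℓ ∉ (↑S : Set ℕ) then χ (CuspForm.heckeAlgebra.T h.1 h.2.1 h.2.2)
  else 0

theorem alphaOf_eq {N : ℕ} [NeZero N] {S : Finset ℕ} {𝒪 : Type} [CommRing 𝒪]
    (χ : CuspForm.heckeAlgebra N 2 (↑S : Set ℕ) →+* 𝒪) {ℓ : ℕ} (hℓ : ℓ.Prime) (hℓN : ¬ ℓ ∣ N)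
    (hℓS : ℓ ∉ (↑S : Set ℕ)) : alphaOf χ ℓ = χ (CuspForm.heckeAlgebra.T hℓ hℓN hℓS) := by
  unfold alphaOf
  rw [dif_pos ⟨hℓ, hℓN, hℓS⟩]

/-- **S30 from a Tate datum**, in the frozen shape. -/
theorem s30_of_tateDatum (p : ℕ) [Fact p.Prime] (N : ℕ) [NeZero N] (S : Finset ℕ)
    (hpS : p ∈ S) (hNS : ∀ q : ℕ, q.Prime → q ∣ N → q ∈ S)
    (𝒪' : Type) [CommRing 𝒪'] [IsDomain 𝒪'] [IsDiscreteValuationRing 𝒪']
    [IsAdicComplete (IsLocalRing.maximalIdeal 𝒪') 𝒪'] [Finite (IsLocalRing.ResidueField 𝒪')]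
    [CharZero 𝒪'] (hp𝒪' : (p : 𝒪') ∈ IsLocalRing.maximalIdeal 𝒪')
    (χ : CuspForm.heckeAlgebra N 2 (↑S : Set ℕ) →+* 𝒪')
    (D : TateDatum p N S 𝒪' (alphaOf χ)) :
    ∃ (𝒪'' : Type) (_ : CommRing 𝒪'') (_ : IsDomain 𝒪'') (_ : IsDiscreteValuationRing 𝒪'')
      (_ : IsAdicComplete (IsLocalRing.maximalIdeal 𝒪'') 𝒪'')
      (_ : Finite (IsLocalRing.ResidueField 𝒪'')) (_ : CharZero 𝒪'')
      (_ : Algebra 𝒪' 𝒪'') (_ : Module.Finite 𝒪' 𝒪'') (_ : IsLocalHom (algebraMap 𝒪' 𝒪'')),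
    Function.Injective (algebraMap 𝒪' 𝒪'') ∧
    ∃ ρ : GaloisRepAdic 𝒪'',
      (∀ (ℓ : ℕ) (hℓ : ℓ.Prime) (hℓN : ¬ ℓ ∣ N) (hℓS : ℓ ∉ (↑S : Set ℕ)),
        ∀ A : ValuationSubring (AlgebraicClosure ℚ), A.LiesOverPrime ℓ →
          ∀ σ : AlgebraicClosure ℚ ≃ₐ[ℚ] AlgebraicClosure ℚ, A.IsFrobeniusAt σ ℓ →
            LinearMap.charpoly (ρ.ρ σ) =
              X ^ 2 - C (algebraMap 𝒪' 𝒪'' (χ (CuspForm.heckeAlgebra.T hℓ hℓN hℓS))) * X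
                + C ((ℓ : 𝒪''))) ∧
      (∀ q : ℕ, q.Prime → ¬ q ∣ N → q ≠ p → ρ.IsUnramifiedAt q) := by
  obtain ⟨ρ, hρ₁, hρ₂⟩ := S30Consumer.exists_galoisRepAdic D (cycDatum p 𝒪' hp𝒪') hp𝒪' hpS hNS
  refine ⟨𝒪', inferInstance, inferInstance, inferInstance, inferInstance, inferInstance,
    inferInstance, Algebra.id 𝒪', Module.Finite.self 𝒪', ?_, ?_, ρ, ?_, hρ₂⟩
  · exact ⟨fun a ha => ha⟩
  · exact Function.injective_id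
  · intro ℓ hℓ hℓN hℓS A hA σ hσ
    have hℓS' : ℓ ∉ S := fun h => hℓS (Finset.mem_coe.mpr h)
    rw [hρ₁ ℓ hℓ hℓN hℓS' A hA σ hσ, alphaOf_eq χ hℓ hℓN hℓS]
    rfl

end Fermat.Agent.GJ.Tate.S30Asm
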