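/-
GATE-J / J4-TATE (helper17): **the builder** `OfTower.ofTower` : a compatible tower of Galois actions
on `Λ / pⁿ Λ` (helper23's `Lim.Tower`), with a faithful Hecke action on `Λ` and the levelwise
hypotheses `TowerHyp` (Hecke commutes with Galois, finite level, unramified outside `N p`,
Eichler–Shimura), gives a `TateDatum` (IFACE:TATE) with `B = 𝒪 ⊗ 𝕋`, `Y = 𝒪 ⊗ Λ`, `gal = Tower.lim`.
`s30_of_tower` : hence the frozen S30.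
-/
import Mathlib
import Fermat.Prelude.Def_CuspForm_HeckeGaloisRepDatum
import Fermat.Agent.GJ.Tate.Datum
import Fermat.Agent.GJ.Tate.LimAction
import Fermat.Agent.GJ.Tate.Faithful
import Fermat.Agent.GJ.Tate.AdicDVR
import Fermat.Agent.GJ.Tate.S30Asm
set_option autoImplicit false
noncomputable section
namespace Fermat.Agent.GJ.Tate.OfTower
open TensorProduct CuspForm Fermat.Agent.GJ.Tate.Lim

variable {p N : ℕ} [NeZero N] {S : Finset ℕ}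
variable (𝒪 : Type) [CommRing 𝒪]
variable {Λ : Type} [AddCommGroup Λ]

/-- the Hecke action as a `ℤ`-algebra homomorphism -/
def actAlg (act : heckeAlgebra N 2 (↑S : Set ℕ) →+* Module.End ℤ Λ) :
    heckeAlgebra N 2 (↑S : Set ℕ) →ₐ[ℤ] Module.End ℤ Λ := act.toIntAlgHom

/-- the action of `𝒪 ⊗ 𝕋` on `𝒪 ⊗ Λ` -/
def heckeMap (act : heckeAlgebra N 2 (↑S : Set ℕ) →+* Module.End ℤ Λ) :
    𝒪 ⊗[ℤ] heckeAlgebra N 2 (↑S : Set ℕ) →ₐ[𝒪] Module.End 𝒪 (𝒪 ⊗[ℤ] Λ) :=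
  tensorEndAlg 𝒪 (actAlg act)

/-- the eigencharacter on `𝒪 ⊗ 𝕋` -/
def chiB (χ : heckeAlgebra N 2 (↑S : Set ℕ) →+* 𝒪) :
    𝒪 ⊗[ℤ] heckeAlgebra N 2 (↑S : Set ℕ) →ₐ[𝒪] 𝒪 :=
  Algebra.TensorProduct.lift (AlgHom.id 𝒪 𝒪) χ.toIntAlgHom (fun _ _ => Commute.all _ _)

theorem chiB_tmul (χ : heckeAlgebra N 2 (↑S : Set ℕ) →+* 𝒪) (r : 𝒪)
    (t : heckeAlgebra N 2 (↑S : Set ℕ)) : chiB 𝒪 χ (r ⊗ₜ t) = r * χ t := by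
  unfold chiB
  rw [Algebra.TensorProduct.lift_tmul]
  rfl


/-! ### the hypotheses on the tower -/
section Hyp
variable {𝒪}
variable (p N S)

/-- what the concrete tower (Kummer groups of level `p ^ n`, J1–J3) has to satisfy -/
structure TowerHyp (act : heckeAlgebra N 2 (↑S : Set ℕ) →+* Module.End ℤ Λ)
    (𝒯 : Tower.{0, 0, 0} p Λ (AlgebraicClosure ℚ ≃ₐ[ℚ] AlgebraicClosure ℚ)) : Prop where
  comm : ∀ (t : heckeAlgebra N 2 (↑S : Set ℕ)) (g : AlgebraicClosure ℚ ≃ₐ[ℚ] AlgebraicClosure ℚ)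
    (n : ℕ) (x y : Λ), 𝒯.ρ n g (𝒯.π n x) = 𝒯.π n y → 𝒯.ρ n g (𝒯.π n (act t x)) = 𝒯.π n (act t y)
  level : ∀ n, GaloisFactorsThroughFiniteLevel (𝒯.ρ n)
  unram : ∀ (n : ℕ) (q : ℕ), q.Prime → ¬ q ∣ N → q ≠ p →
    ∀ P : ValuationSubring (AlgebraicClosure ℚ), P.LiesOverPrime q →
      ∀ σ ∈ P.inertiaSubgroupIn ℚ, 𝒯.ρ n σ = 1
  ES : ∀ (ℓ : ℕ) (hℓ : ℓ.Prime) (hℓN : ¬ ℓ ∣ N) (hℓS : ℓ ∉ (↑S : Set ℕ)),
    ∀ A : ValuationSubring (AlgebraicClosure ℚ), A.LiesOverPrime ℓ →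
      ∀ σ : AlgebraicClosure ℚ ≃ₐ[ℚ] AlgebraicClosure ℚ, A.IsFrobeniusAt σ ℓ →
        ∀ (n : ℕ) (x y z : Λ), 𝒯.ρ n σ (𝒯.π n x) = 𝒯.π n y → 𝒯.ρ n σ (𝒯.π n y) = 𝒯.π n z →
          𝒯.π n z + (ℓ : ℤ) • 𝒯.π n x = 𝒯.π n (act (heckeAlgebra.T hℓ hℓN hℓS) y)

end Hyp

section Lemmas
variable {𝒪}
variable [Module.Free ℤ Λ] [Module.Finite ℤ Λ] [IsAdicComplete (Ideal.span {(p : 𝒪)}) 𝒪]
variable {act : heckeAlgebra N 2 (↑S : Set ℕ) →+* Module.End ℤ Λ}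
  {𝒯 : Tower.{0, 0, 0} p Λ (AlgebraicClosure ℚ ≃ₐ[ℚ] AlgebraicClosure ℚ)}

omit [Module.Free ℤ Λ] [Module.Finite ℤ Λ] in
theorem heckeMap_tmul (r : 𝒪) (t : heckeAlgebra N 2 (↑S : Set ℕ)) :
    heckeMap 𝒪 act (r ⊗ₜ t) = r • bc 𝒪 (act t) := by
  unfold heckeMap
  rw [tensorEndAlg_tmul]
  rfl

theorem lim_heckeMap (h : TowerHyp p N S act 𝒯)
    (g : AlgebraicClosure ℚ ≃ₐ[ℚ] AlgebraicClosure ℚ)
    (b : 𝒪 ⊗[ℤ] heckeAlgebra N 2 (↑S : Set ℕ)) (y : 𝒪 ⊗[ℤ] Λ) :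
    𝒯.lim (R := 𝒪) g (heckeMap 𝒪 act b y) = heckeMap 𝒪 act b (𝒯.lim (R := 𝒪) g y) := by
  induction b using TensorProduct.induction_on with
  | zero => simp
  | tmul r t =>
    rw [heckeMap_tmul, LinearMap.smul_apply, LinearMap.smul_apply, map_smul]
    have := 𝒯.lim_comm (R := 𝒪) (g := g) (act t) (fun n x y hxy => h.comm t g n x y hxy)
    have e := LinearMap.congr_fun this y
    rw [Module.End.mul_apply, Module.End.mul_apply] at e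
    rw [e]
  | add b₁ b₂ h₁ h₂ =>
    rw [map_add, LinearMap.add_apply, LinearMap.add_apply, map_add, h₁, h₂]

theorem lim_cont (h : TowerHyp p N S act 𝒯) (n : ℕ) :
    ∃ K : IntermediateField ℚ (AlgebraicClosure ℚ), FiniteDimensional ℚ K ∧
      ∀ σ : AlgebraicClosure ℚ ≃ₐ[ℚ] AlgebraicClosure ℚ, (∀ x ∈ K, σ x = x) →
        ∀ y : 𝒪 ⊗[ℤ] Λ, ∃ y' : 𝒪 ⊗[ℤ] Λ, 𝒯.lim (R := 𝒪) σ y - y = ((p : 𝒪) ^ n) • y' := by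
  obtain ⟨K, hK, hfix⟩ := h.level n
  refine ⟨K, hK, fun σ hσ y => ?_⟩
  have h1 := 𝒯.lim_sub_one_mem (R := 𝒪) (hfix σ hσ)
  rw [mem_J_iff] at h1
  obtain ⟨B', hB'⟩ := h1
  refine ⟨B' y, ?_⟩
  have := LinearMap.congr_fun hB' y
  rw [LinearMap.sub_apply, Module.End.one_apply, LinearMap.smul_apply] at this
  exact this

theorem lim_ES (h : TowerHyp p N S act 𝒯) (ℓ : ℕ) (hℓ : ℓ.Prime) (hℓN : ¬ ℓ ∣ N)
    (hℓS : ℓ ∉ (↑S : Set ℕ)) (A : ValuationSubring (AlgebraicClosure ℚ)) (hA : A.LiesOverPrime ℓ)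
    (σ : AlgebraicClosure ℚ ≃ₐ[ℚ] AlgebraicClosure ℚ) (hσ : A.IsFrobeniusAt σ ℓ)
    (y : 𝒪 ⊗[ℤ] Λ) :
    𝒯.lim (R := 𝒪) σ (𝒯.lim (R := 𝒪) σ y)
      - heckeMap 𝒪 act (1 ⊗ₜ heckeAlgebra.T hℓ hℓN hℓS) (𝒯.lim (R := 𝒪) σ y) + (ℓ : 𝒪) • y = 0 := by
  have h1 := 𝒯.lim_quadratic (R := 𝒪) (g := σ) (act (heckeAlgebra.T hℓ hℓN hℓS)) (ℓ : ℤ)
    (h.ES ℓ hℓ hℓN hℓS A hA σ hσ)
  have h2 := LinearMap.congr_fun h1 y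
  rw [heckeMap_tmul, one_smul]
  simpa using h2

end Lemmas


/-! ### the builder -/
section Builder
variable {𝒪}
variable [Module.Free ℤ Λ] [Module.Finite ℤ Λ] [IsAdicComplete (Ideal.span {(p : 𝒪)}) 𝒪]
  [Module.Flat ℤ 𝒪]

/-- **TateDatum from a tower.** -/
def ofTower (act : heckeAlgebra N 2 (↑S : Set ℕ) →+* Module.End ℤ Λ)
    (hact : Function.Injective act)
    (𝒯 : Tower.{0, 0, 0} p Λ (AlgebraicClosure ℚ ≃ₐ[ℚ] AlgebraicClosure ℚ))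
    (h : TowerHyp p N S act 𝒯) (χ : heckeAlgebra N 2 (↑S : Set ℕ) →+* 𝒪) (α : ℕ → 𝒪)
    (hα : ∀ (ℓ : ℕ) (hℓ : ℓ.Prime) (hℓN : ¬ ℓ ∣ N) (hℓS : ℓ ∉ (↑S : Set ℕ)),
      α ℓ = χ (heckeAlgebra.T hℓ hℓN hℓS)) :
    TateDatum p N S 𝒪 α where
  B := 𝒪 ⊗[ℤ] heckeAlgebra N 2 (↑S : Set ℕ)
  Y := 𝒪 ⊗[ℤ] Λ
  instModuleB := Module.compHom (𝒪 ⊗[ℤ] Λ) (heckeMap 𝒪 act).toRingHom
  instTower := by
    let _ : Module (𝒪 ⊗[ℤ] heckeAlgebra N 2 (↑S : Set ℕ)) (𝒪 ⊗[ℤ] Λ) :=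
      Module.compHom (𝒪 ⊗[ℤ] Λ) (heckeMap 𝒪 act).toRingHom
    refine ⟨fun r b y => ?_⟩
    change heckeMap 𝒪 act (r • b) y = r • heckeMap 𝒪 act b y
    rw [map_smul, LinearMap.smul_apply]
  faithful := by
    intro b hb
    have : Module.FinitePresentation ℤ Λ := Module.finitePresentation_of_finite ℤ Λ
    apply tensorEndAlg_injective 𝒪 (actAlg act) hact
    rw [map_zero]
    exact LinearMap.ext hb
  χB := chiB 𝒪 χ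
  t ℓ := open Classical in
    if hh : ℓ.Prime ∧ ¬ ℓ ∣ N ∧ ℓ ∉ (↑S : Set ℕ) then
      (1 : 𝒪) ⊗ₜ[ℤ] heckeAlgebra.T hh.1 hh.2.1 hh.2.2 else 0
  χB_t := by
    intro ℓ hℓ hℓN hℓS
    have hℓS' : ℓ ∉ (↑S : Set ℕ) := fun hmem => hℓS (Finset.mem_coe.mp hmem)
    rw [dif_pos ⟨hℓ, hℓN, hℓS'⟩, chiB_tmul, one_mul, hα ℓ hℓ hℓN hℓS']
  gal := 𝒯.lim (R := 𝒪)
  gal_comm := fun g b y => lim_heckeMap h g b y
  gal_cont := lim_cont h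
  gal_unram := fun q hq hqN hqp P hP σ hσ =>
    𝒯.lim_eq_one (R := 𝒪) (fun n => h.unram n q hq hqN hqp P hP σ hσ)
  ES := by
    intro ℓ hℓ hℓN hℓS A hA σ hσ y
    have hℓS' : ℓ ∉ (↑S : Set ℕ) := fun hmem => hℓS (Finset.mem_coe.mp hmem)
    have := lim_ES h ℓ hℓ hℓN hℓS' A hA σ hσ y
    rw [dif_pos ⟨hℓ, hℓN, hℓS'⟩]
    exact this

end Builder


/-! ### S30 from a tower -/
section S30
open Polynomial Fermat.Agent.GJ.Tate.S30Asm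

/-- **S30 from a tower**, in the frozen shape. -/
theorem s30_of_tower (p : ℕ) [Fact p.Prime] (N : ℕ) [NeZero N] (S : Finset ℕ)
    (hpS : p ∈ S) (hNS : ∀ q : ℕ, q.Prime → q ∣ N → q ∈ S)
    (𝒪' : Type) [CommRing 𝒪'] [IsDomain 𝒪'] [IsDiscreteValuationRing 𝒪']
    [IsAdicComplete (IsLocalRing.maximalIdeal 𝒪') 𝒪'] [Finite (IsLocalRing.ResidueField 𝒪')]
    [CharZero 𝒪'] (hp𝒪' : (p : 𝒪') ∈ IsLocalRing.maximalIdeal 𝒪')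
    (χ : CuspForm.heckeAlgebra N 2 (↑S : Set ℕ) →+* 𝒪')
    (Λ : Type) [AddCommGroup Λ] [Module.Free ℤ Λ] [Module.Finite ℤ Λ]
    (act : heckeAlgebra N 2 (↑S : Set ℕ) →+* Module.End ℤ Λ) (hact : Function.Injective act)
    (𝒯 : Tower.{0, 0, 0} p Λ (AlgebraicClosure ℚ ≃ₐ[ℚ] AlgebraicClosure ℚ))
    (h : TowerHyp p N S act 𝒯) :
    ∃ (𝒪'' : Type) (_ : CommRing 𝒪'') (_ : IsDomain 𝒪'') (_ : IsDiscreteValuationRing 𝒪'')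
      (_ : IsAdicComplete (IsLocalRing.maximalIdeal 𝒪'') 𝒪'')
      (_ : Finite (IsLocalRing.ResidueField 𝒪'')) (_ : CharZero 𝒪'')
      (_ : Algebra 𝒪' 𝒪'') (_ : Module.Finite 𝒪' 𝒪'') (_ : IsLocalHom (algebraMap 𝒪' 𝒪'')),
    Function.Injective (algebraMap 𝒪' 𝒪'') ∧
    ∃ ρ : GaloisRepAdic 𝒪'',
      (∀ (ℓ : ℕ) (hℓ : ℓ.Prime) (hℓN : ¬ ℓ ∣ N) (hℓS : ℓ ∉ (↑S : Set ℕ)),
        ∀ A : ValuationSubring (AlgebraicClosure ℚ), A.LiesOverPrime ℓ →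
          ∀ σ : AlgebraicClosure ℚ ≃ₐ[ℚ] AlgebraicClosure ℚ, A.IsFrobeniusAt σ ℓ →
            LinearMap.charpoly (ρ.ρ σ) =
              X ^ 2 - C (algebraMap 𝒪' 𝒪'' (χ (CuspForm.heckeAlgebra.T hℓ hℓN hℓS))) * X
                + C ((ℓ : 𝒪''))) ∧
      (∀ q : ℕ, q.Prime → ¬ q ∣ N → q ≠ p → ρ.IsUnramifiedAt q) := by
  have hp0 : (p : 𝒪') ≠ 0 := Nat.cast_ne_zero.mpr (Fact.out : p.Prime).ne_zero
  have : IsAdicComplete (Ideal.span {(p : 𝒪')}) 𝒪' := isAdicComplete_span_of_dvr hp𝒪' hp0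
  exact s30_of_tateDatum p N S hpS hNS 𝒪' hp𝒪' χ
    (ofTower act hact 𝒯 h χ (alphaOf χ) (fun ℓ hℓ hℓN hℓS => alphaOf_eq χ hℓ hℓN hℓS))

end S30

end Fermat.Agent.GJ.Tate.OfTower
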