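/-
GATE-J / J4-TATE (helper17): S30 from the SAME input as helper53's S31 adapter
(`KumLevelData.ofKumModels`) plus compatibility in `n`.

Input: a lattice `Λ` (finite free over `ℤ`) with a faithful Hecke action `act`, Kummer models
`M n : J4Asm.KumModel N (p ^ n)` (helper42's `kumModelM`), comparison maps `Θ n : Λ →+ (M n).K`
onto with kernel `pⁿ Λ`, Hecke-equivariant (`hΘT`), and Galois-compatible in `n` (`hcompat`,
relational form, no transition maps).  Output: helper23's `Lim.Tower` (`towerOfKumModels`), the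
hypotheses `TowerHyp` (`towerHyp_of_kumModels`), hence the frozen S30 (`s30_of_kumModels`).
Also `comm_of_generators`: `TowerHyp.comm` only needs to be checked on the `T_ℓ`.
-/
import Mathlib
import Fermat.Agent.GJ.Tate.OfTower
import Fermat.Agent.GJ.Tate.LevelsOfKumModel
set_option autoImplicit false
noncomputable section
namespace Fermat.Agent.GJ.Tate.OfTower
open CuspForm Fermat.Agent.GJ.Tate.Lim Fermat.Agent.GJ Fermat.Agent.GJ.FiniteLevel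

variable {p N : ℕ} [NeZero N] {S : Finset ℕ}
variable {Λ : Type} [AddCommGroup Λ]

/-- the tower attached to Kummer models at the moduli `p ^ n` with comparison maps `Θ n` -/
def towerOfKumModels (M : ∀ n : ℕ, J4Asm.KumModel N (p ^ n))
    (Θ : ∀ n, Λ →+ (M n).K) (hsurj : ∀ n, Function.Surjective (Θ n))
    (hker : ∀ n x, Θ n x = 0 → ∃ y, x = (p ^ n) • y)
    (hcompat : ∀ n (g : AlgebraicClosure ℚ ≃ₐ[ℚ] AlgebraicClosure ℚ) (x y : Λ),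
      (M (n + 1)).gal g (Θ (n + 1) x) = Θ (n + 1) y → (M n).gal g (Θ n x) = Θ n y) :
    Tower.{0, 0, 0} p Λ (AlgebraicClosure ℚ ≃ₐ[ℚ] AlgebraicClosure ℚ) where
  Q n := (M n).K
  instQ n := inferInstance
  π := Θ
  π_surj := hsurj
  π_eq_zero n x := by
    constructor
    · exact hker n x
    · rintro ⟨y, rfl⟩
      rw [map_nsmul, ← Nat.cast_smul_eq_nsmul (ZMod (p ^ n)), ZMod.natCast_self, zero_smul]
  ρ n := (endToAddEnd (ZMod (p ^ n)) (M n).K : _ →* _).comp (M n).gal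
  compat n g x y h := hcompat n g x y h

/-- it suffices to check `TowerHyp.comm` on the generators `T_ℓ` -/
theorem comm_of_generators (hNS : ∀ q : ℕ, q.Prime → q ∣ N → q ∈ S)
    (act : heckeAlgebra N 2 (↑S : Set ℕ) →+* Module.End ℤ Λ)
    (𝒯 : Tower.{0, 0, 0} p Λ (AlgebraicClosure ℚ ≃ₐ[ℚ] AlgebraicClosure ℚ))
    (hT : ∀ (ℓ : ℕ) (hℓ : ℓ.Prime) (hℓN : ¬ ℓ ∣ N) (hℓS : ℓ ∉ (↑S : Set ℕ))
      (g : AlgebraicClosure ℚ ≃ₐ[ℚ] AlgebraicClosure ℚ) (n : ℕ) (x y : Λ),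
      𝒯.ρ n g (𝒯.π n x) = 𝒯.π n y →
        𝒯.ρ n g (𝒯.π n (act (heckeAlgebra.T hℓ hℓN hℓS) x))
          = 𝒯.π n (act (heckeAlgebra.T hℓ hℓN hℓS) y))
    (t : heckeAlgebra N 2 (↑S : Set ℕ)) (g : AlgebraicClosure ℚ ≃ₐ[ℚ] AlgebraicClosure ℚ)
    (n : ℕ) (x y : Λ) (hxy : 𝒯.ρ n g (𝒯.π n x) = 𝒯.π n y) :
    𝒯.ρ n g (𝒯.π n (act t x)) = 𝒯.π n (act t y) := by
  obtain ⟨t0, ht0⟩ := t
  revert x y
  refine Algebra.adjoin_induction
    (p := fun t0 ht0 => ∀ x y : Λ, 𝒯.ρ n g (𝒯.π n x) = 𝒯.π n y →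
      𝒯.ρ n g (𝒯.π n (act ⟨t0, ht0⟩ x)) = 𝒯.π n (act ⟨t0, ht0⟩ y)) ?_ ?_ ?_ ?_ ht0
  · rintro _ (⟨ℓ, hℓ, hℓN, hℓS, rfl⟩ | ⟨q, hqN, hq, hqS, rfl⟩) x y hxy
    · exact hT ℓ hℓ hℓN hℓS g n x y hxy
    · exact absurd (Finset.mem_coe.mpr (hNS q hq hqN)) hqS
  · intro r x y hxy
    have e : (⟨algebraMap ℤ _ r, Subalgebra.algebraMap_mem _ r⟩ : heckeAlgebra N 2 (↑S : Set ℕ))
        = algebraMap ℤ (heckeAlgebra N 2 (↑S : Set ℕ)) r := rfl
    rw [e, eq_intCast, map_intCast]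
    simp only [Module.End.intCast_apply, map_zsmul, hxy]
  · intro a b ha hb iha ihb x y hxy
    have e : (⟨a + b, Subalgebra.add_mem _ ha hb⟩ : heckeAlgebra N 2 (↑S : Set ℕ))
        = ⟨a, ha⟩ + ⟨b, hb⟩ := rfl
    rw [e, map_add, LinearMap.add_apply, LinearMap.add_apply, map_add, map_add, map_add,
      iha x y hxy, ihb x y hxy]
  · intro a b ha hb iha ihb x y hxy
    have e : (⟨a * b, Subalgebra.mul_mem _ ha hb⟩ : heckeAlgebra N 2 (↑S : Set ℕ))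
        = ⟨a, ha⟩ * ⟨b, hb⟩ := rfl
    rw [e, map_mul, Module.End.mul_apply, Module.End.mul_apply]
    exact iha _ _ (ihb x y hxy)


section Hyp
variable [Module.Free ℤ Λ] [Module.Finite ℤ Λ]

/-- the tower of Kummer models satisfies `TowerHyp` -/
theorem towerHyp_of_kumModels (hp : p.Prime) (hpS : p ∈ S)
    (hNS : ∀ q : ℕ, q.Prime → q ∣ N → q ∈ S)
    (act : heckeAlgebra N 2 (↑S : Set ℕ) →+* Module.End ℤ Λ)
    (M : ∀ n : ℕ, J4Asm.KumModel N (p ^ n))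
    (Θ : ∀ n, Λ →+ (M n).K) (hsurj : ∀ n, Function.Surjective (Θ n))
    (hker : ∀ n x, Θ n x = 0 → ∃ y, x = (p ^ n) • y)
    (hcompat : ∀ n (g : AlgebraicClosure ℚ ≃ₐ[ℚ] AlgebraicClosure ℚ) (x y : Λ),
      (M (n + 1)).gal g (Θ (n + 1) x) = Θ (n + 1) y → (M n).gal g (Θ n x) = Θ n y)
    (hΘT : ∀ n (ℓ : ℕ), ℓ.Prime → ℓ ∉ S → ∀ x,
      Θ n (act (heckeTl N S ℓ) x) = (M n).T ℓ (Θ n x)) :
    TowerHyp p N S act (towerOfKumModels M Θ hsurj hker hcompat) := by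
  classical
  have hTl : ∀ (ℓ : ℕ) (hℓ : ℓ.Prime) (hℓN : ¬ ℓ ∣ N) (hℓS : ℓ ∉ (↑S : Set ℕ)) n x,
      Θ n (act (heckeAlgebra.T hℓ hℓN hℓS) x) = (M n).T ℓ (Θ n x) := by
    intro ℓ hℓ hℓN hℓS n x
    have hℓS' : ℓ ∉ S := fun h => hℓS (Finset.mem_coe.mpr h)
    rw [← heckeTl_eq hℓ hℓN hℓS]
    exact hΘT n ℓ hℓ hℓS' x
  refine ⟨?_, ?_, ?_, ?_⟩
  · -- comm
    intro t g n x y hxy
    refine comm_of_generators hNS act _ ?_ t g n x y hxy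
    intro ℓ hℓ hℓN hℓS g n x y hxy
    change (M n).gal g (Θ n (act (heckeAlgebra.T hℓ hℓN hℓS) x))
      = Θ n (act (heckeAlgebra.T hℓ hℓN hℓS) y)
    change (M n).gal g (Θ n x) = Θ n y at hxy
    rw [hTl, hTl, ← hxy]
    have := LinearMap.congr_fun ((M n).T_comm_gal ℓ g) (Θ n x)
    rw [Module.End.mul_apply, Module.End.mul_apply] at this
    exact this.symm
  · -- level
    intro n
    let b := Module.Free.chooseBasis ℤ Λ
    obtain ⟨E, hE, hfix⟩ := hasLevel_forall_finite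
      (fun i σ => (M n).gal σ (Θ n (b i)) = Θ n (b i)) fun i => (M n).level _
    refine ⟨E, hE, fun σ hσ => ?_⟩
    have h1 : (((M n).gal σ).toAddMonoidHom.comp (Θ n)).toIntLinearMap = (Θ n).toIntLinearMap := by
      apply b.ext
      intro i
      exact hfix σ hσ i
    ext k
    obtain ⟨x, rfl⟩ := hsurj n k
    exact LinearMap.congr_fun h1 x
  · -- unram
    intro n q hq hqN hqp P hP σ hσ
    have hq' : ¬ q ∣ N * p ^ n := by
      intro h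
      rcases (Nat.Prime.dvd_mul hq).mp h with h1 | h1
      · exact hqN h1
      · exact hqp ((Nat.prime_dvd_prime_iff_eq hq hp).mp (hq.dvd_of_dvd_pow h1))
    change (endToAddEnd (ZMod (p ^ n)) (M n).K) ((M n).gal σ) = 1
    rw [(M n).inertia q hq hq' P hP σ hσ]
    exact map_one _
  · -- ES
    intro ℓ hℓ hℓN hℓS A hA σ hσ n x y z hxy hyz
    change (M n).gal σ (Θ n x) = Θ n y at hxy
    change (M n).gal σ (Θ n y) = Θ n z at hyz
    change Θ n z + (ℓ : ℤ) • Θ n x = Θ n (act (heckeAlgebra.T hℓ hℓN hℓS) y)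
    have hℓS' : ℓ ∉ S := fun h => hℓS (Finset.mem_coe.mpr h)
    have hℓ' : ¬ ℓ ∣ N * p ^ n := not_dvd_mul_pow_of_notMem hp hpS hNS hℓ hℓS' n
    have h := LinearMap.congr_fun ((M n).frob ℓ hℓ hℓ' A hA σ hσ) (Θ n x)
    simp only [LinearMap.add_apply, LinearMap.sub_apply, Module.End.mul_apply,
      LinearMap.smul_apply, Module.End.one_apply, LinearMap.zero_apply] at h
    rw [hxy, hyz] at h
    have e1 : ((ℓ : ZMod (p ^ n)) • Θ n x) = (ℓ : ℕ) • Θ n x := Nat.cast_smul_eq_nsmul _ _ _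
    have e2 : ((ℓ : ℤ) • Θ n x) = (ℓ : ℕ) • Θ n x := natCast_zsmul _ _
    rw [e1] at h
    rw [hTl, e2, ← sub_eq_zero, ← h]
    abel

end Hyp


section S30
open Polynomial

/-- **S30 from Kummer models at the moduli `p ^ n`**, in the frozen shape. -/
theorem s30_of_kumModels (p : ℕ) [Fact p.Prime] (N : ℕ) [NeZero N] (S : Finset ℕ)
    (hpS : p ∈ S) (hNS : ∀ q : ℕ, q.Prime → q ∣ N → q ∈ S)
    (𝒪' : Type) [CommRing 𝒪'] [IsDomain 𝒪'] [IsDiscreteValuationRing 𝒪']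
    [IsAdicComplete (IsLocalRing.maximalIdeal 𝒪') 𝒪'] [Finite (IsLocalRing.ResidueField 𝒪')]
    [CharZero 𝒪'] (hp𝒪' : (p : 𝒪') ∈ IsLocalRing.maximalIdeal 𝒪')
    (χ : CuspForm.heckeAlgebra N 2 (↑S : Set ℕ) →+* 𝒪')
    (Λ : Type) [AddCommGroup Λ] [Module.Free ℤ Λ] [Module.Finite ℤ Λ]
    (act : heckeAlgebra N 2 (↑S : Set ℕ) →+* Module.End ℤ Λ) (hact : Function.Injective act)
    (M : ∀ n : ℕ, J4Asm.KumModel N (p ^ n))
    (Θ : ∀ n, Λ →+ (M n).K) (hsurj : ∀ n, Function.Surjective (Θ n))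
    (hker : ∀ n x, Θ n x = 0 → ∃ y, x = (p ^ n) • y)
    (hcompat : ∀ n (g : AlgebraicClosure ℚ ≃ₐ[ℚ] AlgebraicClosure ℚ) (x y : Λ),
      (M (n + 1)).gal g (Θ (n + 1) x) = Θ (n + 1) y → (M n).gal g (Θ n x) = Θ n y)
    (hΘT : ∀ n (ℓ : ℕ), ℓ.Prime → ℓ ∉ S → ∀ x,
      Θ n (act (heckeTl N S ℓ) x) = (M n).T ℓ (Θ n x)) :
    ∃ (𝒪'' : Type) (_ : CommRing 𝒪'') (_ : IsDomain 𝒪'') (_ : IsDiscreteValuationRing 𝒪'')
      (_ : IsAdicComplete (IsLocalRing.maximalIdeal 𝒪'') 𝒪'')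
      (_ : Finite (IsLocalRing.ResidueField 𝒪'')) (_ : CharZero 𝒪'')
      (_ : Algebra 𝒪' 𝒪'') (_ : Module.Finite 𝒪' 𝒪'') (_ : IsLocalHom (algebraMap 𝒪' 𝒪'')),
    Function.Injective (algebraMap 𝒪' 𝒪'') ∧
    ∃ ρ : GaloisRepAdic 𝒪'',
      (∀ (ℓ : ℕ) (hℓ : ℓ.Prime) (hℓN : ¬ ℓ ∣ N) (hℓS : ℓ ∉ (↑S : Set ℕ)),
        ∀ A : ValuationSubring (AlgebraicClosure ℚ), A.LiesOverPrime ℓ →
          ∀ σ : AlgebraicClosure ℚ ≃ₐ[ℚ] AlgebraicClosure ℚ, A.IsFrobeniusAt σ ℓ →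
            LinearMap.charpoly (ρ.ρ σ) =
              X ^ 2 - C (algebraMap 𝒪' 𝒪'' (χ (CuspForm.heckeAlgebra.T hℓ hℓN hℓS))) * X
                + C ((ℓ : 𝒪''))) ∧
      (∀ q : ℕ, q.Prime → ¬ q ∣ N → q ≠ p → ρ.IsUnramifiedAt q) :=
  s30_of_tower p N S hpS hNS 𝒪' hp𝒪' χ Λ act hact (towerOfKumModels M Θ hsurj hker hcompat)
    (towerHyp_of_kumModels Fact.out hpS hNS act M Θ hsurj hker hcompat hΘT)

end S30

end Fermat.Agent.GJ.Tate.OfTower
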