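/-
GATE-J / J4-TATE, S30 TOP (helper17) — the analogue of helper53's `S31Top.s31_of_gates`.

`s30_of_gates : K18sPow → TowerGateC N S p → (frozen statement S30)`.

* `S31Top.K18sPow` = J1's clause-free Kummer statement (K18s) at a GENERAL exponent `m`.
* `TowerGateC N S p` = helper53's `S31Top.TowerGate N S p` (J2's tower export EIGS: a finite free
  lattice `Λ` with a faithful Hecke action and surjections `Θ n : Λ → Kum_{pⁿ}(F_N)` with kernel
  `pⁿ Λ`, Hecke-equivariant) with ONE family `Θ` for all `n` and the extra clause (T2)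
  `trans (Θ (n+1) x) = Θ n x` (naturality in the modulus; `KumTower.trans`, helper8).
  `towerGate_of_towerGateC : TowerGateC N S p → S31Top.TowerGate N S p`, so S31 follows from the
  same two gates.
-/
import Fermat.Agent.GJ.Tate.S31Top
import Fermat.Agent.GJ.Tate.TowerOfKumModels
import Fermat.Agent.GJ.J2.Tower.Trans

set_option autoImplicit false

open CuspForm

namespace Fermat.Agent.GJ.Tate.S30Top

open Fermat.Agent.GJ.KumGroup Fermat.Agent.GJ.Kum.KumType Fermat.Agent.GJ.J4Asm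
open Fermat.Agent.GJ.KumFinal (hnMemHyp hnDivHyp)
open Fermat.Agent.GJ.Tate.S31Top Fermat.Agent.GJ.Tate.OfTower Fermat.Agent.GJ

/-- `ℚ̄`. -/
local notation "Qb" => AlgebraicClosure ℚ

/-- J2's tower export (EIGS) with naturality in the modulus. -/
def TowerGateC (N : ℕ) [NeZero N] (S : Finset ℕ) (p : ℕ) : Prop :=
  ∃ (Λ : Type) (_ : AddCommGroup Λ) (_ : Module.Free ℤ Λ) (_ : Module.Finite ℤ Λ)
    (act : heckeAlgebra N 2 (↑S : Set ℕ) →+* Module.End ℤ Λ), Function.Injective act ∧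
    ∃ Θ : ∀ n : ℕ, Λ →+ Additive (Kum Qb (FK N) (p ^ n)),
      (∀ n : ℕ, Function.Surjective (Θ n) ∧
        (∀ x, Θ n x = 0 → ∃ y, x = (p ^ n) • y) ∧
        ∀ (ℓ : ℕ) (hℓ : ℓ.Prime) (hℓN : ¬ ℓ ∣ N) (hℓS : ℓ ∉ (↑S : Set ℕ)) (x : Λ)
          (u u' : pDivUnits Qb (FK N) (p ^ n)),
          Θ n x = Additive.ofMul (Kum.mk u) →
          ((((u' : pDivUnits Qb (FK N) (p ^ n)) : (FK N)ˣ) : FK N) : LaurentSeries Qb) =
            @heckeNormSeries Qb _ ℓ ⟨hℓ.ne_zero⟩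
              ((((u : pDivUnits Qb (FK N) (p ^ n)) : (FK N)ˣ) : FK N) : LaurentSeries Qb) →
          Θ n (act (heckeAlgebra.T hℓ hℓN hℓS) x) = Additive.ofMul (Kum.mk u')) ∧
      (∀ (n : ℕ) (x : Λ),
        Additive.ofMul (KumTower.trans (pow_dvd_pow p (Nat.le_succ n))
          (Additive.toMul (Θ (n + 1) x))) = Θ n x)

variable {p : ℕ} {N : ℕ} [NeZero N] {S : Finset ℕ}

/-- forgetting the naturality clause -/
theorem towerGate_of_towerGateC (h : TowerGateC N S p) : TowerGate N S p := by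
  obtain ⟨Λ, i1, i2, i3, act, hact, Θ, hΘ, -⟩ := h
  exact ⟨Λ, i1, i2, i3, act, hact, fun n => ⟨Θ n, hΘ n⟩⟩

omit [NeZero N] in
/-- the Galois action commutes with the transition maps -/
theorem gal_trans (n : ℕ) (g : AlgebraicClosure ℚ ≃ₐ[ℚ] AlgebraicClosure ℚ)
    (k : Additive (Kum Qb (FK N) (p ^ (n + 1)))) :
    gal N (p ^ n) g (Additive.ofMul
        (KumTower.trans (pow_dvd_pow p (Nat.le_succ n)) (Additive.toMul k)))
      = Additive.ofMul (KumTower.trans (pow_dvd_pow p (Nat.le_succ n))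
          (Additive.toMul (gal N (p ^ (n + 1)) g k))) := by
  obtain ⟨u, rfl⟩ := exists_rep (K := Qb) (F := FK N) (p := p ^ (n + 1)) k
  rfl

/-- **The frozen statement S30 from (K18s at general exponents) and (EIGS tower with (T2)).** -/
theorem s30_of_gates (hK : K18sPow) (p : ℕ) [Fact p.Prime] (N : ℕ) [NeZero N] (S : Finset ℕ)
    (hT : TowerGateC N S p)
    (hpS : p ∈ S) (hNS : ∀ q : ℕ, q.Prime → q ∣ N → q ∈ S)
    (𝒪' : Type) [CommRing 𝒪'] [IsDomain 𝒪'] [IsDiscreteValuationRing 𝒪']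
    [IsAdicComplete (IsLocalRing.maximalIdeal 𝒪') 𝒪'] [Finite (IsLocalRing.ResidueField 𝒪')]
    [CharZero 𝒪'] (hp𝒪' : (p : 𝒪') ∈ IsLocalRing.maximalIdeal 𝒪')
    (χ : CuspForm.heckeAlgebra N 2 (↑S : Set ℕ) →+* 𝒪') :
    ∃ (𝒪'' : Type) (_ : CommRing 𝒪'') (_ : IsDomain 𝒪'') (_ : IsDiscreteValuationRing 𝒪'')
      (_ : IsAdicComplete (IsLocalRing.maximalIdeal 𝒪'') 𝒪'')
      (_ : Finite (IsLocalRing.ResidueField 𝒪'')) (_ : CharZero 𝒪'')
      (_ : Algebra 𝒪' 𝒪'') (_ : Module.Finite 𝒪' 𝒪'') (_ : IsLocalHom (algebraMap 𝒪' 𝒪'')),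
    Function.Injective (algebraMap 𝒪' 𝒪'') ∧
    ∃ ρ : GaloisRepAdic 𝒪'',
      (∀ (ℓ : ℕ) (hℓ : ℓ.Prime) (hℓN : ¬ ℓ ∣ N) (hℓS : ℓ ∉ (↑S : Set ℕ)),
        ∀ A : ValuationSubring (AlgebraicClosure ℚ), A.LiesOverPrime ℓ →
          ∀ σ : AlgebraicClosure ℚ ≃ₐ[ℚ] AlgebraicClosure ℚ, A.IsFrobeniusAt σ ℓ →
            LinearMap.charpoly (ρ.ρ σ) =
              Polynomial.X ^ 2
                - Polynomial.C (algebraMap 𝒪' 𝒪'' (χ (CuspForm.heckeAlgebra.T hℓ hℓN hℓS)))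
                  * Polynomial.X
                + Polynomial.C ((ℓ : 𝒪''))) ∧
      (∀ q : ℕ, q.Prime → ¬ q ∣ N → q ≠ p → ρ.IsUnramifiedAt q) := by
  have hp : p.Prime := Fact.out
  obtain ⟨Λ, _, _, _, act, hact, Θ, hΘ, htr⟩ := hT
  have hpos : ∀ n : ℕ, 0 < p ^ n := fun n => pow_pos hp.pos n
  refine s30_of_kumModels p N S hpS hNS 𝒪' hp𝒪' χ Λ act hact
    (fun n => kumModelPow N hK (p ^ n) (hpos n)) Θ (fun n => (hΘ n).1) (fun n => (hΘ n).2.1)
    ?_ ?_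
  · -- compatibility
    intro n g x y hxy
    change gal N (p ^ (n + 1)) g (Θ (n + 1) x) = Θ (n + 1) y at hxy
    change gal N (p ^ n) g (Θ n x) = Θ n y
    rw [← htr n x, ← htr n y, gal_trans, hxy]
  · -- Hecke equivariance (as in `S31Top.nonempty_kumLevelData`)
    intro n ℓ hℓ hℓS x
    have hℓN : ¬ ℓ ∣ N := fun h => hℓS (hNS ℓ hℓ h)
    have hℓS' : ℓ ∉ (↑S : Set ℕ) := by simpa using hℓS
    have : NeZero ℓ := ⟨hℓ.ne_zero⟩
    obtain ⟨u, hu⟩ := exists_rep (K := Qb) (F := FK N) (p := p ^ n) (Θ n x)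
    set hM := hnMemHyp N hℓ hℓN with hMdef
    set hD := hnDivHyp N (p ^ n) hℓ hℓN with hDdef
    set u' : pDivUnits Qb (FK N) (p ^ n) :=
      ⟨heckeUnits hM u, heckeUnits_mem hM hD u u.2⟩ with hu'
    have h1 := (hΘ n).2.2 ℓ hℓ hℓN hℓS' x u u' hu rfl
    have h2 := kumModel_T_cls_of_eq (p := p ^ n) (fun _ hℓ hℓN => hnMemHyp N hℓ hℓN)
      (fun _ hℓ hℓN => hnDivHyp N (p ^ n) hℓ hℓN)
      (fun _ hℓ hℓNm => (es_hyps_pow N hK (hpos n) hℓ hℓNm).1)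
      (fun _ hℓ hℓNm => (es_hyps_pow N hK (hpos n) hℓ hℓNm).2) hℓ hℓN u u' rfl
    rw [heckeTl_eq hℓ hℓN hℓS']
    exact h1.trans (h2.symm.trans
      (congrArg ((kumModelPow N hK (p ^ n) (hpos n)).T ℓ) hu).symm)

end Fermat.Agent.GJ.Tate.S30Top
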