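/-
GATE-J / J4-TATE (helper17): the frozen statement S30 (∀-closed, exactly the type of
`Fermat.Agent.S30.result`) from the two remaining inputs

* `K18sAux` (J1, helper30's `K18sAllOfAux`: the Kummer theorem at the auxiliary levels), and
* `TowerGateC N S p` for all `p, N, S` (J2 tower EIGS, `S30Top`).

`Fermat/Agent/S30.lean` is then `s30_of_aux_tower k18sAux towerGateC`.
-/
import Fermat.Agent.GJ.Tate.S30Top
import Fermat.Agent.GJ.J1.K18sAllOfAux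

set_option autoImplicit false

open Polynomial CuspForm

namespace Fermat.Agent.GJ.Tate.S30Final

open Fermat.Agent.GJ.Tate.S30Top Fermat.Agent.GJ.Tate.S31Top

/-- helper42's general-modulus gate is helper53's `K18sPow` -/
theorem k18sPow_of_gateM (h : Fermat.Agent.GJ.S29Final.K18sGateM) : K18sPow :=
  fun N _ m ℓ hm hℓ hℓNm A hA => h N m hm ℓ hℓ hℓNm A hA

theorem k18sPow_of_aux (hK : Fermat.Agent.GJ.J1.K18sAllOfAux.K18sAux) : K18sPow :=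
  k18sPow_of_gateM (Fermat.Agent.GJ.J1.K18sAllOfAux.k18sGateM_of_aux hK)

/-- **The frozen S30**, from J1's `K18sAux` and J2's tower gate. -/
theorem s30_of_aux_tower (hK : Fermat.Agent.GJ.J1.K18sAllOfAux.K18sAux)
    (hT : ∀ (p : ℕ) [Fact p.Prime] (N : ℕ) [NeZero N] (S : Finset ℕ), p ∈ S →
      (∀ q : ℕ, q.Prime → q ∣ N → q ∈ S) → TowerGateC N S p) :
    ∀ (p : ℕ) [Fact p.Prime] (N : ℕ) [NeZero N] (S : Finset ℕ)
      (_hpS : p ∈ S) (_hNS : ∀ q : ℕ, q.Prime → q ∣ N → q ∈ S)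
      (𝒪' : Type) [CommRing 𝒪'] [IsDomain 𝒪'] [IsDiscreteValuationRing 𝒪']
      [IsAdicComplete (IsLocalRing.maximalIdeal 𝒪') 𝒪'] [Finite (IsLocalRing.ResidueField 𝒪')]
      [CharZero 𝒪'] (_hp𝒪' : (p : 𝒪') ∈ IsLocalRing.maximalIdeal 𝒪')
      (χ : CuspForm.heckeAlgebra N 2 (↑S : Set ℕ) →+* 𝒪'),
      ∃ (𝒪'' : Type) (_ : CommRing 𝒪'') (_ : IsDomain 𝒪'') (_ : IsDiscreteValuationRing 𝒪'')
        (_ : IsAdicComplete (IsLocalRing.maximalIdeal 𝒪'') 𝒪'')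
        (_ : Finite (IsLocalRing.ResidueField 𝒪'')) (_ : CharZero 𝒪'')
        (_ : Algebra 𝒪' 𝒪'') (_ : Module.Finite 𝒪' 𝒪'') (_ : IsLocalHom (algebraMap 𝒪' 𝒪'')),
      Function.Injective (algebraMap 𝒪' 𝒪'') ∧
      ∃ ρ : GaloisRepAdic 𝒪'',
        (∀ (ℓ : ℕ) (hℓ : ℓ.Prime) (hℓN : ¬ ℓ ∣ N) (hℓS : ℓ ∉ (↑S : Set ℕ)),
          ∀ A : ValuationSubring (AlgebraicClosure ℚ), A.LiesOverPrime ℓ →
            ∀ σ : AlgebraicClosure ℚ ≃ₐ[ℚ] AlgebraicClosure ℚ, A.IsFrobeniusAt σ ℓ →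
              LinearMap.charpoly (ρ.ρ σ) =
                X ^ 2 - C (algebraMap 𝒪' 𝒪'' (χ (CuspForm.heckeAlgebra.T hℓ hℓN hℓS))) * X
                  + C ((ℓ : 𝒪''))) ∧
        (∀ q : ℕ, q.Prime → ¬ q ∣ N → q ≠ p → ρ.IsUnramifiedAt q) := by
  intro p _ N _ S hpS hNS 𝒪' _ _ _ _ _ _ hp𝒪' χ
  exact s30_of_gates (k18sPow_of_aux hK) p N S (hT p N S hpS hNS) hpS hNS 𝒪' hp𝒪' χ

end Fermat.Agent.GJ.Tate.S30Final
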