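/-
GATE-J / J4-TATE (helper17): the tower gate `S30Top.TowerGateC N S p` is a THEOREM.

`Λ := Lam N` (helper64's lattice, faithful Hecke action `latAct`), `Θ n := thetaLat N (pⁿ) ζ_n`
(helper63's `Tower/ThetaLat.lean`, `ζ_n = exp(2πi/pⁿ)`).  With J1's `k18sAux` this gives the frozen
statement S30 through `S30Final.s30_of_aux_tower`.
-/
import Fermat.Agent.GJ.Tate.S30Final
import Fermat.Agent.GJ.J2.Tower.ThetaLat

set_option autoImplicit false

open CuspForm CongruenceSubgroup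
open scoped MatrixGroups

namespace Fermat.Agent.GJ.Tate.TowerGateCInst

open Fermat.Agent.GJ.KumGroup Fermat.Agent.GJ.EigAsm Fermat.Agent.GJ.J2.Lat
open Fermat.Agent.GJ.J2.LatAct Fermat.Agent.GJ.KumTower Fermat.Agent.GJ.Tate.S30Top

/-- `thetaLat` only depends on the root of unity. -/
theorem thetaLat_congr (N : ℕ) [NeZero N] (m : ℕ) [NeZero m] {ζ ζ' : ℂ}
    (hζ : IsPrimitiveRoot ζ m) (hζ' : IsPrimitiveRoot ζ' m) (h : ζ = ζ') :
    thetaLat N m hζ = thetaLat N m hζ' := by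
  subst h; rfl

/-- **J2's tower export with naturality in the modulus is a theorem.** -/
theorem towerGateC (p : ℕ) [Fact p.Prime] (N : ℕ) [NeZero N] (S : Finset ℕ) :
    TowerGateC N S p := by
  have hp : p.Prime := Fact.out
  have hp0 : p ≠ 0 := hp.ne_zero
  have hne : ∀ n : ℕ, NeZero (p ^ n) := fun n => ⟨pow_ne_zero n hp0⟩
  refine ⟨Lam N, inferInstance, inferInstance, inferInstance, latAct N (↑S : Set ℕ),
    latAct_injective N _, fun n => thetaLat N (p ^ n) (isPrimitiveRoot_zetaPow p n hp0), ?_, ?_⟩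
  · intro n
    refine ⟨thetaLat_surjective N _ _, ?_, ?_⟩
    · intro x hx
      obtain ⟨y, hy⟩ := thetaLat_eq_zero N _ _ x hx
      exact ⟨y, hy⟩
    · intro ℓ hℓ hℓN hℓS x u u' hu hu'
      exact thetaLat_latAct_T N _ _ _ ℓ hℓ hℓN hℓS x u u' hu hu'
  · intro n x
    rw [thetaLat_trans N (p ^ (n + 1)) (pow_dvd_pow p (Nat.le_succ n))]
    exact DFunLike.congr_fun
      (thetaLat_congr N (p ^ n) _ _ (zetaPow_succ_pow_div p n hp0)) x

end Fermat.Agent.GJ.Tate.TowerGateCInst
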