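import Fermat.Agent.GJ.Tate.DatumOfLevels
import Fermat.Agent.GJ.Tate.AdicDVR
import Fermat.Agent.GJ.Tate.S30Asm

/-!
# GATE-J / J4-TATE (TATE-LIM, helper23): `KumLevelData` ⟹ helper17's `TateDatum` ⟹ S30

* `KumLevelData.tateDatum` : from helper53's `D : KumLevelData N S p` with `D.Compat`, `D.Comm`
  and `D.UnramAll` (trivial inertia at ALL primes `q ∤ N`, `q ≠ p`, not only `q ∉ S`), a
  `p`-adically complete `ℤ`-flat ring `R` and `χ : 𝕋 →+* R`, helper17's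
  `TateDatum p N S R α` (`B = R ⊗[ℤ] 𝕋`, `Y = R ⊗[ℤ] Λ`);
* `s30_of_levelData` : the frozen statement S30 from such level data.
-/

set_option autoImplicit false

noncomputable section

namespace Fermat.Agent.GJ.Tate

open TensorProduct CuspForm Fermat.Agent.Common_helper32 Fermat.Agent.GJ.Tate.Lim

namespace KumLevelData

variable {N : ℕ} [NeZero N] {S : Finset ℕ} {p : ℕ} (D : KumLevelData N S p)

/-- trivial inertia at every prime `q ∤ N`, `q ≠ p` -/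
def UnramAll : Prop :=
  ∀ (n : ℕ) (q : ℕ), q.Prime → ¬ q ∣ N → q ≠ p → ∀ P : ValuationSubring Qb, P.LiesOverPrime q →
    ∀ σ ∈ P.inertiaSubgroupIn ℚ, D.gal n σ = 1

section Build

variable (hc : D.Compat) (R : Type) [CommRing R] [IsAdicComplete (Ideal.span {(p : R)}) R]

/-- the eigencharacter on `R ⊗ 𝕋` -/
def chiB (χ : heckeAlgebra N 2 (↑S : Set ℕ) →+* R) :
    R ⊗[ℤ] heckeAlgebra N 2 (↑S : Set ℕ) →ₐ[R] R :=
  Algebra.TensorProduct.lift (AlgHom.id R R) χ.toIntAlgHom (fun _ _ => Commute.all _ _)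

omit [IsAdicComplete (Ideal.span {(p : R)}) R] in
theorem chiB_tmul (χ : heckeAlgebra N 2 (↑S : Set ℕ) →+* R) (r : R)
    (t : heckeAlgebra N 2 (↑S : Set ℕ)) : chiB R χ (r ⊗ₜ t) = r * χ t := by
  rw [chiB, Algebra.TensorProduct.lift_tmul]
  rfl

/-- the `R ⊗ 𝕋`-module structure of `Y = R ⊗ Λ` -/
@[reducible] def moduleB : Module (R ⊗[ℤ] heckeAlgebra N 2 (↑S : Set ℕ)) (R ⊗[ℤ] D.Λ) :=
  Module.compHom (R ⊗[ℤ] D.Λ) (D.heckeTensor R).toRingHom

omit [IsAdicComplete (Ideal.span {(p : R)}) R] in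
theorem moduleB_smul (b : R ⊗[ℤ] heckeAlgebra N 2 (↑S : Set ℕ)) (y : R ⊗[ℤ] D.Λ) :
    (letI := D.moduleB R; b • y) = D.heckeTensor R b y := rfl

variable {R}

theorem galR_heckeTensor (hm : D.Comm) (hNS : ∀ q : ℕ, q.Prime → q ∣ N → q ∈ S) (g : GQ)
    (b : R ⊗[ℤ] heckeAlgebra N 2 (↑S : Set ℕ)) (y : R ⊗[ℤ] D.Λ) :
    D.galR hc R g (D.heckeTensor R b y) = D.heckeTensor R b (D.galR hc R g y) := by
  induction b using TensorProduct.induction_on with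
  | zero => simp
  | tmul r t =>
    rw [heckeTensor_tmul, LinearMap.smul_apply, LinearMap.smul_apply, map_smul]
    congr 1
    exact LinearMap.congr_fun (D.galR_commute hc hm hNS g t).eq y
  | add a b iha ihb =>
    rw [map_add, LinearMap.add_apply, LinearMap.add_apply, map_add, iha, ihb]

variable [Module.Flat ℤ R]

/-- **the Tate datum** (IFACE:TATE of `Datum.lean`) of Kummer level data -/
def tateDatum (hm : D.Comm) (hu : D.UnramAll) (hNS : ∀ q : ℕ, q.Prime → q ∣ N → q ∈ S)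
    (χ : heckeAlgebra N 2 (↑S : Set ℕ) →+* R) (α : ℕ → R)
    (hα : ∀ (ℓ : ℕ) (hℓ : ℓ.Prime) (hℓN : ¬ ℓ ∣ N) (hℓS : ℓ ∉ (↑S : Set ℕ)),
      α ℓ = χ (heckeAlgebra.T hℓ hℓN hℓS)) :
    TateDatum p N S R α :=
  letI := D.moduleB R
  { B := R ⊗[ℤ] heckeAlgebra N 2 (↑S : Set ℕ)
    Y := R ⊗[ℤ] D.Λ
    instModuleB := D.moduleB R
    instTower := ⟨fun r b y => by
      show D.heckeTensor R (r • b) y = r • D.heckeTensor R b y
      rw [map_smul, LinearMap.smul_apply]⟩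
    faithful := fun b hb => by
      apply D.heckeTensor_injective R
      rw [map_zero]
      exact LinearMap.ext fun y => hb y
    χB := chiB R χ
    t := fun ℓ => (1 : R) ⊗ₜ heckeTl N S ℓ
    χB_t := fun ℓ hℓ hℓN hℓS => by
      have hℓS' : ℓ ∉ (↑S : Set ℕ) := by simpa using hℓS
      rw [chiB_tmul, one_mul, heckeTl_eq hℓ hℓN hℓS', hα ℓ hℓ hℓN hℓS']
    gal := D.galR hc R
    gal_comm := fun g b y => D.galR_heckeTensor hc hm hNS g b y
    gal_cont := fun n => by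
      obtain ⟨L, hL, h⟩ := D.galR_level hc (R := R) n
      refine ⟨L, hL, fun σ hσ y => ?_⟩
      obtain ⟨C, hC⟩ := mem_J_iff.mp (h σ hσ)
      refine ⟨C y, ?_⟩
      have := LinearMap.congr_fun hC y
      simpa using this
    gal_unram := fun q hq hqN hqp P hP σ hσ =>
      (D.tower hc).lim_eq_one (R := R) fun n => hu n q hq hqN hqp P hP σ hσ
    ES := fun ℓ hℓ hℓN hℓS A hA σ hσ y => by
      have h := LinearMap.congr_fun (D.galR_es hc (R := R) ℓ hℓ hℓS A hA σ hσ) y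
      show D.galR hc R σ (D.galR hc R σ y)
        - D.heckeTensor R ((1 : R) ⊗ₜ heckeTl N S ℓ) (D.galR hc R σ y) + (ℓ : R) • y = 0
      rw [heckeTensor_tmul, one_smul]
      simpa using h }

end Build

end KumLevelData

open Polynomial in
/-- **S30 from Kummer level data** with compatible, Hecke-commuting Galois actions, unramified at
all `q ∤ Np`: the frozen statement S30. -/
theorem s30_of_levelData (p : ℕ) [Fact p.Prime] (N : ℕ) [NeZero N] (S : Finset ℕ)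
    (hpS : p ∈ S) (hNS : ∀ q : ℕ, q.Prime → q ∣ N → q ∈ S)
    (𝒪' : Type) [CommRing 𝒪'] [IsDomain 𝒪'] [IsDiscreteValuationRing 𝒪']
    [IsAdicComplete (IsLocalRing.maximalIdeal 𝒪') 𝒪'] [Finite (IsLocalRing.ResidueField 𝒪')]
    [CharZero 𝒪'] (hp𝒪' : (p : 𝒪') ∈ IsLocalRing.maximalIdeal 𝒪')
    (χ : CuspForm.heckeAlgebra N 2 (↑S : Set ℕ) →+* 𝒪')
    (D : KumLevelData N S p) (hc : D.Compat) (hm : D.Comm) (hu : D.UnramAll) :
    ∃ (𝒪'' : Type) (_ : CommRing 𝒪'') (_ : IsDomain 𝒪'') (_ : IsDiscreteValuationRing 𝒪'')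
      (_ : IsAdicComplete (IsLocalRing.maximalIdeal 𝒪'') 𝒪'')
      (_ : Finite (IsLocalRing.ResidueField 𝒪'')) (_ : CharZero 𝒪'')
      (_ : Algebra 𝒪' 𝒪'') (_ : Module.Finite 𝒪' 𝒪'') (_ : IsLocalHom (algebraMap 𝒪' 𝒪'')),
    Function.Injective (algebraMap 𝒪' 𝒪'') ∧
    ∃ ρ : GaloisRepAdic 𝒪'',
      (∀ (ℓ : ℕ) (hℓ : ℓ.Prime) (hℓN : ¬ ℓ ∣ N) (hℓS : ℓ ∉ (↑S : Set ℕ)),
        ∀ A : ValuationSubring (AlgebraicClosure ℚ), A.LiesOverPrime ℓ →
          ∀ σ : AlgebraicClosure ℚ ≃ₐ[ℚ] AlgebraicClosure ℚ, A.IsFrobeniusAt σ ℓ →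
            LinearMap.charpoly (ρ.ρ σ) =
              X ^ 2 - C (algebraMap 𝒪' 𝒪'' (χ (CuspForm.heckeAlgebra.T hℓ hℓN hℓS))) * X
                + C ((ℓ : 𝒪''))) ∧
      (∀ q : ℕ, q.Prime → ¬ q ∣ N → q ≠ p → ρ.IsUnramifiedAt q) := by
  have hp0 : (p : 𝒪') ≠ 0 := Nat.cast_ne_zero.mpr (Fact.out : p.Prime).ne_zero
  have : IsAdicComplete (Ideal.span {(p : 𝒪')}) 𝒪' := isAdicComplete_span_of_dvr hp𝒪' hp0
  exact S30Asm.s30_of_tateDatum p N S hpS hNS 𝒪' hp𝒪' χ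
    (D.tateDatum hc hm hu hNS χ (S30Asm.alphaOf χ)
      (fun ℓ hℓ hℓN hℓS => S30Asm.alphaOf_eq χ hℓ hℓN hℓS))

end Fermat.Agent.GJ.Tate
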