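import Fermat.Agent.GJ.Tate.LevelsOfKumModel
import Fermat.Agent.GJ.Tate.DatumBuild

/-!
# GATE-J / J4-TATE (helper23): the three extra properties of `KumLevelData.ofKumModels`

For the `KumLevelData` built by helper53's adapter `KumLevelData.ofKumModels` from Kummer models
`M n : J4Asm.KumModel N (p ^ n)`:

* `ofKumModels_comm`     : `Comm`     (from `KumModel.T_comm_gal`);
* `ofKumModels_unramAll` : `UnramAll` (from `KumModel.inertia`);
* `ofKumModels_compat`   : `Compat`   from transition maps `proj n : (M (n+1)).K →+ (M n).K`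
  compatible with the comparison maps `Θ` and the Galois actions.

Hence `s30_of_kumModels`: the frozen S30 from Kummer models at all levels `p ^ n`.
-/

set_option autoImplicit false

noncomputable section

namespace Fermat.Agent.GJ.Tate

open CuspForm Fermat.Agent.Common_helper32

section

variable {N : ℕ} [NeZero N] {S : Finset ℕ} {p : ℕ}
  (hp : p.Prime) (hpS : p ∈ S) (hNS : ∀ q : ℕ, q.Prime → q ∣ N → q ∈ S)
  (Λ : Type) [AddCommGroup Λ] [Module.Free ℤ Λ] [Module.Finite ℤ Λ]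
  (act : heckeAlgebra N 2 (↑S : Set ℕ) →+* Module.End ℤ Λ) (hact : Function.Injective act)
  (M : ∀ n : ℕ, J4Asm.KumModel N (p ^ n))
  (Θ : ∀ n, Λ →+ (M n).K) (hsurj : ∀ n, Function.Surjective (Θ n))
  (hker : ∀ n x, Θ n x = 0 → ∃ y, x = (p ^ n) • y)
  (hΘT : ∀ n (ℓ : ℕ), ℓ.Prime → ℓ ∉ S → ∀ x,
    Θ n (act (heckeTl N S ℓ) x) = (M n).T ℓ (Θ n x))

theorem ofKumModels_comm :
    (KumLevelData.ofKumModels hp hpS hNS Λ act hact M Θ hsurj hker hΘT).Comm := by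
  intro n ℓ _ _ g
  show endToAddEnd (ZMod (p ^ n)) (M n).K ((M n).T ℓ) *
      endToAddEnd (ZMod (p ^ n)) (M n).K ((M n).gal g) =
    endToAddEnd (ZMod (p ^ n)) (M n).K ((M n).gal g) *
      endToAddEnd (ZMod (p ^ n)) (M n).K ((M n).T ℓ)
  rw [← map_mul, ← map_mul, (M n).T_comm_gal ℓ g]

theorem ofKumModels_unramAll :
    (KumLevelData.ofKumModels hp hpS hNS Λ act hact M Θ hsurj hker hΘT).UnramAll := by
  intro n q hq hqN hqp P hP σ hσ
  have hq' : ¬ q ∣ N * p ^ n := by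
    intro h
    rcases (Nat.Prime.dvd_mul hq).mp h with h1 | h1
    · exact hqN h1
    · exact hqp ((Nat.prime_dvd_prime_iff_eq hq hp).mp (hq.dvd_of_dvd_pow h1))
  show endToAddEnd (ZMod (p ^ n)) (M n).K ((M n).gal σ) = 1
  rw [(M n).inertia q hq hq' P hP σ hσ]
  exact map_one _

theorem ofKumModels_compat (proj : ∀ n, (M (n + 1)).K →+ (M n).K)
    (hproj : ∀ n x, proj n (Θ (n + 1) x) = Θ n x)
    (hgal : ∀ n (σ : GQ) (k : (M (n + 1)).K),
      proj n ((M (n + 1)).gal σ k) = (M n).gal σ (proj n k)) :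
    (KumLevelData.ofKumModels hp hpS hNS Λ act hact M Θ hsurj hker hΘT).Compat := by
  intro n g x y h
  have key : ∀ x y : Λ, (M (n + 1)).gal g (Θ (n + 1) x) = Θ (n + 1) y →
      (M n).gal g (Θ n x) = Θ n y := by
    intro x y h'
    rw [← hproj n x, ← hgal, h', hproj]
  exact key x y h

end

open Polynomial in
/-- **S30 from Kummer models at the levels `p ^ n`** with lattice comparison maps and transition
maps. -/
theorem s30_of_kumModels (p : ℕ) [Fact p.Prime] (N : ℕ) [NeZero N] (S : Finset ℕ)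
    (hpS : p ∈ S) (hNS : ∀ q : ℕ, q.Prime → q ∣ N → q ∈ S)
    (𝒪' : Type) [CommRing 𝒪'] [IsDomain 𝒪'] [IsDiscreteValuationRing 𝒪']
    [IsAdicComplete (IsLocalRing.maximalIdeal 𝒪') 𝒪'] [Finite (IsLocalRing.ResidueField 𝒪')]
    [CharZero 𝒪'] (hp𝒪' : (p : 𝒪') ∈ IsLocalRing.maximalIdeal 𝒪')
    (χ : CuspForm.heckeAlgebra N 2 (↑S : Set ℕ) →+* 𝒪')
    (Λ : Type) [AddCommGroup Λ] [Module.Free ℤ Λ] [Module.Finite ℤ Λ]
    (act : heckeAlgebra N 2 (↑S : Set ℕ) →+* Module.End ℤ Λ) (hact : Function.Injective act)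
    (M : ∀ n : ℕ, J4Asm.KumModel N (p ^ n))
    (Θ : ∀ n, Λ →+ (M n).K) (hsurj : ∀ n, Function.Surjective (Θ n))
    (hker : ∀ n x, Θ n x = 0 → ∃ y, x = (p ^ n) • y)
    (hΘT : ∀ n (ℓ : ℕ), ℓ.Prime → ℓ ∉ S → ∀ x,
      Θ n (act (heckeTl N S ℓ) x) = (M n).T ℓ (Θ n x))
    (proj : ∀ n, (M (n + 1)).K →+ (M n).K)
    (hproj : ∀ n x, proj n (Θ (n + 1) x) = Θ n x)
    (hgal : ∀ n (σ : GQ) (k : (M (n + 1)).K),
      proj n ((M (n + 1)).gal σ k) = (M n).gal σ (proj n k)) :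
    ∃ (𝒪'' : Type) (_ : CommRing 𝒪'') (_ : IsDomain 𝒪'') (_ : IsDiscreteValuationRing 𝒪'')
      (_ : IsAdicComplete (IsLocalRing.maximalIdeal 𝒪'') 𝒪'')
      (_ : Finite (IsLocalRing.ResidueField 𝒪'')) (_ : CharZero 𝒪'')
      (_ : Algebra 𝒪' 𝒪'') (_ : Module.Finite 𝒪' 𝒪'') (_ : IsLocalHom (algebraMap 𝒪' 𝒪'')),
    Function.Injective (algebraMap 𝒪' 𝒪'') ∧
    ∃ ρ : GaloisRepAdic 𝒪'',
      (∀ (ℓ : ℕ) (hℓ : ℓ.Prime) (hℓN : ¬ ℓ ∣ N) (hℓS : ℓ ∉ (↑S : Set ℕ)),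
        ∀ A : ValuationSubring (AlgebraicClosure ℚ), A.LiesOverPrime ℓ →
          ∀ σ : AlgebraicClosure ℚ ≃ₐ[ℚ] AlgebraicClosure ℚ, A.IsFrobeniusAt σ ℓ →
            LinearMap.charpoly (ρ.ρ σ) =
              X ^ 2 - C (algebraMap 𝒪' 𝒪'' (χ (CuspForm.heckeAlgebra.T hℓ hℓN hℓS))) * X
                + C ((ℓ : 𝒪''))) ∧
      (∀ q : ℕ, q.Prime → ¬ q ∣ N → q ≠ p → ρ.IsUnramifiedAt q) :=
  have hp : p.Prime := Fact.out
  s30_of_levelData p N S hpS hNS 𝒪' hp𝒪' χ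
    (KumLevelData.ofKumModels hp hpS hNS Λ act hact M Θ hsurj hker hΘT)
    (ofKumModels_compat hp hpS hNS Λ act hact M Θ hsurj hker hΘT proj hproj hgal)
    (ofKumModels_comm hp hpS hNS Λ act hact M Θ hsurj hker hΘT)
    (ofKumModels_unramAll hp hpS hNS Λ act hact M Θ hsurj hker hΘT)

end Fermat.Agent.GJ.Tate
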