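import Fermat.Agent.GJ.Tate.LevelsOfKum
import Fermat.Agent.GJ.Tate.LimAction
import Fermat.Agent.GJ.Tate.Faithful

/-!
# GATE-J / J4-TATE (TATE-LIM, helper23): the `p`-adic Tate datum of Kummer level data

Input: helper53's `D : KumLevelData N S p` (lattice `Λ` with faithful Hecke action `act`, Kummer
groups `K n` with Galois action, `Θ n : Λ → K n` onto with kernel `pⁿ Λ`, Eichler–Shimura, trivial
inertia, finite level) together with

* `D.Compat` : the Galois actions are compatible in `n` (relational form);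
* `D.Comm`   : `T_ℓ` commutes with the Galois action on every `K n`.

Output, for every commutative ring `R` which is `p`-adically complete (`R = 𝒪'` in S30), on
`Y = R ⊗[ℤ] Λ`:

* `galR D hc R : G_ℚ →* End_R Y`, `heckeR D R : 𝕋 →+* End_R Y`;
* `galR_commute` (Hecke and Galois commute), `galR_es` (Eichler–Shimura
  `τ² − T_ℓ τ + ℓ = 0` at Frobenius lifts), `galR_unram`, `galR_level` (finite level mod `pⁿ`),
  `galR_isAdicContinuous`, `galR_sub_mem_of_eq` (levelwise equality ⇒ congruence mod `pⁿ`),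
  `heckeTensor_injective` (faithfulness of `R ⊗ 𝕋 → End_R Y` for `ℤ`-flat `R`).
-/

set_option autoImplicit false

noncomputable section

namespace Fermat.Agent.GJ.Tate

open TensorProduct CuspForm Fermat.Agent.Common_helper32 Fermat.Agent.GJ.Tate.Lim

namespace KumLevelData

variable {N : ℕ} [NeZero N] {S : Finset ℕ} {p : ℕ} (D : KumLevelData N S p)

/-- compatibility of the Galois actions in the tower, relational form -/
def Compat : Prop :=
  ∀ (n : ℕ) (g : GQ) (x y : D.Λ),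
    D.gal (n + 1) g (D.Θ (n + 1) x) = D.Θ (n + 1) y → D.gal n g (D.Θ n x) = D.Θ n y

/-- the Hecke operators commute with the Galois action on the Kummer groups -/
def Comm : Prop :=
  ∀ (n : ℕ) (ℓ : ℕ), ℓ.Prime → ℓ ∉ S → ∀ g : GQ, D.Tn n ℓ * D.gal n g = D.gal n g * D.Tn n ℓ

/-- the tower of `LimAction.lean` attached to Kummer level data -/
def tower (hc : D.Compat) : Tower.{0, 0, 0} p D.Λ GQ where
  Q := D.K
  instQ := fun n => D.instK n
  π := D.Θ
  π_surj := D.Θ_surjective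
  π_eq_zero := fun n x => ⟨D.Θ_eq_zero n x, by
    rintro ⟨y, rfl⟩
    exact D.Θ_pow_smul n y⟩
  ρ := D.gal
  compat := hc

section Lim

variable (hc : D.Compat) (R : Type*) [CommRing R] [IsAdicComplete (Ideal.span {(p : R)}) R]

/-- the Galois action on `Y = R ⊗ Λ` -/
def galR : GQ →* Module.End R (R ⊗[ℤ] D.Λ) := (D.tower hc).lim (R := R)

/-- the Hecke action on `Y = R ⊗ Λ` -/
def heckeR : heckeAlgebra N 2 (↑S : Set ℕ) →+* Module.End R (R ⊗[ℤ] D.Λ) :=
  ((Module.End.baseChangeHom ℤ R D.Λ : Module.End ℤ D.Λ →ₐ[ℤ] _) : Module.End ℤ D.Λ →+* _).comp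
    D.act

omit [IsAdicComplete (Ideal.span {(p : R)}) R] in
theorem heckeR_apply (t : heckeAlgebra N 2 (↑S : Set ℕ)) :
    D.heckeR R t = bc R (D.act t) := rfl

variable {R}

/-- **SPEC**: `galR g` is congruent mod `pⁿ` to the base change of any `ℤ`-linear lift of
`gal n g`. -/
theorem galR_sub_bc_mem {g : GQ} {n : ℕ} {φ : D.Λ →ₗ[ℤ] D.Λ}
    (hφ : ∀ x, D.Θ n (φ x) = D.gal n g (D.Θ n x)) :
    D.galR hc R g - bc R φ ∈ J p D.Λ R n :=
  (D.tower hc).lim_sub_bc_mem (R := R) (g := g) (n := n) (φ := φ) hφ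

/-- levelwise equality gives a congruence mod `pⁿ` -/
theorem galR_sub_mem_of_eq {g g' : GQ} {n : ℕ} (h : D.gal n g = D.gal n g') :
    D.galR hc R g - D.galR hc R g' ∈ J p D.Λ R n := by
  have hl := (D.tower hc).isLift_lift n g
  have hl' : (D.tower hc).IsLift n g' ((D.tower hc).lift n g) := fun x => by
    rw [hl x]
    show D.gal n g (D.Θ n x) = D.gal n g' (D.Θ n x)
    rw [h]
  have h1 := (D.tower hc).lim_sub_bc_mem (R := R) hl
  have h2 := (D.tower hc).lim_sub_bc_mem (R := R) hl'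
  have h3 := (J p D.Λ R n).sub_mem h1 h2
  rwa [sub_sub_sub_cancel_right] at h3

/-- finite level modulo `pⁿ` -/
theorem galR_level (n : ℕ) :
    ∃ L : IntermediateField ℚ Qb, FiniteDimensional ℚ L ∧
      ∀ σ : GQ, (∀ x ∈ L, σ x = x) → D.galR hc R σ - 1 ∈ J p D.Λ R n := by
  obtain ⟨L, hL, h⟩ := D.gal_level n
  exact ⟨L, hL, fun σ hσ => (D.tower hc).lim_sub_one_mem (R := R) (h σ hσ)⟩

/-- unramified outside `S` -/
theorem galR_unram (q : ℕ) (hq : q.Prime) (hqS : q ∉ S) (P : ValuationSubring Qb)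
    (hP : P.LiesOverPrime q) (σ : GQ) (hσ : σ ∈ P.inertiaSubgroupIn ℚ) :
    D.galR hc R σ = 1 :=
  (D.tower hc).lim_eq_one (R := R) fun n => D.unram n q hq hqS P hP σ hσ

/-- commutation with `T_ℓ` -/
theorem galR_comm_heckeTl (hm : D.Comm) (ℓ : ℕ) (hℓ : ℓ.Prime) (hℓS : ℓ ∉ S) (g : GQ) :
    D.galR hc R g * D.heckeR R (heckeTl N S ℓ) = D.heckeR R (heckeTl N S ℓ) * D.galR hc R g := by
  refine (D.tower hc).lim_comm (R := R) (g := g) (D.act (heckeTl N S ℓ)) fun n x y hxy => ?_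
  show D.gal n g (D.Θ n (D.act (heckeTl N S ℓ) x)) = D.Θ n (D.act (heckeTl N S ℓ) y)
  have hxy' : D.gal n g (D.Θ n x) = D.Θ n y := hxy
  rw [D.Θ_T n ℓ hℓ hℓS, D.Θ_T n ℓ hℓ hℓS, ← hxy']
  exact (DFunLike.congr_fun (hm n ℓ hℓ hℓS g) (D.Θ n x)).symm

/-- **Eichler–Shimura in the limit** -/
theorem galR_es (ℓ : ℕ) (hℓ : ℓ.Prime) (hℓS : ℓ ∉ S) (A : ValuationSubring Qb)
    (hA : A.LiesOverPrime ℓ) (τ : GQ) (hτ : A.IsFrobeniusAt τ ℓ) :
    D.galR hc R τ * D.galR hc R τ - D.heckeR R (heckeTl N S ℓ) * D.galR hc R τ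
      + (ℓ : R) • (1 : Module.End R (R ⊗[ℤ] D.Λ)) = 0 := by
  have h := (D.tower hc).lim_quadratic (R := R) (g := τ) (D.act (heckeTl N S ℓ)) (ℓ : ℤ)
    (fun n x y z hxy hyz => by
      have hxy' : D.gal n τ (D.Θ n x) = D.Θ n y := hxy
      have hyz' : D.gal n τ (D.Θ n y) = D.Θ n z := hyz
      show D.Θ n z + (ℓ : ℤ) • D.Θ n x = D.Θ n (D.act (heckeTl N S ℓ) y)
      have hf := DFunLike.congr_fun (D.frob n ℓ hℓ hℓS A hA τ hτ) (D.Θ n x)
      rw [D.Θ_T n ℓ hℓ hℓS]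
      have e : D.gal n τ (D.gal n τ (D.Θ n x)) - D.Tn n ℓ (D.gal n τ (D.Θ n x))
          + (ℓ : ℤ) • D.Θ n x = 0 := by
        rw [natCast_zsmul]
        change D.gal n τ (D.gal n τ (D.Θ n x)) - D.Tn n ℓ (D.gal n τ (D.Θ n x))
          + (ℓ : AddMonoid.End (D.K n)) (D.Θ n x) = 0 at hf
        rwa [AddMonoid.End.natCast_apply] at hf
      rw [hxy', hyz'] at e
      rw [← sub_eq_zero, ← e]
      abel)
  rw [Int.cast_natCast] at h
  exact h

/-- **Hecke and Galois commute** (all generators of `heckeAlgebra N 2 S` are `T_ℓ`, `ℓ ∉ S`,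
when `S` contains the primes dividing `N`). -/
theorem galR_commute (hm : D.Comm) (hNS : ∀ q : ℕ, q.Prime → q ∣ N → q ∈ S) (g : GQ)
    (t : heckeAlgebra N 2 (↑S : Set ℕ)) : Commute (D.galR hc R g) (D.heckeR R t) := by
  obtain ⟨t, ht⟩ := t
  induction ht using Algebra.adjoin_induction with
  | mem x hx =>
    rcases hx with ⟨ℓ, hℓ, hℓN, hℓS, rfl⟩ | ⟨q, hqN, hq, hqS, rfl⟩
    · have hℓS' : ℓ ∉ S := by simpa using hℓS
      have e : (⟨heckeTLin 2 hℓ hℓN, Algebra.subset_adjoin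
          (Or.inl ⟨ℓ, hℓ, hℓN, hℓS, rfl⟩)⟩ : heckeAlgebra N 2 (↑S : Set ℕ)) = heckeTl N S ℓ := by
        rw [heckeTl_eq hℓ hℓN hℓS]
        rfl
      rw [e]
      exact D.galR_comm_heckeTl hc hm ℓ hℓ hℓS' g
    · exact absurd (by simpa using hNS q hq hqN) hqS
  | algebraMap r =>
    have e : (⟨algebraMap ℤ _ r, Subalgebra.algebraMap_mem _ r⟩ : heckeAlgebra N 2 (↑S : Set ℕ))
        = algebraMap ℤ _ r := rfl
    rw [e, eq_intCast (algebraMap ℤ (heckeAlgebra N 2 (↑S : Set ℕ))) r, map_intCast]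
    exact Int.commute_cast _ r
  | add x y hx hy ihx ihy =>
    have e : (⟨x + y, Subalgebra.add_mem _ hx hy⟩ : heckeAlgebra N 2 (↑S : Set ℕ))
        = ⟨x, hx⟩ + ⟨y, hy⟩ := rfl
    rw [e, map_add]
    exact ihx.add_right ihy
  | mul x y hx hy ihx ihy =>
    have e : (⟨x * y, Subalgebra.mul_mem _ hx hy⟩ : heckeAlgebra N 2 (↑S : Set ℕ))
        = ⟨x, hx⟩ * ⟨y, hy⟩ := rfl
    rw [e, map_mul]
    exact ihx.mul_right ihy

/-- `𝔪`-adic continuity in the sense of the prelude, when `p ∈ 𝔪` -/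
theorem galR_isAdicContinuous {R : Type} [CommRing R] [IsLocalRing R]
    [IsAdicComplete (Ideal.span {(p : R)}) R] (hp : (p : R) ∈ IsLocalRing.maximalIdeal R) :
    GaloisActionIsAdicContinuous R (D.galR hc R) := by
  intro n
  obtain ⟨L, hL, h⟩ := D.galR_level hc (R := R) n
  refine ⟨L, hL, fun σ hσ v => ?_⟩
  obtain ⟨B, hB⟩ := mem_J_iff.mp (h σ hσ)
  have e : D.galR hc R σ v - v = (p : R) ^ n • B v := by
    have := LinearMap.congr_fun hB v
    simpa using this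
  rw [e]
  exact Submodule.smul_mem_smul (Ideal.pow_mem_pow hp n) Submodule.mem_top

end Lim

section Faithful

variable (R : Type*) [CommRing R]

/-- the Hecke action on the lattice as a `ℤ`-algebra homomorphism -/
def actAlg : heckeAlgebra N 2 (↑S : Set ℕ) →ₐ[ℤ] Module.End ℤ D.Λ := D.act.toIntAlgHom

theorem actAlg_apply (t : heckeAlgebra N 2 (↑S : Set ℕ)) : D.actAlg t = D.act t := rfl

/-- the action of `R ⊗ 𝕋` on `Y = R ⊗ Λ` -/
def heckeTensor :
    R ⊗[ℤ] heckeAlgebra N 2 (↑S : Set ℕ) →ₐ[R] Module.End R (R ⊗[ℤ] D.Λ) :=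
  tensorEndAlg R D.actAlg

theorem heckeTensor_tmul (r : R) (t : heckeAlgebra N 2 (↑S : Set ℕ)) :
    D.heckeTensor R (r ⊗ₜ t) = r • D.heckeR R t :=
  tensorEndAlg_tmul R D.actAlg r t

/-- **faithfulness**: `R ⊗ 𝕋 → End_R(R ⊗ Λ)` is injective for `ℤ`-flat `R` (e.g. a domain of
characteristic zero) -/
theorem heckeTensor_injective [Module.Flat ℤ R] : Function.Injective (D.heckeTensor R) := by
  have : Module.FinitePresentation ℤ D.Λ := Module.finitePresentation_of_finite ℤ D.Λ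
  exact tensorEndAlg_injective R D.actAlg D.act_injective

end Faithful

end KumLevelData

end Fermat.Agent.GJ.Tate
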