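/-
GATE-J / J4-TATE leaf BN (helper77): Brauer–Nesbitt with one side absolutely irreducible, in trace
form.  If `rV : G →* End k V` spans `End k V` (Burnside form of absolute irreducibility),
`rW : G →* End k W` has the same traces and `dim W ≤ dim V`, then `rW ≅ rV`.
Valid in every characteristic and every dimension.  Mathlib only.
-/
import Mathlib

set_option autoImplicit false

open Module

namespace Fermat.Agent.GJ.Tate.BN

variable {k : Type*} [Field k] {V W : Type*} [AddCommGroup V] [Module k V] [FiniteDimensional k V]
  [AddCommGroup W] [Module k W] [FiniteDimensional k W]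

/-- Nondegeneracy of the trace form on `End k V`. -/
theorem eq_zero_of_trace_mul_eq_zero (x : End k V)
    (h : ∀ y : End k V, LinearMap.trace k V (x * y) = 0) : x = 0 := by
  ext v
  rw [LinearMap.zero_apply, ← Module.forall_dual_apply_eq_zero_iff k]
  intro f
  have h1 := h (f.smulRight v)
  have h2 : x * f.smulRight v = f.smulRight (x v) := by
    ext w
    simp [Module.End.mul_apply]
  rw [h2, LinearMap.trace_smulRight] at h1
  exact h1

variable {G : Type*} [Monoid G]

/-- The subalgebra of `End k V × End k W` spanned by the pairs `(rV g, rW g)`. -/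
def pairAlg (rV : G →* End k V) (rW : G →* End k W) : Subalgebra k (End k V × End k W) :=
  Algebra.adjoin k (Set.range (rV.prod rW))

omit [FiniteDimensional k V] [FiniteDimensional k W] in
theorem pairAlg_toSubmodule (rV : G →* End k V) (rW : G →* End k W) :
    (pairAlg rV rW).toSubmodule = Submodule.span k (Set.range (rV.prod rW)) := by
  unfold pairAlg
  rw [Algebra.adjoin_eq_span]
  congr 1
  have : Submonoid.closure (Set.range (rV.prod rW)) = MonoidHom.mrange (rV.prod rW) := by
    rw [← MonoidHom.coe_mrange, Submonoid.closure_eq]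
  rw [this, MonoidHom.coe_mrange]

omit [FiniteDimensional k V] [FiniteDimensional k W] in
theorem mem_pairAlg (rV : G →* End k V) (rW : G →* End k W) (g : G) :
    (rV g, rW g) ∈ pairAlg rV rW :=
  Algebra.subset_adjoin ⟨g, rfl⟩

omit [FiniteDimensional k V] [FiniteDimensional k W] in
/-- Traces of the two components agree on `pairAlg`. -/
theorem trace_fst_eq_trace_snd (rV : G →* End k V) (rW : G →* End k W)
    (htr : ∀ g, LinearMap.trace k W (rW g) = LinearMap.trace k V (rV g))
    {c : End k V × End k W} (hc : c ∈ pairAlg rV rW) :
    LinearMap.trace k V c.1 = LinearMap.trace k W c.2 := by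
  have key : ∀ c ∈ Submodule.span k (Set.range (rV.prod rW)),
      LinearMap.trace k V c.1 = LinearMap.trace k W c.2 := by
    intro c hc'
    induction hc' using Submodule.span_induction with
    | mem x hx =>
      obtain ⟨g, rfl⟩ := hx
      exact (htr g).symm
    | zero => simp
    | add x y _ _ hx hy =>
      simp only [Prod.fst_add, Prod.snd_add, map_add]
      rw [hx, hy]
    | smul a x _ hx =>
      simp only [Prod.smul_fst, Prod.smul_snd, map_smul]
      rw [hx]
  apply key
  rw [← pairAlg_toSubmodule]
  exact hc

/-- **Brauer–Nesbitt, one side absolutely irreducible, trace form.** -/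
theorem exists_linearEquiv_of_trace_eq (rV : G →* End k V) (rW : G →* End k W)
    (hspan : Submodule.span k (Set.range rV) = ⊤)
    (hdim : Module.finrank k W ≤ Module.finrank k V)
    (htr : ∀ g, LinearMap.trace k W (rW g) = LinearMap.trace k V (rV g)) :
    ∃ T : V ≃ₗ[k] W, ∀ g, rW g = T.toLinearMap ∘ₗ rV g ∘ₗ T.symm.toLinearMap := by
  set C := pairAlg rV rW with hC
  -- the two projections
  let p1 : C →ₐ[k] End k V := (AlgHom.fst k (End k V) (End k W)).comp C.val
  let p2 : C →ₐ[k] End k W := (AlgHom.snd k (End k V) (End k W)).comp C.val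
  have hp1 : ∀ c : C, p1 c = (c : End k V × End k W).1 := fun _ => rfl
  have hp2 : ∀ c : C, p2 c = (c : End k V × End k W).2 := fun _ => rfl
  -- `p1` is surjective
  have hsurj1 : Function.Surjective p1 := by
    have hr : LinearMap.range p1.toLinearMap = ⊤ := by
      rw [eq_top_iff, ← hspan, Submodule.span_le]
      rintro _ ⟨g, rfl⟩
      exact ⟨⟨(rV g, rW g), mem_pairAlg rV rW g⟩, rfl⟩
    exact LinearMap.range_eq_top.mp hr
  -- `ker p2 ≤ ker p1`
  have hker : ∀ c : C, p2 c = 0 → p1 c = 0 := by
    intro c hc
    apply eq_zero_of_trace_mul_eq_zero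
    intro y
    obtain ⟨c', rfl⟩ := hsurj1 y
    rw [← map_mul, hp1]
    rw [trace_fst_eq_trace_snd rV rW htr (c * c').2, ← hp2, map_mul, hc, zero_mul, map_zero]
  -- `p2` is injective
  have hinj2 : Function.Injective p2 := by
    rw [injective_iff_map_eq_zero]
    intro c hc
    have h1 := hker c hc
    apply Subtype.ext
    exact Prod.ext (by rw [← hp1, h1]; rfl) (by rw [← hp2, hc]; rfl)
  -- dimension count
  have hfinC : FiniteDimensional k C := inferInstance
  have hd1 : Module.finrank k (End k V) ≤ Module.finrank k C :=
    LinearMap.finrank_le_finrank_of_surjective (f := p1.toLinearMap) hsurj1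
  have hd2 : Module.finrank k C ≤ Module.finrank k (End k W) :=
    LinearMap.finrank_le_finrank_of_injective (f := p2.toLinearMap) hinj2
  have hEV : Module.finrank k (End k V) = Module.finrank k V * Module.finrank k V :=
    Module.finrank_linearMap k k V V
  have hEW : Module.finrank k (End k W) = Module.finrank k W * Module.finrank k W :=
    Module.finrank_linearMap k k W W
  have hsq : Module.finrank k W * Module.finrank k W ≤ Module.finrank k V * Module.finrank k V :=
    Nat.mul_le_mul hdim hdim
  have hdC1 : Module.finrank k C = Module.finrank k (End k V) := by omega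
  have hdC2 : Module.finrank k C = Module.finrank k (End k W) := by omega
  -- both projections are bijective
  have hinj1 : Function.Injective p1 :=
    (LinearMap.injective_iff_surjective_of_finrank_eq_finrank (f := p1.toLinearMap) hdC1).mpr hsurj1
  have hsurj2 : Function.Surjective p2 :=
    (LinearMap.injective_iff_surjective_of_finrank_eq_finrank (f := p2.toLinearMap) hdC2).mp hinj2
  let e1 : C ≃ₐ[k] End k V := AlgEquiv.ofBijective p1 ⟨hinj1, hsurj1⟩
  let e2 : C ≃ₐ[k] End k W := AlgEquiv.ofBijective p2 ⟨hinj2, hsurj2⟩
  obtain ⟨T, hT⟩ := AlgEquiv.eq_linearEquivConjAlgEquiv (e1.symm.trans e2)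
  refine ⟨T, fun g => ?_⟩
  have h1 : e1 ⟨(rV g, rW g), mem_pairAlg rV rW g⟩ = rV g := rfl
  have h2 : e2 ⟨(rV g, rW g), mem_pairAlg rV rW g⟩ = rW g := rfl
  have h3 : (e1.symm.trans e2) (rV g) = rW g := by
    rw [← h1, AlgEquiv.trans_apply, AlgEquiv.symm_apply_apply, h2]
  rw [hT, LinearEquiv.conjAlgEquiv_apply] at h3
  exact h3.symm

omit [FiniteDimensional k V] [FiniteDimensional k W] in
/-- The conclusion of `exists_linearEquiv_of_trace_eq` transports the spanning property. -/
theorem span_eq_top_of_conj (rV : G →* End k V) (rW : G →* End k W)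
    (hspan : Submodule.span k (Set.range rV) = ⊤) (T : V ≃ₗ[k] W)
    (hT : ∀ g, rW g = T.toLinearMap ∘ₗ rV g ∘ₗ T.symm.toLinearMap) :
    Submodule.span k (Set.range rW) = ⊤ := by
  have himg : Set.range rW = (T.conjAlgEquiv k) '' Set.range rV := by
    ext x
    constructor
    · rintro ⟨g, rfl⟩
      exact ⟨rV g, ⟨g, rfl⟩, (hT g).symm⟩
    · rintro ⟨_, ⟨g, rfl⟩, rfl⟩
      exact ⟨g, hT g⟩
  have h1 : Submodule.span k (Set.range rW) =
      (Submodule.span k (Set.range rV)).map (T.conjAlgEquiv k).toLinearMap := by
    rw [Submodule.map_span, himg]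
    rfl
  rw [h1, hspan, Submodule.map_top, LinearMap.range_eq_top]
  exact (T.conjAlgEquiv k).surjective

omit [FiniteDimensional k W] in
/-- A spanning family of pairwise commuting endomorphisms only exists in dimension at most one. -/
theorem finrank_le_one_of_commute (rV : G →* End k V)
    (hspan : Submodule.span k (Set.range rV) = ⊤)
    (hcomm : ∀ g h, Commute (rV g) (rV h)) : Module.finrank k V ≤ 1 := by
  -- every endomorphism commutes with every `rV g`
  have h1 : ∀ x : End k V, ∀ g, Commute x (rV g) := by
    intro x g
    have hx : x ∈ Submodule.span k (Set.range rV) := by rw [hspan]; trivial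
    induction hx using Submodule.span_induction with
    | mem y hy =>
      obtain ⟨h, rfl⟩ := hy
      exact hcomm h g
    | zero => exact Commute.zero_left _
    | add y z _ _ hy hz => exact hy.add_left hz
    | smul a y _ hy => exact hy.smul_left a
  -- hence everything is central
  have h2 : ∀ x y : End k V, Commute x y := by
    intro x y
    have hy : y ∈ Submodule.span k (Set.range rV) := by rw [hspan]; trivial
    induction hy using Submodule.span_induction with
    | mem z hz =>
      obtain ⟨h, rfl⟩ := hz
      exact h1 x h
    | zero => exact Commute.zero_right _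
    | add y z _ _ hy hz => exact hy.add_right hz
    | smul a y _ hy => exact hy.smul_right a
  have hcenter : Subalgebra.center k (End k V) = ⊤ := by
    rw [eq_top_iff]
    intro x _
    rw [Subalgebra.mem_center_iff]
    intro y
    exact (h2 y x).eq
  have hbot : (⊤ : Subalgebra k (End k V)) = ⊥ := by
    rw [← hcenter]
    exact Algebra.IsCentral.center_eq_bot k (End k V)
  have hfr : Module.finrank k (End k V) ≤ 1 := by
    refine finrank_le_one (1 : End k V) fun x => ?_
    have hx : x ∈ (⊥ : Subalgebra k (End k V)) := by
      rw [← hbot]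
      trivial
    obtain ⟨c, hc⟩ := Algebra.mem_bot.mp hx
    exact ⟨c, by rw [← hc, Algebra.algebraMap_eq_smul_one]⟩
  rw [Module.finrank_linearMap k k V V] at hfr
  nlinarith

/-- An absolutely irreducible (Burnside form) two-dimensional representation does not have the
trace of a sum of two characters. -/
theorem false_of_trace_eq_add (rV : G →* End k V)
    (hspan : Submodule.span k (Set.range rV) = ⊤) (h2 : Module.finrank k V = 2)
    (ψ₁ ψ₂ : G →* k) (htr : ∀ g, LinearMap.trace k V (rV g) = ψ₁ g + ψ₂ g) : False := by
  -- the diagonal representation on `k × k`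
  let rW : G →* End k (k × k) :=
    { toFun := fun g => LinearMap.prodMap (ψ₁ g • LinearMap.id) (ψ₂ g • LinearMap.id)
      map_one' := by
        ext <;> simp
      map_mul' := fun g h => by
        ext <;> simp [mul_comm] }
  have hrW : ∀ g, rW g = LinearMap.prodMap (ψ₁ g • LinearMap.id) (ψ₂ g • LinearMap.id) :=
    fun _ => rfl
  have htrW : ∀ g, LinearMap.trace k (k × k) (rW g) = LinearMap.trace k V (rV g) := by
    intro g
    rw [hrW, LinearMap.trace_prodMap', htr g]
    simp
  have hdim : Module.finrank k (k × k) ≤ Module.finrank k V := by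
    rw [h2, Module.finrank_prod, Module.finrank_self]
  obtain ⟨T, hT⟩ := exists_linearEquiv_of_trace_eq rV rW hspan hdim htrW
  have hspanW := span_eq_top_of_conj rV rW hspan T hT
  have hcommW : ∀ g h, Commute (rW g) (rW h) := by
    intro g h
    rw [Commute, SemiconjBy]
    ext <;> simp [hrW, mul_comm]
  have := finrank_le_one_of_commute rW hspanW hcommW
  rw [Module.finrank_prod, Module.finrank_self] at this
  omega

end Fermat.Agent.GJ.Tate.BN
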