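import Fermat.Agent.GJ.J2.Tower.Theta
import Fermat.Agent.GJ.J2.LatMod
import Fermat.Agent.GJ.J2.LatAct
import Fermat.Agent.GJ.J4.KumOfGatesM
import Fermat.Agent.GJ.HN.HN1Q
import Fermat.Agent.GJ.Tate.TowerOfKumModels
import Fermat.Agent.GJ.Tate.S31Top

/-!
# GATE-J / J4-TATE (helper23): the concrete tower `Λ = Lam N → Kum_{pⁿ}(F_N)`

Input (hypothesis form): `ThetaQAll N` — helper63's `ThetaHyp Kb N m (realQ N) ζ` for every modulus
`m` and every primitive `m`-th root of unity `ζ` (= `thetaHypQ`), and `K18sGateM` (J1).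

* `Theta H hζ : Lam N →+ Additive (Kum Kb (FK N) m)` : `theta ∘ (parFin = GoodHom) ∘ redP`;
  `Theta_surjective`, `Theta_eq_zero`, `Theta_hecke` (relational Hecke equivariance, `heckeNormSeries`
  form), `Theta_proj` (naturality in the modulus), `gal_kumProj`;
* `towerGate` : helper53's `S31Top.TowerGate N S p` (⟹ S31);
* `s30_of_gates` : the frozen S30 from `K18sGateM` and `ThetaQAll N`.
-/

set_option autoImplicit false
set_option linter.unusedSectionVars false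

noncomputable section

namespace Fermat.Agent.GJ.Tate.Concrete

open CongruenceSubgroup CuspForm
open Fermat.Agent.GJ.KumTower Fermat.Agent.GJ.KumGroup Fermat.Agent.GJ.EigAsm
open Fermat.Agent.GJ.J2.LatMod Fermat.Agent.GJ.J2.Lat Fermat.Agent.GJ.J2.LatAct
open Fermat.Agent.GJ.Kum.KumType Fermat.Agent.GJ.S29Final
open Fermat.Agent.S16_helper49 (cohT cohGen cohGen_of_not_dvd)

variable (N : ℕ) [NeZero N]

/-- helper63's `ThetaHyp` over `ℚ̄` at every modulus (`= thetaHypQ`) -/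
def ThetaQAll : Prop :=
  ∀ (m : ℕ) [NeZero m] (ζ : ℂ), IsPrimitiveRoot ζ m → ThetaHyp Kb N m (realQ N) ζ

section Level

variable (m : ℕ)

/-- `parFin N m` and `GoodHom N m` have the same carrier -/
def toGood : parFin N m →+ GoodHom N m where
  toFun φ := ⟨φ.1, φ.2⟩
  map_zero' := rfl
  map_add' _ _ := rfl

@[simp] theorem coe_toGood (φ : parFin N m) :
    ((toGood N m φ : GoodHom N m) : Additive (Gamma0 N) →+ ZMod m) = φ.1 := rfl

theorem toGood_bijective : Function.Bijective (toGood N m) :=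
  ⟨fun _ _ h => Subtype.ext (congrArg Subtype.val h), fun ψ => ⟨⟨ψ.1, ψ.2⟩, rfl⟩⟩

variable {N m} [NeZero m] {ζ : ℂ}

/-- the comparison map `Λ → Kum_m(F_N)` -/
def Theta (H : ThetaHyp Kb N m (realQ N) ζ) (hζ : IsPrimitiveRoot ζ m) :
    Lam N →+ Additive (Kum Kb (FK N) m) :=
  (theta H hζ).toAddMonoidHom.comp ((toGood N m).comp (redP N m))

theorem Theta_apply (H : ThetaHyp Kb N m (realQ N) ζ) (hζ : IsPrimitiveRoot ζ m) (x : Lam N) :
    Theta H hζ x = theta H hζ (toGood N m (redP N m x)) := rfl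

theorem Theta_surjective (H : ThetaHyp Kb N m (realQ N) ζ) (hζ : IsPrimitiveRoot ζ m) :
    Function.Surjective (Theta H hζ) :=
  (theta H hζ).surjective.comp ((toGood_bijective N m).surjective.comp (redP_surjective N m))

theorem Theta_eq_zero (H : ThetaHyp Kb N m (realQ N) ζ) (hζ : IsPrimitiveRoot ζ m) (x : Lam N)
    (h : Theta H hζ x = 0) : ∃ y : Lam N, x = m • y := by
  rw [Theta_apply, (theta H hζ).map_eq_zero_iff] at h
  have h1 : redP N m x = 0 := (toGood_bijective N m).injective (by rw [h, map_zero])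
  exact (mem_ker_redP N m x).mp h1

/-- `redP` intertwines `latT` with `cohTGood` (for `ℓ ∤ N`) -/
theorem toGood_redP_latT {ℓ : ℕ} [hF : Fact ℓ.Prime] (hℓN : ¬ ℓ ∣ N) (x : Lam N) :
    toGood N m (redP N m (latT N (⟨ℓ, hF.out⟩ : Nat.Primes) x)) =
      cohTGood hℓN (toGood N m (redP N m x)) := by
  apply Subtype.ext
  have h := redP_latT N m (⟨ℓ, hF.out⟩ : Nat.Primes) x
  rw [cohGen_of_not_dvd N (ZMod m) (⟨ℓ, hF.out⟩ : Nat.Primes) hℓN] at h
  exact h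

/-- **relational Hecke equivariance**: if `Θ x = [u]` and the `q`-series of `u'` is the Hecke norm
of the `q`-series of `u`, then `Θ (T_ℓ x) = [u']`. -/
theorem Theta_hecke (H : ThetaHyp Kb N m (realQ N) ζ) (hζ : IsPrimitiveRoot ζ m)
    {ℓ : ℕ} (hℓ : ℓ.Prime) (hℓN : ¬ ℓ ∣ N) (x : Lam N) (u u' : pDivUnits Kb (FK N) m)
    (hx : Theta H hζ x = Additive.ofMul (Kum.mk u))
    (hu' : ((((u' : pDivUnits Kb (FK N) m) : (FK N)ˣ) : FK N) : LaurentSeries Kb) =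
      @heckeNormSeries Kb _ ℓ ⟨hℓ.ne_zero⟩
        ((((u : pDivUnits Kb (FK N) m) : (FK N)ˣ) : FK N) : LaurentSeries Kb)) :
    Theta H hζ (latT N (⟨ℓ, hℓ⟩ : Nat.Primes) x) = Additive.ofMul (Kum.mk u') := by
  have hF : Fact ℓ.Prime := ⟨hℓ⟩
  obtain ⟨Tu, hTs, hTr⟩ := Fermat.Agent.GJ.HN.hn1Q N ℓ hℓN (((u : (FK N)ˣ) : FK N))
    (u : (FK N)ˣ).ne_zero
  obtain ⟨Tu', hTu', hθ⟩ := theta_cohT H hζ (toGood N m (redP N m x)) hℓN u hx Tu hTr
  rw [Theta_apply, toGood_redP_latT (hF := hF) hℓN x, hθ]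
  congr 2
  apply Subtype.ext
  apply Units.ext
  apply Subtype.ext
  rw [hu', hTu', hTs]

end Level

/-! ### naturality in the modulus -/

section Nat

variable {N} {d m : ℕ} [NeZero d] [NeZero m] {ζ ζ' : ℂ}

theorem redGood_toGood_redP (hdm : d ∣ m) (x : Lam N) :
    redGood hdm (toGood N m (redP N m x)) = toGood N d (redP N d x) := by
  apply Subtype.ext
  exact castHom_comp_redP N m hdm x

/-- **(T2)** for `Theta` -/
theorem Theta_proj (hdm : d ∣ m) (Hm : ThetaHyp Kb N m (realQ N) ζ)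
    (Hd : ThetaHyp Kb N d (realQ N) ζ') (hζ : IsPrimitiveRoot ζ m) (hζ' : IsPrimitiveRoot ζ' d)
    (e : ζ ^ (m / d) = ζ') (x : Lam N) :
    Additive.ofMul (kumProj hdm (Additive.toMul (Theta Hm hζ x))) = Theta Hd hζ' x := by
  subst e
  rw [Theta_apply, Theta_apply, theta_proj hdm Hm Hd hζ hζ', redGood_toGood_redP]

/-- the Galois action commutes with the projections `Kum_m → Kum_d` -/
theorem gal_kumProj (hdm : d ∣ m) (σ : AlgebraicClosure ℚ ≃ₐ[ℚ] AlgebraicClosure ℚ)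
    (k : Additive (Kum Kb (FK N) m)) :
    Additive.ofMul (kumProj hdm (Additive.toMul (gal N m σ k))) =
      gal N d σ (Additive.ofMul (kumProj hdm (Additive.toMul k))) := by
  obtain ⟨u, rfl⟩ := exists_rep (K := Kb) (F := FK N) (p := m) k
  rfl

end Nat

/-! ### the compatible system of roots of unity -/

section Roots

/-- `exp (2πi / pⁿ)` -/
def zetaP (p n : ℕ) : ℂ := Complex.exp (2 * Real.pi * Complex.I / ((p ^ n : ℕ) : ℂ))

theorem isPrimitiveRoot_zetaP {p : ℕ} (hp : p ≠ 0) (n : ℕ) :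
    IsPrimitiveRoot (zetaP p n) (p ^ n) :=
  Complex.isPrimitiveRoot_exp (p ^ n) (pow_ne_zero n hp)

theorem zetaP_pow {p : ℕ} (hp : p ≠ 0) (n : ℕ) :
    zetaP p (n + 1) ^ (p ^ (n + 1) / p ^ n) = zetaP p n := by
  have h1 : p ^ (n + 1) / p ^ n = p := by
    rw [pow_succ, Nat.mul_div_cancel_left _ (Nat.pos_of_ne_zero (pow_ne_zero n hp))]
  rw [h1, zetaP, zetaP, ← Complex.exp_nat_mul]
  congr 1
  have hp' : (p : ℂ) ≠ 0 := Nat.cast_ne_zero.mpr hp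
  have hpn : ((p ^ n : ℕ) : ℂ) ≠ 0 := Nat.cast_ne_zero.mpr (pow_ne_zero n hp)
  push_cast
  field_simp
  ring

end Roots

/-! ### the two gates -/

section Gates

variable {N}

/-- Hecke equivariance of `Theta` against the Hecke operator of the Kummer model -/
theorem Theta_T (hK : K18sGateM) {m : ℕ} [NeZero m] (hm : 0 < m) {ζ : ℂ}
    (H : ThetaHyp Kb N m (realQ N) ζ) (hζ : IsPrimitiveRoot ζ m) {ℓ : ℕ} (hℓ : ℓ.Prime)
    (hℓN : ¬ ℓ ∣ N) (x : Lam N) :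
    Theta H hζ (latT N (⟨ℓ, hℓ⟩ : Nat.Primes) x) = (kumModelM hK N m hm).T ℓ (Theta H hζ x) := by
  obtain ⟨u, hu⟩ := exists_rep (K := Kb) (F := FK N) (p := m) (Theta H hζ x)
  have hF : Fact ℓ.Prime := ⟨hℓ⟩
  obtain ⟨Tu, hTs, hTr⟩ := Fermat.Agent.GJ.HN.hn1Q N ℓ hℓN (((u : (FK N)ˣ) : FK N))
    (u : (FK N)ˣ).ne_zero
  obtain ⟨Tu', hTu', -⟩ := theta_cohT H hζ (toGood N m (redP N m x)) hℓN u hu Tu hTr
  have hser : ((((Tu' : pDivUnits Kb (FK N) m) : (FK N)ˣ) : FK N) : LaurentSeries Kb) =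
      @heckeNormSeries Kb _ ℓ ⟨hℓ.ne_zero⟩
        ((((u : pDivUnits Kb (FK N) m) : (FK N)ˣ) : FK N) : LaurentSeries Kb) := by
    rw [hTu', hTs]
  have h1 := Theta_hecke H hζ hℓ hℓN x u Tu' hu hser
  have h2 := kumModelM_T_cls_of_eq hK N m hm hℓ hℓN u Tu' hser
  have h3 : (kumModelM hK N m hm).T ℓ (Theta H hζ x) =
      (kumModelM hK N m hm).T ℓ (Additive.ofMul (Kum.mk u)) :=
    congrArg (fun k => (kumModelM hK N m hm).T ℓ k) hu
  exact h1.trans (h2.symm.trans h3.symm)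

/-- **helper53's `TowerGate`** (⟹ S31) from `thetaHypQ` -/
theorem towerGate (hT : ThetaQAll N) (S : Finset ℕ) (p : ℕ) (hp : p.Prime) :
    S31Top.TowerGate N S p := by
  have : NeZero p := ⟨hp.ne_zero⟩
  refine ⟨Lam N, inferInstance, inferInstance, inferInstance, latAct N (↑S : Set ℕ),
    latAct_injective N (↑S : Set ℕ), fun n => ?_⟩
  have hζ := isPrimitiveRoot_zetaP hp.ne_zero n
  refine ⟨Theta (hT (p ^ n) (zetaP p n) hζ) hζ, Theta_surjective _ hζ, Theta_eq_zero _ hζ, ?_⟩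
  intro ℓ hℓ hℓN hℓS x u u' hx hu'
  rw [latAct_T N (↑S : Set ℕ) hℓ hℓN hℓS]
  exact Theta_hecke _ hζ hℓ hℓN x u u' hx hu'

open Polynomial in
/-- **the frozen S30** from J1's general-modulus gate and `thetaHypQ` -/
theorem s30_of_gates (hK : K18sGateM) (hT : ThetaQAll N) (p : ℕ) [Fact p.Prime] (S : Finset ℕ)
    (hpS : p ∈ S) (hNS : ∀ q : ℕ, q.Prime → q ∣ N → q ∈ S)
    (𝒪' : Type) [CommRing 𝒪'] [IsDomain 𝒪'] [IsDiscreteValuationRing 𝒪']
    [IsAdicComplete (IsLocalRing.maximalIdeal 𝒪') 𝒪'] [Finite (IsLocalRing.ResidueField 𝒪')]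
    [CharZero 𝒪'] (hp𝒪' : (p : 𝒪') ∈ IsLocalRing.maximalIdeal 𝒪')
    (χ : CuspForm.heckeAlgebra N 2 (↑S : Set ℕ) →+* 𝒪') :
    ∃ (𝒪'' : Type) (_ : CommRing 𝒪'') (_ : IsDomain 𝒪'') (_ : IsDiscreteValuationRing 𝒪'')
      (_ : IsAdicComplete (IsLocalRing.maximalIdeal 𝒪'') 𝒪'')
      (_ : Finite (IsLocalRing.ResidueField 𝒪'')) (_ : CharZero 𝒪'')
      (_ : Algebra 𝒪' 𝒪'') (_ : Module.Finite 𝒪' 𝒪'') (_ : IsLocalHom (algebraMap 𝒪' 𝒪'')),
    Function.Injective (algebraMap 𝒪' 𝒪'') ∧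
    ∃ ρ : GaloisRepAdic 𝒪'',
      (∀ (ℓ : ℕ) (hℓ : ℓ.Prime) (hℓN : ¬ ℓ ∣ N) (hℓS : ℓ ∉ (↑S : Set ℕ)),
        ∀ A : ValuationSubring (AlgebraicClosure ℚ), A.LiesOverPrime ℓ →
          ∀ σ : AlgebraicClosure ℚ ≃ₐ[ℚ] AlgebraicClosure ℚ, A.IsFrobeniusAt σ ℓ →
            LinearMap.charpoly (ρ.ρ σ) =
              X ^ 2 - C (algebraMap 𝒪' 𝒪'' (χ (CuspForm.heckeAlgebra.T hℓ hℓN hℓS))) * X
                + C ((ℓ : 𝒪''))) ∧
      (∀ q : ℕ, q.Prime → ¬ q ∣ N → q ≠ p → ρ.IsUnramifiedAt q) := by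
  have hp : p.Prime := Fact.out
  have hp0 : p ≠ 0 := hp.ne_zero
  have : NeZero p := ⟨hp0⟩
  have hpos : ∀ n : ℕ, 0 < p ^ n := fun n => pow_pos hp.pos n
  have hζ := isPrimitiveRoot_zetaP hp0
  let H : ∀ n, ThetaHyp Kb N (p ^ n) (realQ N) (zetaP p n) := fun n => hT (p ^ n) (zetaP p n) (hζ n)
  refine OfTower.s30_of_kumModels p N S hpS hNS 𝒪' hp𝒪' χ (Lam N) (latAct N (↑S : Set ℕ))
    (latAct_injective N (↑S : Set ℕ)) (fun n => kumModelM hK N (p ^ n) (hpos n))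
    (fun n => Theta (H n) (hζ n)) (fun n => Theta_surjective (H n) (hζ n))
    (fun n x hx => Theta_eq_zero (H n) (hζ n) x hx) ?_ ?_
  · -- compatibility in `n`
    intro n g x y h
    have hdm : p ^ n ∣ p ^ (n + 1) := pow_dvd_pow p (Nat.le_succ n)
    have h' : gal N (p ^ (n + 1)) g (Theta (H (n + 1)) (hζ (n + 1)) x)
        = Theta (H (n + 1)) (hζ (n + 1)) y := h
    show gal N (p ^ n) g (Theta (H n) (hζ n) x) = Theta (H n) (hζ n) y
    rw [← Theta_proj hdm (H (n + 1)) (H n) (hζ (n + 1)) (hζ n) (zetaP_pow hp0 n) x,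
      ← gal_kumProj hdm g, h',
      Theta_proj hdm (H (n + 1)) (H n) (hζ (n + 1)) (hζ n) (zetaP_pow hp0 n) y]
  · -- Hecke equivariance
    intro n ℓ hℓ hℓS x
    have hℓN : ¬ ℓ ∣ N := fun h => hℓS (hNS ℓ hℓ h)
    have hℓS' : ℓ ∉ (↑S : Set ℕ) := by simpa using hℓS
    rw [heckeTl_eq hℓ hℓN hℓS', latAct_T N (↑S : Set ℕ) hℓ hℓN hℓS']
    exact Theta_T hK (hpos n) (H n) (hζ n) hℓ hℓN x

/-- J1's gate in helper53's binder order -/
theorem k18sPow_of_gateM (hK : K18sGateM) : S31Top.K18sPow :=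
  fun N _ m ℓ hm hℓ hℓNm A hA => hK N m hm ℓ hℓ hℓNm A hA

section S31

variable {p : ℕ} {S : Finset ℕ}
  {𝒪 : Type} [CommRing 𝒪] [IsDomain 𝒪] [IsDiscreteValuationRing 𝒪]
  [IsAdicComplete (IsLocalRing.maximalIdeal 𝒪) 𝒪]
  {θ : CuspForm.heckeAlgebra N 2 (↑S : Set ℕ) →+* IsLocalRing.ResidueField 𝒪}
  {T : Type} [CommRing T] [IsLocalRing T] [IsNoetherianRing T]
  [IsAdicComplete (IsLocalRing.maximalIdeal T) T] [Algebra 𝒪 T] [IsLocalHom (algebraMap 𝒪 T)]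
  [Module.Finite 𝒪 T] [Module.Free 𝒪 T]

/-- **the frozen S31** from J1's general-modulus gate and `thetaHypQ` -/
theorem s31_of_gates (hK : K18sGateM) (hT : ThetaQAll N) (hp : p.Prime)
    (hp𝒪 : (p : 𝒪) ∈ IsLocalRing.maximalIdeal 𝒪) (hpS : p ∈ S)
    (hNS : ∀ q : ℕ, q.Prime → q ∣ N → q ∈ S)
    (H : CuspForm.HeckeGaloisRepDatum N (↑S : Set ℕ) 𝒪 θ T)
    (q : ℕ) (hq : q.Prime) (hqS : q ∉ S) :
    H.ρ.IsUnramifiedAt q :=
  S31Top.s31_of_gates (k18sPow_of_gateM hK) (towerGate hT S p hp) hp hp𝒪 hpS hNS H q hq hqS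

end S31

end Gates

end Fermat.Agent.GJ.Tate.Concrete
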