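/-
GATE-J / J4-TATE (helper53): J1's Layer-C export `K18sAux` gives the general-exponent gate
`S31Top.K18sPow` consumed by `S31Top.s31_of_gates` and `S30Top.s30_of_gates`.
-/
import Fermat.Agent.GJ.Tate.S31Top
import Fermat.Agent.GJ.J1.K18sAllOfAux

set_option autoImplicit false

namespace Fermat.Agent.GJ.Tate.S31Top

open Fermat.Agent.GJ.J1.K18sAllOfAux

/-- helper53's general-exponent gate from J1's export. -/
theorem k18sPow_of_aux (hK : K18sAux) : K18sPow :=
  fun N _ m _ _ hℓ hℓNm _ hA =>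
    k18s_of_aux hK hℓ hA N (fun h => hℓNm (Dvd.dvd.mul_right h m)) m
      (fun h => hℓNm (Dvd.dvd.mul_left h N))

/-- equivalently, from helper42's general-modulus gate. -/
theorem k18sPow_of_gateM (hK : Fermat.Agent.GJ.S29Final.K18sGateM) : K18sPow :=
  fun N _ m ℓ hm hℓ hℓNm A hA => hK N m hm ℓ hℓ hℓNm A hA

end Fermat.Agent.GJ.Tate.S31Top
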