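/-
GATE-J / J4-TATE, brick S31-BRIDGE (helper53).

* `exists_faith_shift` (Artin–Rees): a commutative ring acting faithfully on a finite free
  `ℤ`-module `Λ` acts "uniformly faithfully" on the quotients `Λ / p ^ n Λ`.
* `KumLevelData N S p`: the natural output of the Kummer-model bricks (J2 + J3) at the moduli
  `p ^ n`: a lattice `Λ` with a faithful Hecke action, and for every `n` a group `K n`
  (`Kum_{p^n}(F_N)`) with Galois action, Hecke operators, and `Θ n : Λ → K n` onto with kernel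
  `p ^ n Λ`, Hecke-equivariant; Eichler–Shimura relation, trivial inertia, pointwise finite level.
* `KumLevelData.tateLevels : KumLevelData N S p → TateLevels N S p`, hence
  `s31_of_kumLevelData` = frozen S31 + `KumLevelData`.
-/
import Fermat.Agent.GJ.Tate.S31Dens
import Fermat.Agent.GJ.FiniteLevel

set_option autoImplicit false

open Fermat.Agent.Common_helper32

namespace Fermat.Agent.GJ.Tate

section Faith

variable {Λ : Type*} [AddCommGroup Λ] [Module.Free ℤ Λ]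

/-- An endomorphism of a free `ℤ`-module with image in `m Λ` is divisible by `m`. -/
theorem end_mem_span_smul_top (f : Module.End ℤ Λ) (m : ℤ)
    (h : ∀ x : Λ, ∃ y : Λ, f x = m • y) :
    f ∈ (Ideal.span {m}) • (⊤ : Submodule ℤ (Module.End ℤ Λ)) := by
  classical
  let b := Module.Free.chooseBasis ℤ Λ
  choose y hy using fun i => h (b i)
  have hf : f = m • b.constr ℤ y := by
    apply b.ext
    intro i
    rw [LinearMap.smul_apply, Module.Basis.constr_basis, hy i]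
  rw [hf]
  exact Submodule.smul_mem_smul (Ideal.mem_span_singleton_self m) Submodule.mem_top

variable [Module.Finite ℤ Λ]

/-- **Uniform faithfulness** (Artin–Rees): if a commutative ring `𝕋` acts faithfully on a finite
free `ℤ`-module `Λ`, there is a shift `c` such that every `t` with `t Λ ⊆ p ^ (n + c) Λ` lies in
`p ^ n 𝕋`. -/
theorem exists_faith_shift {𝕋 : Type*} [CommRing 𝕋] (act : 𝕋 →+* Module.End ℤ Λ)
    (hinj : Function.Injective act) (p : ℕ) :
    ∃ c : ℕ, ∀ (n : ℕ) (t : 𝕋), (∀ x : Λ, ∃ y : Λ, act t x = (p ^ (n + c)) • y) →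
      ∃ t' : 𝕋, t = (p ^ n) • t' := by
  set I : Ideal ℤ := Ideal.span {(p : ℤ)} with hI
  set φ : 𝕋 →ₗ[ℤ] Module.End ℤ Λ := act.toAddMonoidHom.toIntLinearMap with hφ
  obtain ⟨k, hk⟩ := Ideal.exists_pow_inf_eq_pow_smul I (LinearMap.range φ)
  refine ⟨k, fun n t ht => ?_⟩
  have h1 : act t ∈ I ^ (n + k) • (⊤ : Submodule ℤ (Module.End ℤ Λ)) := by
    rw [hI, Ideal.span_singleton_pow]
    apply end_mem_span_smul_top
    intro x
    obtain ⟨y, hy⟩ := ht x
    refine ⟨y, ?_⟩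
    rw [hy, ← Nat.cast_pow, Nat.cast_smul_eq_nsmul]
  have h2 : act t ∈ LinearMap.range φ := ⟨t, rfl⟩
  have h3 : act t ∈ I ^ (n + k) • (⊤ : Submodule ℤ (Module.End ℤ Λ)) ⊓ LinearMap.range φ :=
    ⟨h1, h2⟩
  rw [hk (n + k) (Nat.le_add_left k n), Nat.add_sub_cancel] at h3
  have h4 : act t ∈ I ^ n • LinearMap.range φ := Submodule.smul_mono le_rfl inf_le_right h3
  rw [hI, Ideal.span_singleton_pow, Submodule.ideal_span_singleton_smul,
    Submodule.mem_smul_pointwise_iff_exists] at h4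
  obtain ⟨_, ⟨t', rfl⟩, ht'⟩ := h4
  refine ⟨t', hinj ?_⟩
  rw [← ht', map_nsmul, ← Nat.cast_pow, Nat.cast_smul_eq_nsmul]
  rfl

end Faith


section Bridge

open CuspForm FiniteLevel

/-- The output of the Kummer-model bricks at the moduli `p ^ n` (see the file header). -/
structure KumLevelData (N : ℕ) [NeZero N] (S : Finset ℕ) (p : ℕ) : Type 1 where
  /-- the lattice (integral parabolic cohomology) -/
  Λ : Type
  [instΛ : AddCommGroup Λ]
  [instFree : Module.Free ℤ Λ]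
  [instFinite : Module.Finite ℤ Λ]
  /-- the Hecke action on the lattice -/
  act : heckeAlgebra N 2 (↑S : Set ℕ) →+* Module.End ℤ Λ
  act_injective : Function.Injective act
  /-- the Kummer group of level `p ^ n` -/
  K : ℕ → Type
  [instK : ∀ n, AddCommGroup (K n)]
  /-- the Galois action -/
  gal : ∀ n, GQ →* AddMonoid.End (K n)
  /-- the Hecke operators on the Kummer groups (junk for bad `ℓ`) -/
  Tn : ∀ n, ℕ → AddMonoid.End (K n)
  /-- the comparison map -/
  Θ : ∀ n, Λ →+ K n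
  Θ_surjective : ∀ n, Function.Surjective (Θ n)
  Θ_eq_zero : ∀ n x, Θ n x = 0 → ∃ y, x = (p ^ n) • y
  Θ_pow_smul : ∀ n x, Θ n ((p ^ n) • x) = 0
  Θ_T : ∀ n (ℓ : ℕ), ℓ.Prime → ℓ ∉ S → ∀ x, Θ n (act (heckeTl N S ℓ) x) = Tn n ℓ (Θ n x)
  level : ∀ n (x : K n), HasLevel (fun σ => gal n σ x = x)
  unram : ∀ n (q : ℕ), q.Prime → q ∉ S → ∀ P : ValuationSubring Qb, P.LiesOverPrime q →
    ∀ σ ∈ P.inertiaSubgroupIn ℚ, gal n σ = 1
  frob : ∀ n (ℓ : ℕ), ℓ.Prime → ℓ ∉ S → ∀ A : ValuationSubring Qb, A.LiesOverPrime ℓ →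
    ∀ τ : GQ, A.IsFrobeniusAt τ ℓ →
      gal n τ * gal n τ - Tn n ℓ * gal n τ + (ℓ : AddMonoid.End (K n)) = 0

attribute [instance] KumLevelData.instΛ KumLevelData.instFree KumLevelData.instFinite
  KumLevelData.instK

namespace KumLevelData

variable {N : ℕ} [NeZero N] {S : Finset ℕ} {p : ℕ} (D : KumLevelData N S p)

/-- The endomorphism of `K n` induced by the Hecke operator `t`. -/
noncomputable def induced (n : ℕ) (t : heckeAlgebra N 2 (↑S : Set ℕ)) : AddMonoid.End (D.K n) :=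
  (D.Θ n).liftOfRightInverse (Function.surjInv (D.Θ_surjective n))
    (Function.rightInverse_surjInv (D.Θ_surjective n))
    ⟨(D.Θ n).comp (D.act t).toAddMonoidHom, by
      intro x hx
      obtain ⟨y, rfl⟩ := D.Θ_eq_zero n x ((AddMonoidHom.mem_ker).mp hx)
      rw [AddMonoidHom.mem_ker, AddMonoidHom.comp_apply, LinearMap.toAddMonoidHom_coe, map_nsmul]
      exact D.Θ_pow_smul n _⟩

theorem induced_Θ (n : ℕ) (t : heckeAlgebra N 2 (↑S : Set ℕ)) (x : D.Λ) :
    D.induced n t (D.Θ n x) = D.Θ n (D.act t x) :=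
  (D.Θ n).liftOfRightInverse_comp_apply _ _ _ x

/-- The Hecke action on `K n`. -/
noncomputable def heckeHom (n : ℕ) : heckeAlgebra N 2 (↑S : Set ℕ) →+* AddMonoid.End (D.K n) where
  toFun := D.induced n
  map_one' := by
    ext k
    obtain ⟨x, rfl⟩ := D.Θ_surjective n k
    rw [induced_Θ, map_one]
    rfl
  map_mul' t t' := by
    ext k
    obtain ⟨x, rfl⟩ := D.Θ_surjective n k
    show D.induced n (t * t') (D.Θ n x) = D.induced n t (D.induced n t' (D.Θ n x))
    rw [induced_Θ, induced_Θ, induced_Θ, map_mul]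
    rfl
  map_zero' := by
    ext k
    obtain ⟨x, rfl⟩ := D.Θ_surjective n k
    rw [induced_Θ, map_zero, LinearMap.zero_apply, map_zero]
    rfl
  map_add' t t' := by
    ext k
    obtain ⟨x, rfl⟩ := D.Θ_surjective n k
    show D.induced n (t + t') (D.Θ n x) = D.induced n t (D.Θ n x) + D.induced n t' (D.Θ n x)
    rw [induced_Θ, induced_Θ, induced_Θ, map_add, LinearMap.add_apply, map_add]

theorem heckeHom_Θ (n : ℕ) (t : heckeAlgebra N 2 (↑S : Set ℕ)) (x : D.Λ) :
    D.heckeHom n t (D.Θ n x) = D.Θ n (D.act t x) := D.induced_Θ n t x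

theorem heckeHom_heckeTl (n : ℕ) (ℓ : ℕ) (hℓ : ℓ.Prime) (hℓS : ℓ ∉ S) :
    D.heckeHom n (heckeTl N S ℓ) = D.Tn n ℓ := by
  ext k
  obtain ⟨x, rfl⟩ := D.Θ_surjective n k
  rw [heckeHom_Θ, D.Θ_T n ℓ hℓ hℓS]

theorem gal_level (n : ℕ) : GaloisFactorsThroughFiniteLevel (D.gal n) := by
  classical
  let b := Module.Free.chooseBasis ℤ D.Λ
  obtain ⟨E, hE, hfix⟩ := hasLevel_forall_finite
    (fun i σ => D.gal n σ (D.Θ n (b i)) = D.Θ n (b i)) fun i => D.level n _
  refine ⟨E, hE, fun σ hσ => ?_⟩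
  have h1 : ((D.gal n σ).comp (D.Θ n)).toIntLinearMap = (D.Θ n).toIntLinearMap := by
    apply b.ext
    intro i
    exact hfix σ hσ i
  ext k
  obtain ⟨x, rfl⟩ := D.Θ_surjective n k
  exact LinearMap.congr_fun h1 x

/-- **The bridge**: Kummer level data give the levelwise Tate data consumed by S31. -/
noncomputable def tateLevels : TateLevels N S p where
  E n := AddMonoid.End (D.K n)
  hecke := D.heckeHom
  gal := D.gal
  tors n := by
    ext k
    obtain ⟨x, rfl⟩ := D.Θ_surjective n k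
    rw [AddMonoid.End.natCast_apply, ← map_nsmul, D.Θ_pow_smul]
    rfl
  level := D.gal_level
  unram := D.unram
  es n ℓ hℓ hℓS A hA τ hτ := by
    rw [D.heckeHom_heckeTl n ℓ hℓ hℓS]
    exact D.frob n ℓ hℓ hℓS A hA τ hτ
  faith := by
    obtain ⟨c, hc⟩ := exists_faith_shift D.act D.act_injective p
    refine ⟨c, fun n t ht => hc n t fun x => ?_⟩
    have h1 : D.Θ (n + c) (D.act t x) = 0 := by
      rw [← D.heckeHom_Θ, ht]
      rfl
    obtain ⟨y, hy⟩ := D.Θ_eq_zero (n + c) _ h1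
    exact ⟨y, hy⟩

end KumLevelData

variable {p : ℕ} {N : ℕ} [NeZero N] {S : Finset ℕ}
  {𝒪 : Type} [CommRing 𝒪] [IsDomain 𝒪] [IsDiscreteValuationRing 𝒪]
  [IsAdicComplete (IsLocalRing.maximalIdeal 𝒪) 𝒪]
  {θ : CuspForm.heckeAlgebra N 2 (↑S : Set ℕ) →+* IsLocalRing.ResidueField 𝒪}
  {T : Type} [CommRing T] [IsLocalRing T] [IsNoetherianRing T]
  [IsAdicComplete (IsLocalRing.maximalIdeal T) T] [Algebra 𝒪 T] [IsLocalHom (algebraMap 𝒪 T)]
  [Module.Finite 𝒪 T] [Module.Free 𝒪 T]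

/-- **S31 from Kummer level data.** -/
theorem s31_of_kumLevelData (D : KumLevelData N S p) (hp : p.Prime)
    (hp𝒪 : (p : 𝒪) ∈ IsLocalRing.maximalIdeal 𝒪) (hpS : p ∈ S)
    (hNS : ∀ q : ℕ, q.Prime → q ∣ N → q ∈ S)
    (H : CuspForm.HeckeGaloisRepDatum N (↑S : Set ℕ) 𝒪 θ T)
    (q : ℕ) (hq : q.Prime) (hqS : q ∉ S) :
    H.ρ.IsUnramifiedAt q :=
  s31_of_tateLevels D.tateLevels hp hp𝒪 hpS hNS H q hq hqS

end Bridge

end Fermat.Agent.GJ.Tate
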