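/-
GATE-J / J4-TATE, leaf LUCAS (helper19): the Lucas sequence `V_j(a, d)` and its two incarnations
used in the density step of S31 (helper53, board 1404):

* `lucasV_eq_pow_add_pow`, `lucasV_eq_of_quadratic`: in ANY ring, if the unit `u` satisfies
  `u * u - a * u + d = 0` with `d` commuting with `u`, then `V_j(a, d) = u ^ j + d ^ j * u⁻¹ ^ j`;
* `trace_pow_eq_lucasV`: an endomorphism `f` of a free module of rank two with
  `charpoly f = X² - t X + d` has `trace (f ^ j) = V_j(t, d)`.
-/
import Mathlib

set_option autoImplicit false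

open Polynomial Module

namespace Fermat.Agent.GJ.Tate.Lucas

section Def

variable {R : Type*} [Ring R]

/-- The Lucas sequence `V_j(a, d)`: `V_0 = 2`, `V_1 = a`, `V_{j+2} = a V_{j+1} - d V_j`. -/
def lucasV (a d : R) : ℕ → R
  | 0 => 2
  | 1 => a
  | (j + 2) => a * lucasV a d (j + 1) - d * lucasV a d j

@[simp] theorem lucasV_zero (a d : R) : lucasV a d 0 = 2 := rfl

@[simp] theorem lucasV_one (a d : R) : lucasV a d 1 = a := rfl

theorem lucasV_add_two (a d : R) (j : ℕ) :
    lucasV a d (j + 2) = a * lucasV a d (j + 1) - d * lucasV a d j := rfl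

/-- Ring homomorphisms commute with the Lucas sequence. -/
theorem map_lucasV {S : Type*} [Ring S] (φ : R →+* S) (a d : R) (j : ℕ) :
    φ (lucasV a d j) = lucasV (φ a) (φ d) j := by
  induction j using Nat.twoStepInduction with
  | zero => rw [lucasV_zero, lucasV_zero, map_ofNat]
  | one => simp
  | more j h0 h1 => rw [lucasV_add_two, lucasV_add_two, map_sub, map_mul, map_mul, h0, h1]

/-- `V_j(x + y, x y) = x ^ j + y ^ j` for commuting `x`, `y`. -/
theorem lucasV_eq_pow_add_pow {x y : R} (hxy : Commute x y) (j : ℕ) :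
    lucasV (x + y) (x * y) j = x ^ j + y ^ j := by
  induction j using Nat.twoStepInduction with
  | zero => simp; norm_num
  | one => simp
  | more j h0 h1 =>
    rw [lucasV_add_two, h0, h1]
    have e1 : y * x ^ (j + 1) = x * y * x ^ j := by
      rw [pow_succ', ← mul_assoc, hxy.eq]
    have e2 : x * y ^ (j + 1) = x * y * y ^ j := by
      rw [pow_succ', mul_assoc]
    have e3 : x * x ^ (j + 1) = x ^ (j + 2) := by rw [← pow_succ']
    have e4 : y * y ^ (j + 1) = y ^ (j + 2) := by rw [← pow_succ']
    rw [add_mul, mul_add, mul_add, mul_add, e1, e2, e3, e4]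
    abel

/-- If the unit `u` satisfies `u * u - a * u + d = 0` and `d` commutes with `u`, then
`V_j(a, d) = u ^ j + d ^ j * u⁻¹ ^ j` (any ring). -/
theorem lucasV_eq_of_quadratic (u : Rˣ) (a d : R) (hd : Commute d (u : R))
    (h : (u : R) * u - a * u + d = 0) (j : ℕ) :
    lucasV a d j = (u : R) ^ j + d ^ j * ((u⁻¹ : Rˣ) : R) ^ j := by
  have hdi : Commute d ((u⁻¹ : Rˣ) : R) := hd.units_inv_right
  have ha : a = (u : R) + d * ((u⁻¹ : Rˣ) : R) := by
    have h1 : a * (u : R) = (u : R) * u + d := by
      have := sub_eq_zero.mp (by rw [← h]; abel : (u : R) * u + d - a * u = 0)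
      exact this.symm
    calc a = a * (u : R) * ((u⁻¹ : Rˣ) : R) := by rw [mul_assoc, Units.mul_inv, mul_one]
      _ = ((u : R) * u + d) * ((u⁻¹ : Rˣ) : R) := by rw [h1]
      _ = (u : R) + d * ((u⁻¹ : Rˣ) : R) := by rw [add_mul, mul_assoc, Units.mul_inv, mul_one]
  have hcomm : Commute (u : R) (d * ((u⁻¹ : Rˣ) : R)) :=
    (hd.symm).mul_right (Commute.refl (u : R)).units_inv_right
  have hprod : (u : R) * (d * ((u⁻¹ : Rˣ) : R)) = d := by
    rw [← mul_assoc, ← hd.eq, mul_assoc, Units.mul_inv, mul_one]
  have key := lucasV_eq_pow_add_pow hcomm j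
  rw [hprod, ← ha] at key
  rw [key, hdi.mul_pow]

/-- Group-representation form: if `r : G →* R` and `r τ` satisfies `X² - a X + l = 0` with `l` a
natural number, then `V_j(a, l) = r (τ ^ j) + l ^ j * r (τ⁻¹ ^ j)`. -/
theorem lucasV_eq_of_monoidHom {G : Type*} [Group G] (r : G →* R) (τ : G) (a : R) (l : ℕ)
    (h : r τ * r τ - a * r τ + (l : R) = 0) (j : ℕ) :
    lucasV a (l : R) j = r (τ ^ j) + (l : R) ^ j * r (τ⁻¹ ^ j) := by
  have := lucasV_eq_of_quadratic (r.toHomUnits τ) a (l : R) (Nat.cast_commute l _)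
    (by simpa using h) j
  rw [this, map_pow, map_pow]
  congr 2

end Def

section Trace

variable {A : Type*} [CommRing A] [Nontrivial A]
  {V : Type*} [AddCommGroup V] [Module A V] [Module.Free A V] [Module.Finite A V]

/-- An endomorphism of a free module of rank two with characteristic polynomial `X² - t X + d`
has `trace (f ^ j) = V_j(t, d)`. -/
theorem trace_pow_eq_lucasV (hV : finrank A V = 2) (f : Module.End A V) (t d : A)
    (h : f.charpoly = X ^ 2 - C t * X + C d) (j : ℕ) :
    LinearMap.trace A V (f ^ j) = lucasV t d j := by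
  have hdeg : f.charpoly.natDegree = 2 := by rw [LinearMap.charpoly_natDegree, hV]
  have htr : LinearMap.trace A V f = t := by
    classical
    rw [LinearMap.trace_eq_matrix_trace A (Module.Free.chooseBasis A V) f,
      Matrix.trace_eq_neg_charpoly_nextCoeff]
    have : (LinearMap.toMatrix (Module.Free.chooseBasis A V) (Module.Free.chooseBasis A V)
        f).charpoly = f.charpoly := rfl
    rw [this, nextCoeff, if_neg (by rw [hdeg]; norm_num), hdeg, h]
    simp [coeff_X_pow]
  have hCH : f * f = t • f - d • 1 := by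
    have h0 := LinearMap.aeval_self_charpoly f
    rw [h, map_add, map_sub, map_pow, map_mul, aeval_X, aeval_C, aeval_C,
      Algebra.algebraMap_eq_smul_one, Algebra.algebraMap_eq_smul_one, smul_mul_assoc, one_mul,
      pow_two] at h0
    rw [← sub_eq_zero, ← h0]
    abel
  induction j using Nat.twoStepInduction with
  | zero =>
    rw [pow_zero, lucasV_zero, LinearMap.trace_one, hV]; norm_num
  | one => rw [pow_one, lucasV_one, htr]
  | more j h0 h1 =>
    have e : f ^ (j + 2) = t • f ^ (j + 1) - d • f ^ j := by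
      rw [pow_add, pow_two, hCH, mul_sub, mul_smul_comm, mul_smul_comm, mul_one, ← pow_succ]
    rw [e, map_sub, map_smul, map_smul, h0, h1, lucasV_add_two, smul_eq_mul, smul_eq_mul]

end Trace

end Fermat.Agent.GJ.Tate.Lucas
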