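/-
GATE-J / J4-TATE, leaf LUCAS (helper19), `T`-side of the density step of S31: for a
Hecke–Galois datum `H`, `trace (ρ_H (τ ^ j)) = π (V_j(T_ℓ, ℓ))` at Frobenius lifts `τ` at `ℓ ∉ S`.
-/
import Mathlib
import Fermat.Prelude.Def_CuspForm_HeckeGaloisRepDatum
import Fermat.Agent.GJ.Tate.Lucas

set_option autoImplicit false

open Polynomial Module CuspForm

namespace Fermat.Agent.GJ.Tate.Lucas

variable {N : ℕ} [NeZero N] {S : Set ℕ}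
  {𝒪 : Type} [CommRing 𝒪] [IsDomain 𝒪] [IsDiscreteValuationRing 𝒪]
  [IsAdicComplete (IsLocalRing.maximalIdeal 𝒪) 𝒪]
  {θ : CuspForm.heckeAlgebra N 2 S →+* IsLocalRing.ResidueField 𝒪}
  {T : Type} [CommRing T] [IsLocalRing T] [IsNoetherianRing T]
  [IsAdicComplete (IsLocalRing.maximalIdeal T) T] [Algebra 𝒪 T] [IsLocalHom (algebraMap 𝒪 T)]
  [Module.Finite 𝒪 T] [Module.Free 𝒪 T]

/-- `T`-side Lucas identity: the trace of `ρ_H` at the `j`-th power of a Frobenius lift at `ℓ ∉ S`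
is the image under `π` of the Lucas element `V_j(T_ℓ, ℓ)` of the Hecke algebra. -/
theorem trace_pow_frob_eq (H : CuspForm.HeckeGaloisRepDatum N S 𝒪 θ T)
    (ℓ : ℕ) (hℓ : ℓ.Prime) (hℓN : ¬ ℓ ∣ N) (hℓS : ℓ ∉ S)
    (A : ValuationSubring (AlgebraicClosure ℚ)) (hA : A.LiesOverPrime ℓ)
    (σ : AlgebraicClosure ℚ ≃ₐ[ℚ] AlgebraicClosure ℚ) (hσ : A.IsFrobeniusAt σ ℓ) (j : ℕ) :
    H.ρ.trace (σ ^ j) =
      H.π (lucasV (heckeAlgebra.T hℓ hℓN hℓS) ((ℓ : ℕ) : heckeAlgebra N 2 S) j) := by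
  unfold GaloisRepAdic.trace
  rw [map_pow, trace_pow_eq_lucasV H.ρ.finrank_eq _ _ _ (H.charpoly_frob ℓ hℓ hℓN hℓS A hA σ hσ) j,
    map_lucasV, map_natCast]

end Fermat.Agent.GJ.Tate.Lucas
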